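import Mathlib

/-!
# Addition formulas on curves `y² + x y = x³ + a₂ x² + a₄ x`

Port of `S05/LegAdd.lean` to the model with `a₁ = 1`, `a₃ = a₆ = 0` (the shape of the Frey curve
itself).  In coordinates `(X, m = Y / X)` the curve is `m² + m = X + a₂ + a₄ / X`, negation is
`m ↦ -m - 1`, the point `(0,0)` is `2`-torsion with `P + (0,0) = (a₄ / X, -m - 1)`, and the group
law has the same uniform shape as on a Legendre curve with `G := m₁ + m₂ + 1` in place of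
`m₁ + m₂`.
-/

set_option autoImplicit false
set_option linter.unusedSectionVars false

namespace Fermat.Agent.S13.TwoAdd

open WeierstrassCurve WeierstrassCurve.Affine

section algebra

variable {K : Type*} [Field K]

/-- The key identity behind all formulas. -/
theorem key_identity {a2 a4 X1 Y1 X2 Y2 : K}
    (e1 : Y1 ^ 2 + X1 * Y1 = X1 ^ 3 + a2 * X1 ^ 2 + a4 * X1)
    (e2 : Y2 ^ 2 + X2 * Y2 = X2 ^ 3 + a2 * X2 ^ 2 + a4 * X2) :
    (Y1 * X2 - Y2 * X1) * (Y1 * X2 + Y2 * X1 + X1 * X2) =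
      X1 * X2 * (X1 - X2) * (X1 * X2 - a4) := by
  linear_combination X2 ^ 2 * e1 - X1 ^ 2 * e2

theorem chord_X {a2 a4 X1 Y1 X2 Y2 : K}
    (e1 : Y1 ^ 2 + X1 * Y1 = X1 ^ 3 + a2 * X1 ^ 2 + a4 * X1)
    (e2 : Y2 ^ 2 + X2 * Y2 = X2 ^ 3 + a2 * X2 ^ 2 + a4 * X2) (hx : X1 - X2 ≠ 0) :
    (((Y1 - Y2) / (X1 - X2)) ^ 2 + (Y1 - Y2) / (X1 - X2) - a2 - X1 - X2) *
        (Y1 * X2 + Y2 * X1 + X1 * X2) ^ 2 =
      X1 * X2 * (X1 * X2 - a4) ^ 2 := by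
  field_simp
  grind

theorem chord_slope {a2 a4 X1 Y1 X2 Y2 : K}
    (e1 : Y1 ^ 2 + X1 * Y1 = X1 ^ 3 + a2 * X1 ^ 2 + a4 * X1)
    (e2 : Y2 ^ 2 + X2 * Y2 = X2 ^ 3 + a2 * X2 ^ 2 + a4 * X2) (hx : X1 - X2 ≠ 0) :
    ((Y1 - Y2) / (X1 - X2)) * X1 * (Y1 * X2 + Y2 * X1 + X1 * X2) =
      Y1 * (Y1 * X2 + Y2 * X1 + X1 * X2) + X1 * X2 * (X1 * X2 - a4) := by
  have k := key_identity e1 e2
  field_simp
  linear_combination k

theorem tangent_X {a2 a4 X1 Y1 : K}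
    (e1 : Y1 ^ 2 + X1 * Y1 = X1 ^ 3 + a2 * X1 ^ 2 + a4 * X1)
    (hY : 2 * Y1 + X1 ≠ 0) :
    (((3 * X1 ^ 2 + 2 * a2 * X1 + a4 - Y1) / (2 * Y1 + X1)) ^ 2 +
        (3 * X1 ^ 2 + 2 * a2 * X1 + a4 - Y1) / (2 * Y1 + X1) - a2 - X1 - X1) *
        (Y1 * X1 + Y1 * X1 + X1 * X1) ^ 2 =
      X1 * X1 * (X1 * X1 - a4) ^ 2 := by
  field_simp
  grind

theorem tangent_slope {a2 a4 X1 Y1 : K}
    (e1 : Y1 ^ 2 + X1 * Y1 = X1 ^ 3 + a2 * X1 ^ 2 + a4 * X1)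
    (hY : 2 * Y1 + X1 ≠ 0) :
    ((3 * X1 ^ 2 + 2 * a2 * X1 + a4 - Y1) / (2 * Y1 + X1)) * X1 * (Y1 * X1 + Y1 * X1 + X1 * X1) =
      Y1 * (Y1 * X1 + Y1 * X1 + X1 * X1) + X1 * X1 * (X1 * X1 - a4) := by
  field_simp
  grind

/-- From the slope formula, the formula for the `Y`-coordinate of the sum. -/
theorem Y_of_slope {a4 X1 Y1 X2 X3 D ℓ : K}
    (hℓ : ℓ * X1 * D = Y1 * D + X1 * X2 * (X1 * X2 - a4)) :
    (-(ℓ * (X3 - X1) + Y1) - X3) * X1 * D =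
      -(Y1 + X1) * D * X3 + X1 * X2 * (X1 * X2 - a4) * (X1 - X3) := by
  linear_combination (-(X3 - X1)) * hℓ

end algebra

variable {K : Type*} [Field K] {W : Affine K}

/-- The equation of the curve. -/
theorem eqn (h1 : W.a₁ = 1) (h3 : W.a₃ = 0) (h6 : W.a₆ = 0) {x y : K} (h : W.Equation x y) :
    y ^ 2 + x * y = x ^ 3 + W.a₂ * x ^ 2 + W.a₄ * x := by
  rw [equation_iff, h1, h3, h6] at h
  linear_combination h

theorem negY_eq (h1 : W.a₁ = 1) (h3 : W.a₃ = 0) (x y : K) : W.negY x y = -y - x := by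
  rw [negY, h1, h3]; ring

variable [DecidableEq K]

/-- **Master addition formula**, valid for chords and tangents. -/
theorem add_some (h1 : W.a₁ = 1) (h3 : W.a₃ = 0) (h6 : W.a₆ = 0) {X1 Y1 X2 Y2 : K}
    (hP1 : W.Nonsingular X1 Y1) (hP2 : W.Nonsingular X2 Y2)
    (hD : Y1 * X2 + Y2 * X1 + X1 * X2 ≠ 0) :
    ∃ X3 Y3, ∃ h : W.Nonsingular X3 Y3,
      Point.some X1 Y1 hP1 + Point.some X2 Y2 hP2 = Point.some X3 Y3 h ∧
      X3 * (Y1 * X2 + Y2 * X1 + X1 * X2) ^ 2 = X1 * X2 * (X1 * X2 - W.a₄) ^ 2 ∧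
      Y3 * X1 * (Y1 * X2 + Y2 * X1 + X1 * X2) =
        -(Y1 + X1) * (Y1 * X2 + Y2 * X1 + X1 * X2) * X3 +
          X1 * X2 * (X1 * X2 - W.a₄) * (X1 - X3) := by
  have e1 := eqn h1 h3 h6 hP1.1
  have e2 := eqn h1 h3 h6 hP2.1
  by_cases hx : X1 = X2
  · -- tangent case
    have hY : Y1 ≠ W.negY X2 Y2 := by
      rw [negY_eq h1 h3]
      intro hc
      apply hD
      rw [hc, hx]; ring
    have hYY : Y1 = Y2 := Y_eq_of_Y_ne hP1.1 hP2.1 hx hY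
    subst hx
    subst hYY
    have hD' : X1 * (2 * Y1 + X1) ≠ 0 := by
      intro hc
      apply hD
      linear_combination hc
    have hY0 : 2 * Y1 + X1 ≠ 0 := right_ne_zero_of_mul hD'
    have hs : W.slope X1 X1 Y1 Y1 =
        (3 * X1 ^ 2 + 2 * W.a₂ * X1 + W.a₄ - Y1) / (2 * Y1 + X1) := by
      rw [slope_of_Y_ne rfl hY, negY_eq h1 h3, h1]
      congr 1 <;> ring
    refine ⟨_, _, _, Point.add_of_Y_ne hY, ?_, ?_⟩
    · rw [hs, addX, h1]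
      have := tangent_X e1 hY0
      linear_combination this
    · rw [addY, negAddY, hs, negY_eq h1 h3]
      exact Y_of_slope (tangent_slope e1 hY0)
  · -- chord case
    have hx' : X1 - X2 ≠ 0 := sub_ne_zero.mpr hx
    refine ⟨_, _, _, Point.add_of_X_ne hx, ?_, ?_⟩
    · rw [slope_of_X_ne hx, addX, h1]
      have := chord_X e1 e2 hx'
      linear_combination this
    · rw [addY, negAddY, slope_of_X_ne hx, negY_eq h1 h3]
      exact Y_of_slope (chord_slope e1 e2 hx')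

theorem some_congr {x y x' y' : K} (hx : x = x') (hy : y = y') (h : W.Nonsingular x y) :
    ∃ h' : W.Nonsingular x' y', Point.some x y h = Point.some x' y' h' := by
  subst hx; subst hy; exact ⟨h, rfl⟩

/-- `P` is the affine point with abscissa `X ≠ 0` and ordinate `m * X`. -/
def IsXM (P : W.Point) (X m : K) : Prop :=
  X ≠ 0 ∧ ∃ h : W.Nonsingular X (m * X), P = Point.some X (m * X) h

theorem isXM_some {X Y : K} (h : W.Nonsingular X Y) (hX : X ≠ 0) :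
    IsXM (Point.some X Y h) X (Y / X) := by
  refine ⟨hX, ?_⟩
  exact some_congr rfl (div_mul_cancel₀ Y hX).symm h

/-- The curve equation in `(X, m)`-coordinates, polynomial form. -/
theorem eqn_XM (h1 : W.a₁ = 1) (h3 : W.a₃ = 0) (h6 : W.a₆ = 0) {X m : K} (hX : X ≠ 0)
    (h : W.Equation X (m * X)) : (m ^ 2 + m) * X = X ^ 2 + W.a₂ * X + W.a₄ := by
  have e := TwoAdd.eqn h1 h3 h6 h
  have : X * ((m ^ 2 + m) * X - (X ^ 2 + W.a₂ * X + W.a₄)) = 0 := by linear_combination e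
  rcases mul_eq_zero.mp this with h | h
  · exact absurd h hX
  · exact sub_eq_zero.mp h

/-- The curve equation in `(X, m)`-coordinates. -/
theorem IsXM.eqn (h1 : W.a₁ = 1) (h3 : W.a₃ = 0) (h6 : W.a₆ = 0) {P : W.Point} {X m : K}
    (hP : IsXM P X m) : m ^ 2 + m = X + W.a₂ + W.a₄ / X := by
  obtain ⟨hX, h, -⟩ := hP
  have e := eqn_XM h1 h3 h6 hX h.1
  field_simp
  linear_combination e

theorem IsXM.unique {P : W.Point} {X m X' m' : K} (hP : IsXM P X m) (hP' : IsXM P X' m') :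
    X = X' ∧ m = m' := by
  obtain ⟨hX, h, rfl⟩ := hP
  obtain ⟨hX', h', e⟩ := hP'
  injection e with e1 e2
  subst e1
  exact ⟨rfl, mul_right_cancel₀ hX e2⟩

/-- Negation in `(X, m)`-coordinates. -/
theorem IsXM.neg (h1 : W.a₁ = 1) (h3 : W.a₃ = 0) {P : W.Point} {X m : K} (hP : IsXM P X m) :
    IsXM (-P) X (-m - 1) := by
  obtain ⟨hX, h, rfl⟩ := hP
  refine ⟨hX, ?_⟩
  rw [Point.neg_some]
  apply some_congr rfl
  rw [negY_eq h1 h3]; ring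

/-- Translation by the `2`-torsion point `(0,0)` in `(X, m)`-coordinates. -/
theorem IsXM.add_T0 (h1 : W.a₁ = 1) (h3 : W.a₃ = 0) (h6 : W.a₆ = 0) (h0 : W.Nonsingular 0 0)
    {P : W.Point} {X m : K} (hP : IsXM P X m) (ha4 : W.a₄ ≠ 0) :
    IsXM (P + Point.some 0 0 h0) (W.a₄ / X) (-m - 1) := by
  obtain ⟨hX, h, rfl⟩ := hP
  refine ⟨div_ne_zero ha4 hX, ?_⟩
  rw [Point.add_of_X_ne hX]
  have hs : W.slope X 0 (m * X) 0 = m := by
    rw [slope_of_X_ne hX, sub_zero, sub_zero, mul_div_cancel_right₀ _ hX]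
  have hm : m ^ 2 + m = X + W.a₂ + W.a₄ / X := IsXM.eqn h1 h3 h6 ⟨hX, h, rfl⟩
  apply some_congr
  · rw [hs, addX, h1]
    linear_combination hm
  · rw [addY, negAddY, hs, negY_eq h1 h3, addX, h1]
    linear_combination (-m - 1) * hm

/-- `(0,0) + (0,0) = 0`. -/
theorem T0_add_T0 (h1 : W.a₁ = 1) (h3 : W.a₃ = 0) (h0 : W.Nonsingular 0 0) :
    Point.some 0 0 h0 + Point.some 0 0 h0 = 0 := by
  apply Point.add_of_Y_eq rfl
  rw [negY_eq h1 h3]; ring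

/-- **Master addition formula** in `(X, m)`-coordinates. -/
theorem IsXM.add (h1 : W.a₁ = 1) (h3 : W.a₃ = 0) (h6 : W.a₆ = 0)
    {P1 P2 : W.Point} {X1 m1 X2 m2 : K} (hP1 : IsXM P1 X1 m1) (hP2 : IsXM P2 X2 m2)
    (hm : m1 + m2 + 1 ≠ 0) (hne : X1 * X2 ≠ W.a₄) :
    IsXM (P1 + P2) ((X1 * X2 - W.a₄) ^ 2 / (X1 * X2 * (m1 + m2 + 1) ^ 2))
      (m2 + W.a₄ * (m1 + m2 + 1) / (X1 * X2 - W.a₄) -
        (X1 * X2 - W.a₄) / (X1 * (m1 + m2 + 1))) := by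
  obtain ⟨hX1, h, rfl⟩ := hP1
  obtain ⟨hX2, h', rfl⟩ := hP2
  have hX12 : X1 * X2 ≠ 0 := mul_ne_zero hX1 hX2
  have hDe : m1 * X1 * X2 + m2 * X2 * X1 + X1 * X2 = X1 * X2 * (m1 + m2 + 1) := by ring
  have hD : m1 * X1 * X2 + m2 * X2 * X1 + X1 * X2 ≠ 0 := by
    rw [hDe]
    exact mul_ne_zero hX12 hm
  have hne' : X1 * X2 - W.a₄ ≠ 0 := sub_ne_zero.mpr hne
  obtain ⟨X3, Y3, h3', hadd, hX3, hY3⟩ := add_some h1 h3 h6 h h' hD
  have hDn : X1 * X2 * (m1 + m2 + 1) ^ 2 ≠ 0 := mul_ne_zero hX12 (pow_ne_zero _ hm)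
  have hX3' : X3 * (X1 * X2 * (m1 + m2 + 1) ^ 2) = (X1 * X2 - W.a₄) ^ 2 := by
    have : X1 * X2 * (X3 * (X1 * X2 * (m1 + m2 + 1) ^ 2) - (X1 * X2 - W.a₄) ^ 2) = 0 := by
      linear_combination hX3
    rcases mul_eq_zero.mp this with h | h
    · exact absurd h hX12
    · exact sub_eq_zero.mp h
  have eX : X3 = (X1 * X2 - W.a₄) ^ 2 / (X1 * X2 * (m1 + m2 + 1) ^ 2) := by
    rw [eq_div_iff hDn]
    exact hX3'
  have hX3ne : X3 ≠ 0 := by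
    rw [eX]
    exact div_ne_zero (pow_ne_zero _ hne') hDn
  refine ⟨by rw [← eX]; exact hX3ne, ?_⟩
  rw [hadd]
  apply some_congr eX
  rw [← eX]
  have hY3' : Y3 * X1 * (m1 + m2 + 1) =
      -(m1 * X1 + X1) * (m1 + m2 + 1) * X3 + (X1 * X2 - W.a₄) * (X1 - X3) := by
    have : X1 * X2 * (Y3 * X1 * (m1 + m2 + 1) -
        (-(m1 * X1 + X1) * (m1 + m2 + 1) * X3 + (X1 * X2 - W.a₄) * (X1 - X3))) = 0 := by
      linear_combination hY3
    rcases mul_eq_zero.mp this with h | h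
    · exact absurd h hX12
    · exact sub_eq_zero.mp h
  have hden : X1 * (m1 + m2 + 1) * (X1 * X2 - W.a₄) ≠ 0 :=
    mul_ne_zero (mul_ne_zero hX1 hm) hne'
  have hkey : Y3 * (X1 * (m1 + m2 + 1) * (X1 * X2 - W.a₄)) =
      (m2 * X1 * (m1 + m2 + 1) * (X1 * X2 - W.a₄) + W.a₄ * (m1 + m2 + 1) ^ 2 * X1 -
        (X1 * X2 - W.a₄) ^ 2) * X3 := by
    linear_combination (X1 * X2 - W.a₄) * hY3' - X1 * hX3'
  have hm3 : m2 + W.a₄ * (m1 + m2 + 1) / (X1 * X2 - W.a₄) -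
        (X1 * X2 - W.a₄) / (X1 * (m1 + m2 + 1)) =
      (m2 * X1 * (m1 + m2 + 1) * (X1 * X2 - W.a₄) + W.a₄ * (m1 + m2 + 1) ^ 2 * X1 -
        (X1 * X2 - W.a₄) ^ 2) / (X1 * (m1 + m2 + 1) * (X1 * X2 - W.a₄)) := by
    field_simp
  rw [hm3, div_mul_eq_mul_div, eq_div_iff hden]
  exact hkey

/-- If `X₁ X₂ = a₄` (and `m₁ + m₂ + 1 ≠ 0`) the sum is the point `(0,0)`. -/
theorem IsXM.add_eq_T0 (h1 : W.a₁ = 1) (h3 : W.a₃ = 0) (h6 : W.a₆ = 0) (h0 : W.Nonsingular 0 0)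
    {P1 P2 : W.Point} {X1 m1 X2 m2 : K} (hP1 : IsXM P1 X1 m1) (hP2 : IsXM P2 X2 m2)
    (hm : m1 + m2 + 1 ≠ 0) (he : X1 * X2 = W.a₄) :
    P1 + P2 = Point.some 0 0 h0 := by
  obtain ⟨hX1, h, rfl⟩ := hP1
  obtain ⟨hX2, h', rfl⟩ := hP2
  have hD : m1 * X1 * X2 + m2 * X2 * X1 + X1 * X2 ≠ 0 := by
    have : m1 * X1 * X2 + m2 * X2 * X1 + X1 * X2 = X1 * X2 * (m1 + m2 + 1) := by ring
    rw [this]
    exact mul_ne_zero (mul_ne_zero hX1 hX2) hm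
  obtain ⟨X3, Y3, h3', hadd, hX3, hY3⟩ := add_some h1 h3 h6 h h' hD
  rw [he, sub_self] at hX3 hY3
  have hX30 : X3 = 0 := by
    have : X3 * (m1 * X1 * X2 + m2 * X2 * X1 + W.a₄) ^ 2 = 0 := by rw [hX3]; ring
    rcases mul_eq_zero.mp this with h | h
    · exact h
    · exact absurd ((pow_eq_zero_iff two_ne_zero).mp h) (by rw [← he]; exact hD)
  have hY30 : Y3 = 0 := by
    rw [hX30] at hY3
    have : Y3 * (X1 * (m1 * X1 * X2 + m2 * X2 * X1 + W.a₄)) = 0 := by linear_combination hY3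
    rcases mul_eq_zero.mp this with h | h
    · exact h
    · exact absurd h (mul_ne_zero hX1 (by rw [← he]; exact hD))
  rw [hadd]
  obtain ⟨h'', e⟩ := some_congr hX30 hY30 h3'
  rw [e]

/-- If `m₁ + m₂ + 1 = 0` and `X₁ X₂ ≠ a₄` the two points are opposite. -/
theorem IsXM.add_eq_zero (h1 : W.a₁ = 1) (h3 : W.a₃ = 0) (h6 : W.a₆ = 0)
    {P1 P2 : W.Point} {X1 m1 X2 m2 : K}
    (hP1 : IsXM P1 X1 m1) (hP2 : IsXM P2 X2 m2) (hG : m1 + m2 + 1 = 0) (hne : X1 * X2 ≠ W.a₄) :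
    P1 + P2 = 0 := by
  have e1 := hP1.eqn h1 h3 h6
  have e2 := hP2.eqn h1 h3 h6
  obtain ⟨hX1, h, rfl⟩ := hP1
  obtain ⟨hX2, h', rfl⟩ := hP2
  have hm2 : m2 = -m1 - 1 := by linear_combination hG
  subst hm2
  have hXX : X1 = X2 := by
    have h0 : (X1 - X2) * (X1 * X2 - W.a₄) = 0 := by
      have : (-m1 - 1) ^ 2 + (-m1 - 1) = m1 ^ 2 + m1 := by ring
      rw [this, e1] at e2
      field_simp at e2
      linear_combination e2
    rcases mul_eq_zero.mp h0 with h0 | h0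
    · exact sub_eq_zero.mp h0
    · exact absurd (sub_eq_zero.mp h0) hne
  subst hXX
  apply Point.add_of_Y_eq rfl
  rw [negY_eq h1 h3]
  ring

end Fermat.Agent.S13.TwoAdd
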