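import Mathlib
import Fermat.Agent.S13.Two.TwoAdd

/-!
# Torsion labels on a curve `y² + x y = x³ + a x² + b x` with a node

Port of `S05/LegLabel.lean` to the model with `a₁ = 1`.  Over a valued field, `s` an integral root
of `T² + T - a` with `2 s + 1` a unit (automatic in residue characteristic `2`), `b ≠ 0` in the
maximal ideal.  We show: if `n • (x, y) = 0` and `v b < v x < 1`, then `v x ^ n = v b ^ k` for some
integer `k`; along the way, `E0` (points not reducing to the node) is closed under addition and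
the labels of points near the node are additive.
-/

set_option autoImplicit false
set_option linter.unusedVariables false
set_option linter.unusedSectionVars false

namespace Fermat.Agent.S13.TwoLabel

section Val

variable {K : Type*} [Field K] {Γ₀ : Type*} [LinearOrderedCommGroupWithZero Γ₀]
  (v : Valuation K Γ₀)

/-- The valuation environment: `s` is a root of `T² + T - a`, integral, with `2 s + 1` (the
difference of the two roots) a unit; `b ≠ 0` lies in the maximal ideal. -/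
structure VEnv (a b s : K) : Prop where
  hs : s ^ 2 + s = a
  vs : v s ≤ 1
  vd : v (2 * s + 1) = 1
  vb : v b < 1
  b_ne : b ≠ 0

variable {v} {a b s : K}

/-- In residue characteristic `2` the condition on `2 s + 1` is automatic. -/
theorem VEnv.of_two (hs : s ^ 2 + s = a) (va : v a ≤ 1) (h2 : v (2 : K) < 1) (vb : v b < 1)
    (b_ne : b ≠ 0) : VEnv v a b s := by
  have vs : v s ≤ 1 := by
    by_contra hcon
    push Not at hcon
    have h1 : v s < v (s ^ 2) := by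
      rw [map_pow, pow_two]
      exact lt_mul_of_one_lt_left (lt_trans zero_lt_one hcon) hcon
    have h2 : v (s ^ 2 + s) = v (s ^ 2) := Valuation.map_add_eq_of_lt_left _ h1
    rw [hs] at h2
    have : 1 < v a := by rw [h2]; exact lt_trans hcon h1
    exact absurd va (not_le.mpr this)
  refine ⟨hs, vs, ?_, vb, b_ne⟩
  have h3 : v (2 * s) < 1 := by
    rw [map_mul]
    exact mul_lt_one_of_nonneg_of_lt_one_left zero_le h2 vs
  rw [add_comm, Valuation.map_add_eq_of_lt_left _ (by rw [map_one]; exact h3), map_one]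

theorem VEnv.va (hE : VEnv v a b s) : v a ≤ 1 := by
  rw [← hE.hs]
  refine v.map_add_le ?_ hE.vs
  rw [map_pow]
  exact pow_le_one₀ zero_le hE.vs

theorem VEnv.vs' (hE : VEnv v a b s) : v (-s - 1) ≤ 1 := by
  refine v.map_sub_le ?_ (by rw [map_one])
  rw [Valuation.map_neg]; exact hE.vs

/-- The other root `-s - 1` gives the same environment. -/
theorem VEnv.swap (hE : VEnv v a b s) : VEnv v a b (-s - 1) := by
  refine ⟨by rw [← hE.hs]; ring, hE.vs', ?_, hE.vb, hE.b_ne⟩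
  have : 2 * (-s - 1) + 1 = -(2 * s + 1) := by ring
  rw [this, Valuation.map_neg, hE.vd]

theorem VEnv.vb_pos (hE : VEnv v a b s) : 0 < v b :=
  lt_of_le_of_ne zero_le (Ne.symm (v.ne_zero_iff.mpr hE.b_ne))

/-- `v (b / X) < 1` when `v b < v X`. -/
theorem val_b_div_lt {X : K} (hE : VEnv v a b s) (hX : v b < v X) : v (b / X) < 1 := by
  have hX0 : 0 < v X := lt_of_le_of_lt zero_le hX
  rw [map_div₀]
  exact (div_lt_one₀ hX0).mpr hX

/-- If `1 < v m` then `v (m² + m) = v m ²`. -/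
theorem val_sq_add {m : K} (hm : 1 < v m) : v (m ^ 2 + m) = v m ^ 2 := by
  have h1 : v m < v (m ^ 2) := by
    rw [map_pow, pow_two]
    exact lt_mul_of_one_lt_left (lt_trans zero_lt_one hm) hm
  rw [Valuation.map_add_eq_of_lt_left _ h1, map_pow]

/-- The right hand side is bounded by `v X` away from the node. -/
theorem val_rhs_le {X : K} (hE : VEnv v a b s) (h1 : 1 ≤ v X) : v (X + a + b / X) ≤ v X := by
  have hb : v (b / X) < 1 := val_b_div_lt hE (lt_of_lt_of_le hE.vb h1)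
  exact v.map_add_le (v.map_add_le le_rfl (hE.va.trans h1)) (hb.le.trans h1)

/-- (F1) away from the node, `v m ^ 2 ≤ v X`. -/
theorem val_m_sq_le {X m : K} (hE : VEnv v a b s) (hm : m ^ 2 + m = X + a + b / X)
    (h1 : 1 ≤ v X) : v m ^ 2 ≤ v X := by
  rcases le_or_gt (v m) 1 with h | h
  · exact (pow_le_one₀ zero_le h).trans h1
  · rw [← val_sq_add h, hm]
    exact val_rhs_le hE h1

/-- (F4) two residues congruent to `s` have a unit `G`. -/
theorem val_G_one {m1 m2 : K} (hE : VEnv v a b s) (h1 : v (m1 - s) < 1) (h2 : v (m2 - s) < 1) :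
    v (m1 + m2 + 1) = 1 := by
  have : m1 + m2 + 1 = (2 * s + 1) + ((m1 - s) + (m2 - s)) := by ring
  rw [this]
  have hsm : v ((m1 - s) + (m2 - s)) < 1 := v.map_add_lt h1 h2
  rw [Valuation.map_add_eq_of_lt_left _ (by rw [hE.vd]; exact hsm), hE.vd]

theorem val_m_le_one {m : K} (hE : VEnv v a b s) (h1 : v (m - s) < 1) : v m ≤ 1 := by
  have : m = s + (m - s) := by ring
  rw [this]
  exact v.map_add_le hE.vs h1.le

/-- The factorisation of the equation along the two branches. -/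
theorem branch_factor {X m : K} (hE : VEnv v a b s) (hm : m ^ 2 + m = X + a + b / X) :
    (m - s) * (m + s + 1) = X + b / X := by
  have := hE.hs
  linear_combination hm - this

/-- (F2) away from the node, `v (m + m' + 1) ^ 2 = v X` when `m' ≡ s`. -/
theorem val_G_sq {X m m' : K} (hE : VEnv v a b s) (hm : m ^ 2 + m = X + a + b / X)
    (h1 : 1 ≤ v X) (hc : v (m' - s) < 1) : v (m + m' + 1) ^ 2 = v X := by
  have hb : v (b / X) < 1 := val_b_div_lt hE (lt_of_lt_of_le hE.vb h1)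
  have hm' : v (m' + 1) ≤ 1 := v.map_add_le (val_m_le_one hE hc) (by rw [map_one])
  rcases lt_or_eq_of_le h1 with hlt | heq
  · -- `1 < v X`
    have hrhs : v (X + a + b / X) = v X := by
      have h2 : v (a + b / X) < v X :=
        lt_of_le_of_lt (v.map_add_le (g := 1) hE.va hb.le) hlt
      have : X + a + b / X = X + (a + b / X) := by ring
      rw [this, Valuation.map_add_eq_of_lt_left _ h2]
    have hm1 : 1 < v m := by
      by_contra hcon
      push Not at hcon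
      have : v (m ^ 2 + m) ≤ 1 := by
        refine v.map_add_le ?_ hcon
        rw [map_pow]; exact pow_le_one₀ zero_le hcon
      rw [hm, hrhs] at this
      exact absurd hlt (not_lt.mpr this)
    have hmsq : v m ^ 2 = v X := by rw [← val_sq_add hm1, hm, hrhs]
    have : m + m' + 1 = m + (m' + 1) := by ring
    rw [this, Valuation.map_add_eq_of_lt_left _ (lt_of_le_of_lt hm' hm1), hmsq]
  · -- `v X = 1`
    rw [← heq]
    have hmle : v m ≤ 1 := by
      have := val_m_sq_le hE hm h1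
      rw [← heq] at this
      exact (pow_le_one_iff (n := 2) two_ne_zero).mp this
    have hprod : v ((m - s) * (m + s + 1)) = 1 := by
      rw [branch_factor hE hm, Valuation.map_add_eq_of_lt_left _ (by rw [← heq]; exact hb), ← heq]
    have h1' : v (m - s) ≤ 1 := v.map_sub_le hmle hE.vs
    have h2' : v (m + s + 1) ≤ 1 := v.map_add_le (v.map_add_le hmle hE.vs) (by rw [map_one])
    have h3 : v (m + s + 1) = 1 := by
      rw [map_mul] at hprod
      rcases lt_or_eq_of_le h2' with h | h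
      · exfalso
        have : v (m - s) * v (m + s + 1) < 1 :=
          mul_lt_one_of_nonneg_of_lt_one_right h1' zero_le h
        rw [hprod] at this
        exact lt_irrefl _ this
      · exact h
    have : m + m' + 1 = (m + s + 1) + (m' - s) := by ring
    rw [this, Valuation.map_add_eq_of_lt_left _ (by rw [h3]; exact hc), h3, one_pow]

/-- (F3) near the node, `m ≡ s` or `m ≡ -s - 1`. -/
theorem dichotomy {X m : K} (hE : VEnv v a b s) (hm : m ^ 2 + m = X + a + b / X)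
    (hl : v b < v X) (hu : v X < 1) : v (m - s) < 1 ∨ v (m + s + 1) < 1 := by
  have hb : v (b / X) < 1 := val_b_div_lt hE hl
  have hprod : v ((m - s) * (m + s + 1)) < 1 := by
    rw [branch_factor hE hm]
    exact v.map_add_lt hu hb
  by_contra hcon
  push Not at hcon
  rw [map_mul] at hprod
  have : 1 ≤ v (m - s) * v (m + s + 1) := one_le_mul_of_one_le_of_one_le hcon.1 hcon.2
  exact absurd hprod (not_lt.mpr this)

/-- valuation of the abscissa of the sum, when `v b < v (X1 X2)`. -/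
theorem val_X3 {X1 X2 G : K} (hX1 : X1 ≠ 0) (hX2 : X2 ≠ 0) (hG : G ≠ 0)
    (hab : v b < v X1 * v X2) :
    v ((X1 * X2 - b) ^ 2 / (X1 * X2 * G ^ 2)) = v X1 * v X2 / v G ^ 2 := by
  have h1 : v (X1 * X2 - b) = v X1 * v X2 := by
    rw [Valuation.map_sub_eq_of_lt_left _ (by rw [map_mul]; exact hab), map_mul]
  have h1' : v X1 ≠ 0 := v.ne_zero_iff.mpr hX1
  have h2' : v X2 ≠ 0 := v.ne_zero_iff.mpr hX2
  have h3' : v G ≠ 0 := v.ne_zero_iff.mpr hG
  rw [map_div₀, map_pow, h1, map_mul, map_mul, map_pow]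
  field_simp

theorem val_T1 {X1 X2 G : K} (hX1 : X1 ≠ 0) (hX2 : X2 ≠ 0)
    (hab : v b < v X1 * v X2) :
    v (b * G / (X1 * X2 - b)) = v b * v G / (v X1 * v X2) := by
  have h1 : v (X1 * X2 - b) = v X1 * v X2 := by
    rw [Valuation.map_sub_eq_of_lt_left _ (by rw [map_mul]; exact hab), map_mul]
  rw [map_div₀, map_mul, h1]

theorem val_T2 {X1 X2 G : K} (hX1 : X1 ≠ 0) (hX2 : X2 ≠ 0) (hG : G ≠ 0)
    (hab : v b < v X1 * v X2) :
    v ((X1 * X2 - b) / (X1 * G)) = v X2 / v G := by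
  have h1 : v (X1 * X2 - b) = v X1 * v X2 := by
    rw [Valuation.map_sub_eq_of_lt_left _ (by rw [map_mul]; exact hab), map_mul]
  have h1' : v X1 ≠ 0 := v.ne_zero_iff.mpr hX1
  have h3' : v G ≠ 0 := v.ne_zero_iff.mpr hG
  rw [map_div₀, h1, map_mul]
  field_simp

end Val


section Points

open TwoAdd

variable {K : Type*} [Field K] [DecidableEq K] {Γ₀ : Type*} [LinearOrderedCommGroupWithZero Γ₀]
  {v : Valuation K Γ₀} {W : WeierstrassCurve.Affine K} {s : K}

open WeierstrassCurve WeierstrassCurve.Affine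

/-- The hypotheses on the curve. -/
structure Node (v : Valuation K Γ₀) (W : Affine K) (s : K) : Prop where
  h1 : W.a₁ = 1
  h3 : W.a₃ = 0
  h6 : W.a₆ = 0
  env : VEnv v W.a₂ W.a₄ s

/-- The other branch. -/
theorem Node.swap (hN : Node v W s) : Node v W (-s - 1) :=
  ⟨hN.h1, hN.h3, hN.h6, hN.env.swap⟩

/-- Points not reducing to the node. -/
def E0 (v : Valuation K Γ₀) (P : W.Point) : Prop :=
  P = 0 ∨ ∃ X m, IsXM P X m ∧ 1 ≤ v X

/-- Points near the node on the branch `m ≡ s`, with `v X = v c`. -/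
def Cp (v : Valuation K Γ₀) (s c : K) (P : W.Point) : Prop :=
  ∃ X m, IsXM P X m ∧ v X = v c ∧ v (m - s) < 1

theorem Cp_congr {c c' : K} (h : v c = v c') {P : W.Point} (hP : Cp v s c P) : Cp v s c' P := by
  obtain ⟨X, m, hXM, hX, hm⟩ := hP
  exact ⟨X, m, hXM, hX.trans h, hm⟩

/-- `E0` is stable under negation. -/
theorem E0_neg (hN : Node v W s) {P : W.Point} (h : E0 v P) : E0 v (-P) := by
  rcases h with rfl | ⟨X, m, hP, hv⟩
  · left; simp
  · exact Or.inr ⟨X, -m - 1, hP.neg hN.h1 hN.h3, hv⟩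

/-- Core 1: `E0` is closed under addition. -/
theorem E0_add (hN : Node v W s) {P1 P2 : W.Point} (h1 : E0 v P1) (h2 : E0 v P2) :
    E0 v (P1 + P2) := by
  have hE := hN.env
  rcases h1 with rfl | ⟨X1, m1, hP1, hv1⟩
  · rw [zero_add]; exact h2
  rcases h2 with rfl | ⟨X2, m2, hP2, hv2⟩
  · rw [add_zero]; exact Or.inr ⟨X1, m1, hP1, hv1⟩
  have e1 := hP1.eqn hN.h1 hN.h3 hN.h6
  have e2 := hP2.eqn hN.h1 hN.h3 hN.h6
  have hX1 : X1 ≠ 0 := hP1.1
  have hX2 : X2 ≠ 0 := hP2.1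
  have h12 : 1 ≤ v X1 * v X2 := one_le_mul_of_one_le_of_one_le hv1 hv2
  have hab : v W.a₄ < v X1 * v X2 := lt_of_lt_of_le hE.vb h12
  have hne : X1 * X2 ≠ W.a₄ := by
    intro h
    rw [← map_mul, h] at hab
    exact lt_irrefl _ hab
  by_cases hG : m1 + m2 + 1 = 0
  · left
    exact hP1.add_eq_zero hN.h1 hN.h3 hN.h6 hP2 hG hne
  · right
    refine ⟨_, _, hP1.add hN.h1 hN.h3 hN.h6 hP2 hG hne, ?_⟩
    rw [val_X3 hX1 hX2 hG hab]
    have hG0 : 0 < v (m1 + m2 + 1) ^ 2 :=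
      pow_pos (lt_of_le_of_ne zero_le (Ne.symm (v.ne_zero_iff.mpr hG))) 2
    rw [one_le_div₀ hG0]
    have f1 := val_m_sq_le hE e1 hv1
    have f2 := val_m_sq_le hE e2 hv2
    have hG' : v (m1 + m2 + 1) ≤ max (max (v m1) (v m2)) 1 := by
      refine (v.map_add _ _).trans (max_le_max (v.map_add _ _) (by rw [map_one]))
    rcases le_max_iff.mp hG' with h | h
    · rcases le_max_iff.mp h with h | h
      · calc v (m1 + m2 + 1) ^ 2 ≤ v m1 ^ 2 := pow_le_pow_left₀ zero_le h 2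
          _ ≤ v X1 := f1
          _ ≤ v X1 * v X2 := le_mul_of_one_le_right zero_le hv2
      · calc v (m1 + m2 + 1) ^ 2 ≤ v m2 ^ 2 := pow_le_pow_left₀ zero_le h 2
          _ ≤ v X2 := f2
          _ ≤ v X1 * v X2 := le_mul_of_one_le_left zero_le hv1
    · exact (pow_le_one₀ zero_le h).trans h12

/-- Core 2: `E0 + C⁺(c) ⊆ C⁺(c)`. -/
theorem E0_add_Cp (hN : Node v W s) {c : K} (hc1 : v W.a₄ < v c) (hc2 : v c < 1)
    {P1 P2 : W.Point} (h1 : E0 v P1) (h2 : Cp v s c P2) : Cp v s c (P1 + P2) := by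
  have hE := hN.env
  rcases h1 with rfl | ⟨X1, m1, hP1, hv1⟩
  · rw [zero_add]; exact h2
  obtain ⟨X2, m2, hP2, hv2, hm2⟩ := h2
  have e1 := hP1.eqn hN.h1 hN.h3 hN.h6
  have hX1 : X1 ≠ 0 := hP1.1
  have hX2 : X2 ≠ 0 := hP2.1
  have hX2pos : 0 < v X2 := lt_of_le_of_ne zero_le (Ne.symm (v.ne_zero_iff.mpr hX2))
  have hM := val_G_sq hE e1 hv1 hm2
  have hM1 : 1 ≤ v (m1 + m2 + 1) := by
    apply (one_le_pow_iff (n := 2) two_ne_zero).mp
    rw [hM]; exact hv1
  have hMpos : 0 < v (m1 + m2 + 1) := lt_of_lt_of_le zero_lt_one hM1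
  have hG : m1 + m2 + 1 ≠ 0 := v.ne_zero_iff.mp hMpos.ne'
  have hb2 : v W.a₄ < v X2 := by rw [hv2]; exact hc1
  have h2lt : v X2 < 1 := by rw [hv2]; exact hc2
  have hab : v W.a₄ < v X1 * v X2 := lt_of_lt_of_le hb2 (le_mul_of_one_le_left zero_le hv1)
  have hne : X1 * X2 ≠ W.a₄ := by
    intro h
    rw [← map_mul, h] at hab
    exact lt_irrefl _ hab
  refine ⟨_, _, hP1.add hN.h1 hN.h3 hN.h6 hP2 hG hne, ?_, ?_⟩
  · rw [val_X3 hX1 hX2 hG hab, hM, ← hv2]
    have : v X1 ≠ 0 := v.ne_zero_iff.mpr hX1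
    field_simp
  · have : m2 + W.a₄ * (m1 + m2 + 1) / (X1 * X2 - W.a₄) -
          (X1 * X2 - W.a₄) / (X1 * (m1 + m2 + 1)) - s =
        (m2 - s) + W.a₄ * (m1 + m2 + 1) / (X1 * X2 - W.a₄) -
          (X1 * X2 - W.a₄) / (X1 * (m1 + m2 + 1)) := by
      ring
    rw [this]
    refine v.map_sub_lt (v.map_add_lt hm2 ?_) ?_
    · rw [val_T1 hX1 hX2 hab, ← hM]
      have hden : 0 < v (m1 + m2 + 1) ^ 2 * v X2 := mul_pos (pow_pos hMpos 2) hX2pos
      rw [div_lt_one₀ hden]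
      calc v W.a₄ * v (m1 + m2 + 1) < v X2 * v (m1 + m2 + 1) := by
            exact mul_lt_mul_of_pos_right hb2 hMpos
        _ ≤ v X2 * v (m1 + m2 + 1) * v (m1 + m2 + 1) := le_mul_of_one_le_right zero_le hM1
        _ = v (m1 + m2 + 1) ^ 2 * v X2 := by rw [pow_two, mul_assoc, mul_comm]
    · rw [val_T2 hX1 hX2 hG hab, div_lt_one₀ hMpos]
      exact lt_of_lt_of_le h2lt hM1

theorem nonsingular_T0 (hN : Node v W s) : W.Nonsingular 0 0 := by
  rw [nonsingular_iff, equation_iff, hN.h1, hN.h3, hN.h6]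
  refine ⟨by ring, Or.inl ?_⟩
  have := hN.env.b_ne
  intro h
  apply this
  linear_combination -h

/-- Core 3a: `C⁺(c₁) + C⁺(c₂) ⊆ C⁺(c₁c₂)` when the labels do not wrap. -/
theorem Cp_add_Cp_lt (hN : Node v W s) {c1 c2 : K} (hc2 : v c2 < 1)
    (h12 : v W.a₄ < v c1 * v c2)
    {P1 P2 : W.Point} (h1 : Cp v s c1 P1) (h2 : Cp v s c2 P2) : Cp v s (c1 * c2) (P1 + P2) := by
  have hE := hN.env
  obtain ⟨X1, m1, hP1, hv1, hm1⟩ := h1
  obtain ⟨X2, m2, hP2, hv2, hm2⟩ := h2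
  have hX1 : X1 ≠ 0 := hP1.1
  have hX2 : X2 ≠ 0 := hP2.1
  have hG1 : v (m1 + m2 + 1) = 1 := val_G_one hE hm1 hm2
  have hG : m1 + m2 + 1 ≠ 0 := by
    intro h
    rw [h, map_zero] at hG1
    exact zero_ne_one hG1
  have hab : v W.a₄ < v X1 * v X2 := by rw [hv1, hv2]; exact h12
  have hne : X1 * X2 ≠ W.a₄ := by
    intro h
    rw [← map_mul, h] at hab
    exact lt_irrefl _ hab
  have hX12pos : 0 < v X1 * v X2 := lt_of_le_of_lt zero_le hab
  refine ⟨_, _, hP1.add hN.h1 hN.h3 hN.h6 hP2 hG hne, ?_, ?_⟩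
  · rw [val_X3 hX1 hX2 hG hab, hG1, one_pow, div_one, map_mul, hv1, hv2]
  · have : m2 + W.a₄ * (m1 + m2 + 1) / (X1 * X2 - W.a₄) -
          (X1 * X2 - W.a₄) / (X1 * (m1 + m2 + 1)) - s =
        (m2 - s) + W.a₄ * (m1 + m2 + 1) / (X1 * X2 - W.a₄) -
          (X1 * X2 - W.a₄) / (X1 * (m1 + m2 + 1)) := by
      ring
    rw [this]
    refine v.map_sub_lt (v.map_add_lt hm2 ?_) ?_
    · rw [val_T1 hX1 hX2 hab, hG1, mul_one, div_lt_one₀ hX12pos]
      exact hab
    · rw [val_T2 hX1 hX2 hG hab, hG1, div_one, hv2]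
      exact hc2

/-- Core 3b: if the labels multiply to `v a₄`, the sum lies in `T0 + E0`. -/
theorem Cp_add_Cp_eq (hN : Node v W s) {c1 c2 : K}
    (h12 : v c1 * v c2 = v W.a₄)
    {P1 P2 : W.Point} (h1 : Cp v s c1 P1) (h2 : Cp v s c2 P2) :
    E0 v (P1 + P2 + Point.some 0 0 (nonsingular_T0 hN)) := by
  have hE := hN.env
  obtain ⟨X1, m1, hP1, hv1, hm1⟩ := h1
  obtain ⟨X2, m2, hP2, hv2, hm2⟩ := h2
  have hX1 : X1 ≠ 0 := hP1.1
  have hX2 : X2 ≠ 0 := hP2.1
  have hG1 : v (m1 + m2 + 1) = 1 := val_G_one hE hm1 hm2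
  have hG : m1 + m2 + 1 ≠ 0 := by
    intro h
    rw [h, map_zero] at hG1
    exact zero_ne_one hG1
  have hab : v (X1 * X2) = v W.a₄ := by rw [map_mul, hv1, hv2]; exact h12
  by_cases hne : X1 * X2 = W.a₄
  · rw [hP1.add_eq_T0 hN.h1 hN.h3 hN.h6 (nonsingular_T0 hN) hP2 hG hne,
      T0_add_T0 hN.h1 hN.h3]
    exact Or.inl rfl
  · right
    have h3 := hP1.add hN.h1 hN.h3 hN.h6 hP2 hG hne
    refine ⟨_, _, h3.add_T0 hN.h1 hN.h3 hN.h6 (nonsingular_T0 hN) hE.b_ne, ?_⟩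
    have hbpos := hE.vb_pos
    have hsub : v (X1 * X2 - W.a₄) ≤ v W.a₄ := v.map_sub_le hab.le le_rfl
    have hX3ne := h3.1
    have hX3pos : 0 < v ((X1 * X2 - W.a₄) ^ 2 / (X1 * X2 * (m1 + m2 + 1) ^ 2)) :=
      lt_of_le_of_ne zero_le (Ne.symm (v.ne_zero_iff.mpr hX3ne))
    rw [map_div₀ v W.a₄, one_le_div₀ hX3pos, map_div₀, map_pow, map_mul, map_pow, hG1, one_pow,
      mul_one, hab, div_le_iff₀ hbpos, pow_two]
    exact mul_le_mul' hsub hsub

/-- Core 3c: if the labels wrap, the sum lies in `T0 + C⁺(c₁c₂/a₄)`. -/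
theorem Cp_add_Cp_gt (hN : Node v W s) {c1 c2 : K} (hc1 : v W.a₄ < v c1)
    (h12 : v c1 * v c2 < v W.a₄)
    {P1 P2 : W.Point} (h1 : Cp v s c1 P1) (h2 : Cp v s c2 P2) :
    Cp v s (c1 * c2 / W.a₄) (P1 + P2 + Point.some 0 0 (nonsingular_T0 hN)) := by
  have hE := hN.env
  obtain ⟨X1, m1, hP1, hv1, hm1⟩ := h1
  obtain ⟨X2, m2, hP2, hv2, hm2⟩ := h2
  have hX1 : X1 ≠ 0 := hP1.1
  have hX2 : X2 ≠ 0 := hP2.1
  have hX1pos : 0 < v X1 := lt_of_le_of_ne zero_le (Ne.symm (v.ne_zero_iff.mpr hX1))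
  have hX2pos : 0 < v X2 := lt_of_le_of_ne zero_le (Ne.symm (v.ne_zero_iff.mpr hX2))
  have hG1 : v (m1 + m2 + 1) = 1 := val_G_one hE hm1 hm2
  have hG : m1 + m2 + 1 ≠ 0 := by
    intro h
    rw [h, map_zero] at hG1
    exact zero_ne_one hG1
  have hab : v (X1 * X2) < v W.a₄ := by rw [map_mul, hv1, hv2]; exact h12
  have hne : X1 * X2 ≠ W.a₄ := by
    intro h
    rw [h] at hab
    exact lt_irrefl _ hab
  have hbpos := hE.vb_pos
  have hsub : v (X1 * X2 - W.a₄) = v W.a₄ := Valuation.map_sub_eq_of_lt_right _ hab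
  have h3 := hP1.add hN.h1 hN.h3 hN.h6 hP2 hG hne
  refine ⟨_, _, h3.add_T0 hN.h1 hN.h3 hN.h6 (nonsingular_T0 hN) hE.b_ne, ?_, ?_⟩
  · have hb0 : v W.a₄ ≠ 0 := hbpos.ne'
    have h1' : v X1 ≠ 0 := hX1pos.ne'
    have h2' : v X2 ≠ 0 := hX2pos.ne'
    rw [map_div₀ v W.a₄, map_div₀, map_pow, hsub, map_mul, map_mul, map_pow, hG1, one_pow, mul_one,
      map_div₀, map_mul, ← hv1, ← hv2]
    field_simp
  · have e : -(m2 + W.a₄ * (m1 + m2 + 1) / (X1 * X2 - W.a₄) -
            (X1 * X2 - W.a₄) / (X1 * (m1 + m2 + 1))) - 1 - s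
        = (m1 - s) - (m1 + m2 + 1) * (X1 * X2) / (X1 * X2 - W.a₄)
          + (X1 * X2 - W.a₄) / (X1 * (m1 + m2 + 1)) := by
      have hne' : X1 * X2 - W.a₄ ≠ 0 := sub_ne_zero.mpr hne
      field_simp
      ring
    rw [e]
    refine v.map_add_lt (v.map_sub_lt hm1 ?_) ?_
    · rw [map_div₀, map_mul, hG1, one_mul, hsub, div_lt_one₀ hbpos]
      exact hab
    · rw [map_div₀, hsub, map_mul, hG1, mul_one, div_lt_one₀ hX1pos, hv1]
      exact hc1

/-- The `2`-torsion point `(0,0)`. -/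
noncomputable def T0 (hN : Node v W s) : W.Point := Point.some 0 0 (nonsingular_T0 hN)

theorem T0_add_T0' (hN : Node v W s) : T0 hN + T0 hN = 0 :=
  T0_add_T0 hN.h1 hN.h3 (nonsingular_T0 hN)

/-- The basic label relation for points of `E0 ∪ ⋃ C⁺`. -/
def Lab1 (v : Valuation K Γ₀) (s : K) (P : W.Point) (c : K) : Prop :=
  (v c = 1 ∧ E0 v P) ∨ (v W.a₄ < v c ∧ v c < 1 ∧ Cp v s c P)

/-- `Q` is `P` or `P + T0`. -/
def Rel (hN : Node v W s) (Q P : W.Point) : Prop := Q = P ∨ Q = P + T0 hN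

theorem Rel.add (hN : Node v W s) {Q1 P1 Q2 P2 : W.Point} (h1 : Rel hN Q1 P1)
    (h2 : Rel hN Q2 P2) : Rel hN (Q1 + Q2) (P1 + P2) := by
  have hT := T0_add_T0' hN
  rcases h1 with rfl | rfl <;> rcases h2 with rfl | rfl
  · exact Or.inl rfl
  · right; abel
  · right; abel
  · left
    calc P1 + T0 hN + (P2 + T0 hN) = P1 + P2 + (T0 hN + T0 hN) := by abel
      _ = P1 + P2 := by rw [hT, add_zero]

theorem Rel.add_T0 (hN : Node v W s) {Q P : W.Point} (h : Rel hN Q P) :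
    Rel hN (Q + T0 hN) P := by
  have hT := T0_add_T0' hN
  rcases h with rfl | rfl
  · exact Or.inr rfl
  · left
    rw [add_assoc, hT, add_zero]

/-- Label relation up to translation by `T0`. -/
def Lab0 (hN : Node v W s) (P : W.Point) (c : K) : Prop :=
  ∃ Q, Rel hN Q P ∧ Lab1 v s Q c

/-- `P` has label `v c` modulo `v a₄ ^ ℤ` (and modulo translation by `T0`). -/
def Lab (hN : Node v W s) (P : W.Point) (c : K) : Prop :=
  ∃ k : ℤ, Lab0 hN P (c * W.a₄ ^ k)

theorem lab1_add (hN : Node v W s) {P1 P2 : W.Point} {c1 c2 : K}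
    (h1 : Lab1 v s P1 c1) (h2 : Lab1 v s P2 c2) :
    Lab1 v s (P1 + P2) (c1 * c2) ∨ Lab1 v s (P1 + P2 + T0 hN) (c1 * c2 / W.a₄) := by
  have hE := hN.env
  have hbpos := hE.vb_pos
  rcases h1 with ⟨hc1, hP1⟩ | ⟨hc1l, hc1u, hP1⟩ <;> rcases h2 with ⟨hc2, hP2⟩ | ⟨hc2l, hc2u, hP2⟩
  · left; left
    exact ⟨by rw [map_mul, hc1, hc2, one_mul], E0_add hN hP1 hP2⟩
  · left; right
    have hv : v c2 = v (c1 * c2) := by rw [map_mul, hc1, one_mul]
    exact ⟨by rw [← hv]; exact hc2l, by rw [← hv]; exact hc2u,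
      Cp_congr hv (E0_add_Cp hN hc2l hc2u hP1 hP2)⟩
  · left; right
    have hv : v c1 = v (c1 * c2) := by rw [map_mul, hc2, mul_one]
    refine ⟨by rw [← hv]; exact hc1l, by rw [← hv]; exact hc1u, ?_⟩
    rw [add_comm]
    exact Cp_congr hv (E0_add_Cp hN hc1l hc1u hP2 hP1)
  · rcases lt_trichotomy (v W.a₄) (v c1 * v c2) with hlt | heq | hgt
    · left; right
      refine ⟨by rw [map_mul]; exact hlt, ?_, Cp_add_Cp_lt hN hc2u hlt hP1 hP2⟩
      rw [map_mul]
      exact mul_lt_one_of_nonneg_of_lt_one_left zero_le hc1u hc2u.le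
    · right; left
      refine ⟨?_, Cp_add_Cp_eq hN heq.symm hP1 hP2⟩
      rw [map_div₀, map_mul, ← heq, div_self hbpos.ne']
    · right; right
      refine ⟨?_, ?_, Cp_add_Cp_gt hN hc1l hgt hP1 hP2⟩
      · rw [map_div₀, map_mul, lt_div_iff₀ hbpos]
        exact mul_lt_mul'' hc1l hc2l zero_le zero_le
      · rw [map_div₀, map_mul, div_lt_one₀ hbpos]
        exact hgt

theorem lab_add (hN : Node v W s) {P1 P2 : W.Point} {c1 c2 : K}
    (h1 : Lab hN P1 c1) (h2 : Lab hN P2 c2) : Lab hN (P1 + P2) (c1 * c2) := by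
  have hb := hN.env.b_ne
  obtain ⟨k1, Q1, hr1, hl1⟩ := h1
  obtain ⟨k2, Q2, hr2, hl2⟩ := h2
  rcases lab1_add hN hl1 hl2 with h | h
  · refine ⟨k1 + k2, Q1 + Q2, hr1.add hN hr2, ?_⟩
    have : c1 * c2 * W.a₄ ^ (k1 + k2) = c1 * W.a₄ ^ k1 * (c2 * W.a₄ ^ k2) := by
      rw [zpow_add₀ hb]; ring
    rw [this]; exact h
  · refine ⟨k1 + k2 - 1, Q1 + Q2 + T0 hN, (hr1.add hN hr2).add_T0 hN, ?_⟩
    have : c1 * c2 * W.a₄ ^ (k1 + k2 - 1) = c1 * W.a₄ ^ k1 * (c2 * W.a₄ ^ k2) / W.a₄ := by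
      rw [zpow_sub_one₀ hb, zpow_add₀ hb]
      field_simp
    rw [this]; exact h

theorem lab_zero (hN : Node v W s) : Lab hN (0 : W.Point) 1 := by
  refine ⟨0, 0, Or.inl rfl, Or.inl ⟨?_, Or.inl rfl⟩⟩
  simp

theorem lab_nsmul (hN : Node v W s) {P : W.Point} {c : K} (h : Lab hN P c) (n : ℕ) :
    Lab hN (n • P) (c ^ n) := by
  induction n with
  | zero => rw [zero_nsmul, pow_zero]; exact lab_zero hN
  | succ n ih => rw [succ_nsmul, pow_succ]; exact lab_add hN ih h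

theorem not_isXM_zero {X m : K} : ¬ IsXM (0 : W.Point) X m := by
  rintro ⟨_, _, h⟩
  exact Point.some_ne_zero _ h.symm

theorem not_isXM_T0 (hN : Node v W s) {X m : K} : ¬ IsXM (T0 hN) X m := by
  rintro ⟨hX, _, h⟩
  unfold T0 at h
  injection h with h1 h2
  exact hX h1.symm

/-- The label of `0` is trivial. -/
theorem val_of_lab_zero (hN : Node v W s) {d : K} (h : Lab hN (0 : W.Point) d) :
    ∃ k : ℤ, v d = v W.a₄ ^ k := by
  obtain ⟨k, Q, hr, hl⟩ := h
  have hQ : ¬ ∃ X m, IsXM Q X m := by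
    rintro ⟨X, m, hXM⟩
    rcases hr with rfl | rfl
    · exact not_isXM_zero hXM
    · rw [zero_add] at hXM
      exact not_isXM_T0 hN hXM
  have hv : v (d * W.a₄ ^ k) = 1 := by
    rcases hl with ⟨hc, _⟩ | ⟨_, _, X, m, hXM, _⟩
    · exact hc
    · exact absurd ⟨X, m, hXM⟩ hQ
  refine ⟨-k, ?_⟩
  rw [map_mul, map_zpow₀] at hv
  rw [zpow_neg]
  exact eq_inv_of_mul_eq_one_left hv

/-- The label of a point near the node (either branch). -/
theorem lab_of_near (hN : Node v W s) {x y : K} (h : W.Nonsingular x y)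
    (hl : v W.a₄ < v x) (hu : v x < 1) :
    Lab hN (Point.some x y h) x ∨ Lab hN (Point.some x y h) (W.a₄ / x) := by
  have hE := hN.env
  have hbpos := hE.vb_pos
  have hx0 : x ≠ 0 := by
    intro h0
    rw [h0, map_zero] at hl
    exact absurd hl (not_lt.mpr zero_le)
  have hxpos : 0 < v x := lt_of_le_of_lt zero_le hl
  have hXM := isXM_some h hx0
  have e := hXM.eqn hN.h1 hN.h3 hN.h6
  rcases dichotomy hE e hl hu with hm | hm
  · left
    refine ⟨0, _, Or.inl rfl, Or.inr ⟨?_, ?_, x, y / x, hXM, ?_, hm⟩⟩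
    · simpa using hl
    · simpa using hu
    · simp
  · right
    have hXM' := hXM.add_T0 hN.h1 hN.h3 hN.h6 (nonsingular_T0 hN) hE.b_ne
    have hv' : v (W.a₄ / x) = v W.a₄ / v x := map_div₀ _ _ _
    refine ⟨0, _, Or.inr rfl, Or.inr ⟨?_, ?_, W.a₄ / x, -(y / x) - 1, hXM', ?_, ?_⟩⟩
    · rw [zpow_zero, mul_one, hv', lt_div_iff₀ hxpos]
      calc v W.a₄ * v x < v W.a₄ * 1 := by
            exact mul_lt_mul_of_pos_left hu hbpos
        _ = v W.a₄ := mul_one _
    · rw [zpow_zero, mul_one, hv', div_lt_one₀ hxpos]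
      exact hl
    · rw [zpow_zero, mul_one]
    · have : -(y / x) - 1 - s = -(y / x + s + 1) := by ring
      rw [this, Valuation.map_neg]
      exact hm

/-- **Torsion label theorem.** -/
theorem torsion_label (hN : Node v W s) {x y : K} (h : W.Nonsingular x y) (n : ℕ)
    (hn : n • Point.some x y h = 0) (hl : v W.a₄ < v x) (hu : v x < 1) :
    ∃ k : ℤ, v x ^ n = v W.a₄ ^ k := by
  have hE := hN.env
  have hbpos := hE.vb_pos
  have hxpos : 0 < v x := lt_of_le_of_lt zero_le hl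
  rcases lab_of_near hN h hl hu with hL | hL
  · have := lab_nsmul hN hL n
    rw [hn] at this
    obtain ⟨k, hk⟩ := val_of_lab_zero hN this
    exact ⟨k, by rw [← map_pow]; exact hk⟩
  · have hv' : v (W.a₄ / x) = v W.a₄ / v x := map_div₀ _ _ _
    have := lab_nsmul hN hL n
    rw [hn] at this
    obtain ⟨k, hk⟩ := val_of_lab_zero hN this
    refine ⟨n - k, ?_⟩
    rw [map_pow, hv', div_pow] at hk
    have hxn : v x ^ n ≠ 0 := pow_ne_zero _ hxpos.ne'
    have hbk : v W.a₄ ^ k ≠ 0 := zpow_ne_zero _ hbpos.ne'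
    rw [zpow_sub₀ hbpos.ne', zpow_natCast]
    rw [div_eq_iff hxn] at hk
    rw [eq_div_iff hbk, hk]
    rw [mul_comm]

end Points

end Fermat.Agent.S13.TwoLabel
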