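import Mathlib
import Fermat.Agent.S13.Two.TwoLabel
import Fermat.Agent.S05.Interface
import Fermat.Agent.S05.FreyNumbers

/-!
# S13 (B2): a rational `p`-torsion point of the Frey curve is not near the node at `2`

`A` a valuation subring of `Qbar` over `2`, `v = A.valuation`.  On the Frey curve
`y² + x y = x³ + a₂ x² + a₄ x` we have `a₂ ∈ ℤ` and `v a₄ = v 2 ^ (p t - 4)` with `t = v₂(b) ≥ 1`.
The torsion label theorem gives, for a `p`-torsion point `(x, y)` with `v a₄ < v x < 1`, an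
integer `k` with `v x ^ p = v a₄ ^ k`.  If `x` is rational then `v x = v 2 ^ j`, so
`p j = (p t - 4) k`, hence `p ∣ k` and `0 < j < p t - 4` gives `0 < k / p < 1`: absurd.
-/

set_option autoImplicit false

namespace Fermat.Agent.S13.RatNode

open WeierstrassCurve WeierstrassCurve.Affine Fermat.Agent.S05

section val

variable {L : Type*} [Field L] {A : ValuationSubring L} {q : ℕ}

/-- Splitting off the `q`-part of a nonzero integer. -/
theorem rnode_int_split (hq : q.Prime) (z : ℤ) (hz : z ≠ 0) :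
    ∃ (e : ℕ) (z' : ℤ), ¬ (q : ℤ) ∣ z' ∧ z = (q : ℤ) ^ e * z' := by
  have hfin : FiniteMultiplicity (q : ℤ) z := by
    rw [Int.finiteMultiplicity_iff]
    exact ⟨by simpa using hq.ne_one, hz⟩
  obtain ⟨c, hc, hn⟩ := hfin.exists_eq_pow_mul_and_not_dvd
  exact ⟨_, c, hn, hc⟩

/-- The valuation of a nonzero integer at a place over `q` is a power of `v q`. -/
theorem rnode_val_int (hq : q.Prime) (hA : A.LiesOverPrime q) (z : ℤ) (hz : z ≠ 0) :
    ∃ (e : ℕ) (z' : ℤ), ¬ (q : ℤ) ∣ z' ∧ z = (q : ℤ) ^ e * z' ∧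
      A.valuation (z : L) = A.valuation (q : L) ^ e := by
  obtain ⟨e, z', hz', he⟩ := rnode_int_split hq z hz
  refine ⟨e, z', hz', he, ?_⟩
  have h1 : A.valuation (z' : L) = 1 := (valuation_intCast_eq_one_iff hq hA z').mpr hz'
  rw [he]
  push_cast
  rw [map_mul, map_pow, h1, mul_one]

/-- The valuation of a nonzero rational at a place over `q` is an integral power of `v q`. -/
theorem rnode_val_rat [CharZero L] (hq : q.Prime) (hA : A.LiesOverPrime q) (r : ℚ) (hr : r ≠ 0) :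
    ∃ j : ℤ, A.valuation (r : L) = A.valuation (q : L) ^ j := by
  obtain ⟨e1, _, _, _, h1⟩ := rnode_val_int hq hA r.num (Rat.num_ne_zero.mpr hr)
  obtain ⟨e2, _, _, _, h2⟩ := rnode_val_int hq hA (r.den : ℤ) (by exact_mod_cast r.den_ne_zero)
  have hq0 : A.valuation (q : L) ≠ 0 := by
    rw [Valuation.ne_zero_iff]
    exact_mod_cast hq.ne_zero
  refine ⟨(e1 : ℤ) - e2, ?_⟩
  rw [Rat.cast_def, map_div₀, h1, zpow_sub₀ hq0, zpow_natCast, zpow_natCast]
  congr 1
  have : ((r.den : ℤ) : L) = (r.den : L) := by push_cast; rfl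
  rw [← this, h2]

end val

section frey

variable (P : FreyPackage)

theorem rnode_a_odd : ¬ (2 : ℤ) ∣ P.a := by
  have h : ((P.a : ℤ) : ZMod 4) = ((3 : ℤ) : ZMod 4) := by
    rw [P.ha4]; rfl
  rw [ZMod.intCast_eq_intCast_iff] at h
  have h' : P.a % 4 = 3 % 4 := h
  omega

theorem rnode_b_even : (2 : ℤ) ∣ P.b := (ZMod.intCast_zmod_eq_zero_iff_dvd P.b 2).1 P.hb2

theorem rnode_four_dvd : (4 : ℤ) ∣ P.b ^ P.p - 1 - P.a ^ P.p := by
  obtain ⟨c, hc⟩ := rnode_b_even P
  have hp2 : 2 ≤ P.p := by have := P.hp5; omega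
  have key : ((P.b ^ P.p - 1 - P.a ^ P.p : ℤ) : ZMod 4) = 0 := by
    push_cast
    rw [P.ha4]
    have h3 : (3 : ZMod 4) = -1 := by decide
    rw [h3, P.hp_odd.neg_one_pow]
    have hb : (P.b : ZMod 4) ^ P.p = 0 := by
      rw [hc]
      push_cast
      obtain ⟨k, hk⟩ := Nat.exists_eq_add_of_le hp2
      rw [hk, pow_add, mul_pow]
      have : (2 : ZMod 4) ^ 2 = 0 := by decide
      rw [this]; ring
    rw [hb]; ring
  have := (ZMod.intCast_zmod_eq_zero_iff_dvd _ 4).1 key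
  exact_mod_cast this

/-- `a₂` of the Frey curve is an integer. -/
theorem rnode_a2_int : ∃ n : ℤ, (P.freyCurve⁄Qbar).a₂ = (n : Qbar) := by
  obtain ⟨n, hn⟩ := rnode_four_dvd P
  refine ⟨n, ?_⟩
  rw [baseChange_a₂, kA_eq, kB_eq]
  have : ((P.b : ℤ) : Qbar) ^ P.p - 1 - ((P.a : ℤ) : Qbar) ^ P.p = 4 * (n : Qbar) := by
    have := congrArg (fun z : ℤ => (z : Qbar)) hn
    simpa using this
  rw [this]
  field_simp

variable {A : ValuationSubring Qbar}

theorem rnode_val_two_lt (hA : A.LiesOverPrime 2) : A.valuation (2 : Qbar) < 1 := by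
  have : ((2 : ℕ) : Qbar) ∈ A.nonunits := hA
  rw [A.mem_nonunits_iff] at this
  exact_mod_cast this

theorem rnode_val_two_pos : 0 < A.valuation (2 : Qbar) := by
  rw [Valuation.pos_iff]; norm_num

/-- `v a₄ = v 2 ^ (t p - 4)` with `t = v₂(b) ≥ 1`. -/
theorem rnode_val_a4 (hA : A.LiesOverPrime 2) :
    ∃ t : ℕ, 1 ≤ t ∧ A.valuation (P.freyCurve⁄Qbar).a₄ =
      A.valuation (2 : Qbar) ^ ((t : ℤ) * P.p - 4) := by
  obtain ⟨t, b', hb', hb, hv⟩ := rnode_val_int Nat.prime_two hA P.b P.hb0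
  have ht : 1 ≤ t := by
    rcases Nat.eq_zero_or_pos t with h0 | h0
    · exfalso
      rw [h0, pow_zero, one_mul] at hb
      exact hb' (hb ▸ rnode_b_even P)
    · exact h0
  refine ⟨t, ht, ?_⟩
  have hva : A.valuation ((P.a : ℤ) : Qbar) = 1 :=
    (valuation_intCast_eq_one_iff Nat.prime_two hA P.a).mpr (rnode_a_odd P)
  have h20 : A.valuation (2 : Qbar) ≠ 0 := (rnode_val_two_pos (A := A)).ne'
  have h16 : A.valuation (16 : Qbar) = A.valuation (2 : Qbar) ^ 4 := by
    rw [← map_pow]; norm_num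
  have hv' : A.valuation ((P.b : ℤ) : Qbar) = A.valuation (2 : Qbar) ^ t := by
    rw [hv]; norm_num
  rw [baseChange_a₄, kA_eq, kB_eq, map_div₀, Valuation.map_neg, map_mul, map_pow, map_pow, hva,
    one_pow, one_mul, hv', h16, zpow_sub₀ h20, ← pow_mul]
  norm_cast

/-- `a₄ ≠ 0` and `v a₄ < 1`. -/
theorem rnode_a4_ne : (P.freyCurve⁄Qbar).a₄ ≠ 0 := by
  rw [baseChange_a₄, kA_eq, kB_eq]
  have ha : ((P.a : ℤ) : Qbar) ≠ 0 := by exact_mod_cast P.ha0
  have hb : ((P.b : ℤ) : Qbar) ≠ 0 := by exact_mod_cast P.hb0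
  have : (16 : Qbar) ≠ 0 := by norm_num
  exact div_ne_zero (neg_ne_zero.mpr (mul_ne_zero (pow_ne_zero _ ha) (pow_ne_zero _ hb))) this

theorem rnode_val_a4_lt (hA : A.LiesOverPrime 2) :
    A.valuation (P.freyCurve⁄Qbar).a₄ < 1 := by
  obtain ⟨t, ht, hv⟩ := rnode_val_a4 P hA
  rw [hv]
  have h5 := P.hp5
  have hpos : (0 : ℤ) < (t : ℤ) * P.p - 4 := by
    have : (1 : ℤ) * 5 ≤ (t : ℤ) * P.p := by
      apply mul_le_mul <;> first | exact_mod_cast ht | exact_mod_cast h5 | positivity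
    omega
  have := zpow_right_strictAnti₀ (rnode_val_two_pos (A := A)) (rnode_val_two_lt hA) hpos
  simpa using this

/-- The node environment of a curve `y² + x y = x³ + a₂ x² + a₄ x` over `Qbar` in residue
characteristic `2`. -/
theorem rnode_node_of_two (W : Affine Qbar) (h1 : W.a₁ = 1) (h3 : W.a₃ = 0) (h6 : W.a₆ = 0)
    (ha2 : W.a₂ ∈ A) (ha4 : A.valuation W.a₄ < 1) (hne : W.a₄ ≠ 0)
    (h2 : A.valuation (2 : Qbar) < 1) :
    ∃ s : Qbar, TwoLabel.Node A.valuation W s := by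
  obtain ⟨z, hz⟩ := IsAlgClosed.exists_pow_nat_eq (1 + 4 * W.a₂) (n := 2) (by norm_num)
  refine ⟨(z - 1) / 2, h1, h3, h6, TwoLabel.VEnv.of_two ?_ ?_ h2 ha4 hne⟩
  · field_simp
    linear_combination hz
  · exact (A.valuation_le_one_iff _).mpr ha2

/-- The torsion label theorem over `Qbar` in residue characteristic `2`, in the style of
`S05.TLHyp`. -/
theorem rnode_torsion_label (A : ValuationSubring Qbar) (W : Affine Qbar) (h1 : W.a₁ = 1)
    (h3 : W.a₃ = 0) (h6 : W.a₆ = 0) (ha2 : W.a₂ ∈ A) (ha4 : A.valuation W.a₄ < 1)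
    (hne : W.a₄ ≠ 0) (h2 : A.valuation (2 : Qbar) < 1) (n : ℕ) (x y : Qbar)
    (h : W.Nonsingular x y) (hn : n • Point.some x y h = 0)
    (hl : A.valuation W.a₄ < A.valuation x) (hu : A.valuation x < 1) :
    ∃ k : ℤ, A.valuation x ^ n = A.valuation W.a₄ ^ k := by
  obtain ⟨s, hN⟩ := rnode_node_of_two W h1 h3 h6 ha2 ha4 hne h2
  exact TwoLabel.torsion_label hN h n hn hl hu

theorem rnode_a2_mem : (P.freyCurve⁄Qbar).a₂ ∈ A := by
  obtain ⟨n, hn⟩ := rnode_a2_int P
  rw [hn]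
  exact intCast_mem A n

/-- The node environment of the Frey curve at a place over `2`. -/
theorem rnode_exists_node (hA : A.LiesOverPrime 2) :
    ∃ s : Qbar, TwoLabel.Node A.valuation (P.freyCurve⁄Qbar) s :=
  rnode_node_of_two _ (baseChange_a₁ P) (baseChange_a₃ P) (baseChange_a₆ P) (rnode_a2_mem P)
    (rnode_val_a4_lt P hA) (rnode_a4_ne P) (rnode_val_two_lt hA)

/-- **A `p`-torsion point of the Frey curve with rational abscissa is not near the node at `2`.** -/
theorem rnode_not_near (hA : A.LiesOverPrime 2) {x y : Qbar}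
    (h : (P.freyCurve⁄Qbar).Nonsingular x y) (hn : P.p • Point.some x y h = 0)
    (hx : x ∈ Set.range (algebraMap ℚ Qbar))
    (hl : A.valuation (P.freyCurve⁄Qbar).a₄ < A.valuation x) (hu : A.valuation x < 1) :
    False := by
  obtain ⟨s, hN⟩ := rnode_exists_node P hA
  obtain ⟨k, hk⟩ := TwoLabel.torsion_label hN h P.p hn hl hu
  obtain ⟨t, ht, hv⟩ := rnode_val_a4 P hA
  obtain ⟨r, rfl⟩ := hx
  have hr : r ≠ 0 := by
    rintro rfl
    rw [map_zero, map_zero] at hl
    exact not_lt_zero hl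
  have h2 : ((2 : ℕ) : Qbar) = 2 := by norm_num
  obtain ⟨j, hj⟩ := rnode_val_rat (L := Qbar) Nat.prime_two hA r hr
  rw [h2] at hj
  rw [eq_ratCast] at hk hl hu
  have hpos := rnode_val_two_pos (A := A)
  have hlt := rnode_val_two_lt hA
  have hanti : StrictAnti (fun n : ℤ => A.valuation (2 : Qbar) ^ n) :=
    zpow_right_strictAnti₀ hpos hlt
  -- exponents
  set e : ℤ := (t : ℤ) * P.p - 4 with he
  rw [hj, hv, ← zpow_natCast, ← zpow_mul, ← zpow_mul] at hk
  have hexp : j * (P.p : ℤ) = e * k := hanti.injective hk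
  rw [hj, hv] at hl
  rw [hj] at hu
  have hj1 : j < e := (zpow_lt_zpow_iff_right_of_lt_one₀ hpos hlt).mp hl
  have hj0 : 0 < j := by
    have : A.valuation (2 : Qbar) ^ j < A.valuation (2 : Qbar) ^ (0 : ℤ) := by simpa using hu
    exact (zpow_lt_zpow_iff_right_of_lt_one₀ hpos hlt).mp this
  -- `p ∣ k`
  have hpp : Prime (P.p : ℤ) := Nat.prime_iff_prime_int.mp P.pp
  have h5 := P.hp5
  have hdvd : (P.p : ℤ) ∣ e * k := ⟨j, by rw [← hexp]; ring⟩
  have hne : ¬ (P.p : ℤ) ∣ e := by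
    intro hd
    have h4 : (P.p : ℤ) ∣ 4 := by
      have : (4 : ℤ) = (t : ℤ) * P.p - e := by rw [he]; ring
      rw [this]
      exact dvd_sub (dvd_mul_left _ _) hd
    have := Int.le_of_dvd (by norm_num) h4
    omega
  obtain ⟨k', hk'⟩ := (hpp.dvd_or_dvd hdvd).resolve_left hne
  have hp0 : (P.p : ℤ) ≠ 0 := by exact_mod_cast P.hp0
  have hje : j = e * k' := by
    have : j * (P.p : ℤ) = (e * k') * P.p := by rw [hexp, hk']; ring
    exact mul_right_cancel₀ hp0 this
  have he0 : 0 < e := lt_trans hj0 hj1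
  rw [hje] at hj0 hj1
  have hk0 : 0 < k' := (mul_pos_iff_of_pos_left he0).mp hj0
  have hk1 : k' < 1 := by
    by_contra hcon
    push Not at hcon
    have : e * 1 ≤ e * k' := mul_le_mul_of_nonneg_left hcon he0.le
    omega
  omega

/-- `p` is a unit at a place over `2`. -/
theorem rnode_val_p (hA : A.LiesOverPrime 2) : A.valuation (P.p : Qbar) = 1 :=
  valuation_prime_eq_one Nat.prime_two hA P.pp (by have := P.hp5; omega)

/-- Elements of `Qbar` fixed by the whole Galois group are rational. -/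
theorem rnode_rational_of_fixed {x : Qbar} (hfix : ∀ σ : GalQ, σ x = x) :
    x ∈ Set.range (algebraMap ℚ Qbar) :=
  haveI := isAlgebraic_Qbar
  haveI : IsAlgClosure ℚ Qbar := ⟨inferInstance, inferInstance⟩
  haveI : Normal ℚ Qbar := IsAlgClosure.normal ℚ Qbar
  haveI : IsGalois ℚ Qbar := ⟨⟩
  (InfiniteGalois.mem_range_algebraMap_iff_fixed x).2 hfix

/-- Galois-fixed form of `rnode_not_near`. -/
theorem rnode_not_near_of_fixed (hA : A.LiesOverPrime 2) {x y : Qbar}
    (h : (P.freyCurve⁄Qbar).Nonsingular x y) (hn : P.p • Point.some x y h = 0)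
    (hfix : ∀ σ : GalQ, σ x = x)
    (hl : A.valuation (P.freyCurve⁄Qbar).a₄ < A.valuation x) (hu : A.valuation x < 1) :
    False :=
  rnode_not_near P hA h hn (rnode_rational_of_fixed hfix) hl hu

end frey

end Fermat.Agent.S13.RatNode
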