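import Fermat.Agent.S05.KernelE1

/-!
# The kernel of reduction in residue characteristic `2` (x-only proof)

`W` a Weierstrass curve over a valued field `(K, v)` with `v b₂, v b₄, v b₆, v b₈ ≤ 1` and
`v 2 < 1`.  Then `E1 = {O} ∪ {P | 1 < v (x P)}` is a subgroup of `W.Point`, and `n • P ≠ 0`
for `P ∈ E1`, `P ≠ 0`, `v n = 1`.

Proof: for `1 < v X0` put `q P := X0 / x P`.  On `{P | P = O ∨ v X0 ≤ v (x P)}` the function `q`
takes integral values and is ADDITIVE modulo the maximal ideal (it is the square of the formal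
parameter, and squaring is additive in characteristic `2`); hence `q (n • P) ≡ n q P`.
-/

set_option autoImplicit false
set_option linter.unusedSectionVars false
set_option linter.unusedVariables false

namespace Fermat.Agent.S13

open WeierstrassCurve WeierstrassCurve.Affine
open Fermat.Agent.S51 (xc f2 phi2)
open Fermat.Agent.S05

section generic

variable {K : Type*} [Field K] [DecidableEq K] {Γ : Type*} [LinearOrderedCommGroupWithZero Γ]
  (v : Valuation K Γ) {W : WeierstrassCurve.Affine K}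

/-- Integrality of the `b`-invariants, and `2` is a non-unit. -/
structure ftwo_IntegralB (v : Valuation K Γ) (W : WeierstrassCurve.Affine K) : Prop where
  b2 : v W.b₂ ≤ 1
  b4 : v W.b₄ ≤ 1
  b6 : v W.b₆ ≤ 1
  b8 : v W.b₈ ≤ 1
  two : v 2 < 1

variable {v}

/-- If a square is small then so is the element. -/
lemma ftwo_lt_one_of_sq {a : K} (h : v (a ^ 2) < 1) : v a < 1 := by
  rw [map_pow] at h
  by_contra hc
  have hc : 1 ≤ v a := not_lt.mp hc
  exact absurd h (not_lt.mpr (one_le_pow₀ hc))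

/-- Field-level core in residue characteristic `2`: from the sum and product identities for
`x(P±Q)`, both `X0/x(P+Q)` and `X0/x(P-Q)` are congruent to `X0/x(P) + X0/x(Q)`. -/
lemma ftwo_core_generic (hW : ftwo_IntegralB v W) {X0 x1 x2 xp xm : K} (hX0 : 1 < v X0)
    (h1 : v X0 ≤ v x1) (h2 : v X0 ≤ v x2)
    (hS : (xp + xm) * (x1 - x2) ^ 2 = addT W x1 x2)
    (hP : xp * xm * (x1 - x2) ^ 2 = addPi W x1 x2) :
    v X0 ≤ v xp ∧ v X0 ≤ v xm ∧
      v (X0 / xp - X0 / x1 - X0 / x2) < 1 ∧ v (X0 / xm - X0 / x1 - X0 / x2) < 1 := by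
  have hx1 : x1 ≠ 0 := ne_zero_of_one_lt v (hX0.trans_le h1)
  have hx2 : x2 ≠ 0 := ne_zero_of_one_lt v (hX0.trans_le h2)
  have hX00 : X0 ≠ 0 := ne_zero_of_one_lt v hX0
  set w1 := x1⁻¹ with hw1
  set w2 := x2⁻¹ with hw2
  have hw1s : v w1 < 1 := inv_sm v (hX0.trans_le h1)
  have hw2s : v w2 < 1 := inv_sm v (hX0.trans_le h2)
  have hw1i : v w1 ≤ 1 := hw1s.le
  have hw2i : v w2 ≤ 1 := hw2s.le
  set u1 := X0 * w1 with hu1
  set u2 := X0 * w2 with hu2
  have hu1i : v u1 ≤ 1 := div_le_one_of_le v hx1 h1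
  have hu2i : v u2 ≤ 1 := div_le_one_of_le v hx2 h2
  have h2s : v (2 : K) < 1 := hW.two
  have h2i : v (2 : K) ≤ 1 := hW.two.le
  have hw12 : v (w1 * w2) < 1 := sm_mul_left v hw1i hw2s
  have hwsum : v (w1 + w2) ≤ 1 := v.map_add_le hw1i hw2i
  set ε := -(W.b₄ * (w1 * w2)) - W.b₆ * ((w1 + w2) * (w1 * w2)) - W.b₈ * ((w1 * w2) * (w1 * w2))
    with hε
  set τ := 2 * (w1 + w2) + W.b₂ * (w1 * w2) + W.b₄ * ((w1 + w2) * (w1 * w2))
    + W.b₆ * ((w1 * w2) * (w1 * w2)) with hτ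
  have hεs : v ε < 1 := by
    refine v.map_sub_lt (v.map_sub_lt ?_ ?_) ?_
    · rw [Valuation.map_neg]; exact sm_mul_left v hW.b4 hw12
    · exact sm_mul_left v hW.b6 (sm_mul_left v hwsum hw12)
    · exact sm_mul_left v hW.b8 (sm_mul_left v hw12.le hw12)
  have h1ε : v (1 + ε) = 1 := v.map_one_add_of_lt hεs
  have h1ε0 : 1 + ε ≠ 0 := by
    intro h; rw [h, map_zero] at h1ε; exact zero_ne_one h1ε
  have hPi : addPi W x1 x2 = x1 ^ 2 * x2 ^ 2 * (1 + ε) := by
    simp only [addPi, hε, hw1, hw2]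
    field_simp
    ring
  have hT : addT W x1 x2 = x1 ^ 2 * x2 ^ 2 * τ := by
    simp only [addT, hτ, hw1, hw2]
    field_simp
    ring
  have hd : (x1 - x2) ^ 2 = x1 ^ 2 * x2 ^ 2 * (w2 - w1) ^ 2 := by
    simp only [hw1, hw2]
    field_simp
  have hxx : x1 ^ 2 * x2 ^ 2 ≠ 0 := mul_ne_zero (pow_ne_zero 2 hx1) (pow_ne_zero 2 hx2)
  have hP' : xp * xm * (w2 - w1) ^ 2 = 1 + ε := by
    apply mul_left_cancel₀ hxx
    rw [← hPi, ← hP, hd]; ring
  have hS' : (xp + xm) * (w2 - w1) ^ 2 = τ := by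
    apply mul_left_cancel₀ hxx
    rw [← hT, ← hS, hd]; ring
  have hxp : xp ≠ 0 := by
    rintro rfl; rw [zero_mul, zero_mul] at hP'; exact h1ε0 hP'.symm
  have hxm : xm ≠ 0 := by
    rintro rfl; rw [mul_zero, zero_mul] at hP'; exact h1ε0 hP'.symm
  set up := X0 * xp⁻¹ with hup
  set um := X0 * xm⁻¹ with hum
  have hprod : up * um * (1 + ε) = (u2 - u1) ^ 2 := by
    have : up * um * (xp * xm * (w2 - w1) ^ 2) = (u2 - u1) ^ 2 := by
      simp only [hup, hum, hu1, hu2]
      field_simp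
    rw [hP'] at this
    exact this
  have hsum : (up + um) * (1 + ε) = X0 * τ := by
    have : (up + um) * (xp * xm * (w2 - w1) ^ 2) = X0 * ((xp + xm) * (w2 - w1) ^ 2) := by
      simp only [hup, hum]
      field_simp
      ring
    rw [hP', hS'] at this
    exact this
  have hX0τ : X0 * τ = 2 * (u1 + u2) + W.b₂ * (u1 * w2) + W.b₄ * ((u1 + u2) * (w1 * w2))
      + W.b₆ * ((u1 * w2) * (w1 * w2)) := by
    simp only [hτ, hu1, hu2]; ring
  have hu12 : v (u1 + u2) ≤ 1 := v.map_add_le hu1i hu2i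
  have hX0τs : v (X0 * τ) < 1 := by
    rw [hX0τ]
    refine v.map_add_lt (v.map_add_lt (v.map_add_lt ?_ ?_) ?_) ?_
    · exact sm_mul_right v h2s hu12
    · exact sm_mul_left v hW.b2 (sm_mul_left v hu1i hw2s)
    · exact sm_mul_left v hW.b4 (sm_mul_left v hu12 hw12)
    · exact sm_mul_left v hW.b6 (sm_mul_left v (le_mul v hu1i hw2i) hw12)
  have hprodi : v (up * um) ≤ 1 := by
    have : v (up * um) * v (1 + ε) = v ((u2 - u1) ^ 2) := by rw [← map_mul, hprod]
    rw [h1ε, mul_one] at this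
    rw [this, map_pow]
    exact pow_le_one₀ zero_le (v.map_sub_le hu2i hu1i)
  have hsums : v (up + um) < 1 := by
    have : v (up + um) * v (1 + ε) = v (X0 * τ) := by rw [← map_mul, hsum]
    rw [h1ε, mul_one] at this
    rw [this]; exact hX0τs
  obtain ⟨hupi, humi⟩ := le_one_of_add_mul v hsums.le hprodi
  -- `up * um ≡ (u1 + u2)²`
  have hprods : v (up * um - (u1 + u2) ^ 2) < 1 := by
    have e : up * um - (u1 + u2) ^ 2 = -(up * um * ε) - 2 * (2 * (u1 * u2)) := by
      linear_combination hprod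
    rw [e]
    refine v.map_sub_lt ?_ ?_
    · rw [Valuation.map_neg]; exact sm_mul_left v hprodi hεs
    · exact sm_mul_right v h2s (le_mul v h2i (le_mul v hu1i hu2i))
  have key : ∀ t : K, v t ≤ 1 → t = up ∨ t = um → v (t - u1 - u2) < 1 := by
    intro t hti ht
    apply ftwo_lt_one_of_sq
    have e : (t - u1 - u2) ^ 2 = t * (up + um) - (up * um - (u1 + u2) ^ 2)
        - 2 * (t * (u1 + u2)) := by
      rcases ht with rfl | rfl <;> ring
    rw [e]
    refine v.map_sub_lt (v.map_sub_lt ?_ hprods) ?_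
    · exact sm_mul_left v hti hsums
    · exact sm_mul_right v h2s (le_mul v hti hu12)
  refine ⟨le_of_div_le_one v hxp hupi, le_of_div_le_one v hxm humi, ?_, ?_⟩
  · have := key up hupi (Or.inl rfl)
    simpa only [hup, hu1, hu2, hw1, hw2, div_eq_mul_inv] using this
  · have := key um humi (Or.inr rfl)
    simpa only [hum, hu1, hu2, hw1, hw2, div_eq_mul_inv] using this

/-- Field-level duplication in residue characteristic `2`. -/
lemma ftwo_core_dup (hW : ftwo_IntegralB v W) {X0 x xd : K} (hX0 : 1 < v X0) (h1 : v X0 ≤ v x)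
    (hd : xd * f2 W x = phi2 W x) :
    v X0 ≤ v xd ∧ v (X0 / xd) < 1 := by
  have hx : x ≠ 0 := ne_zero_of_one_lt v (hX0.trans_le h1)
  have hX00 : X0 ≠ 0 := ne_zero_of_one_lt v hX0
  set w := x⁻¹ with hw
  have hws : v w < 1 := inv_sm v (hX0.trans_le h1)
  have hwi : v w ≤ 1 := hws.le
  set u := X0 * w with hu
  have hui : v u ≤ 1 := div_le_one_of_le v hx h1
  have h2i : v (2 : K) ≤ 1 := hW.two.le
  have h4 : v (4 : K) < 1 := by
    have : (4 : K) = 2 * 2 := by norm_num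
    rw [this]; exact sm_mul_left v h2i hW.two
  set ρ := W.b₂ * w + 2 * W.b₄ * (w * w) + W.b₆ * (w * (w * w)) with hρ
  set ε := -(W.b₄ * (w * w)) - 2 * W.b₆ * (w * (w * w)) - W.b₈ * ((w * w) * (w * w)) with hε
  have hww : v (w * w) < 1 := sm_mul_left v hwi hws
  have hwww : v (w * (w * w)) < 1 := sm_mul_left v hwi hww
  have hρs : v ρ < 1 := by
    refine v.map_add_lt (v.map_add_lt ?_ ?_) ?_
    · exact sm_mul_left v hW.b2 hws
    · exact sm_mul_left v (le_mul v h2i hW.b4) hww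
    · exact sm_mul_left v hW.b6 hwww
  have hεs : v ε < 1 := by
    refine v.map_sub_lt (v.map_sub_lt ?_ ?_) ?_
    · rw [Valuation.map_neg]; exact sm_mul_left v hW.b4 hww
    · exact sm_mul_left v (le_mul v h2i hW.b6) hwww
    · exact sm_mul_left v hW.b8 (sm_mul_left v hww.le hww)
  have hφ : v (4 + ρ) < 1 := v.map_add_lt h4 hρs
  have h1ε : v (1 + ε) = 1 := v.map_one_add_of_lt hεs
  have h1ε0 : 1 + ε ≠ 0 := by
    intro h; rw [h, map_zero] at h1ε; exact zero_ne_one h1ε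
  have hf2 : f2 W x = x ^ 3 * (4 + ρ) := by
    simp only [f2, hρ, hw]
    field_simp
    ring
  have hphi2 : phi2 W x = x ^ 4 * (1 + ε) := by
    simp only [phi2, hε, hw]
    field_simp
    ring
  rw [hf2, hphi2] at hd
  have hd' : xd * (4 + ρ) = x * (1 + ε) := by
    apply mul_left_cancel₀ (pow_ne_zero 3 hx)
    linear_combination hd
  have hxd : xd ≠ 0 := by
    rintro rfl; rw [zero_mul] at hd'; exact (mul_ne_zero hx h1ε0) hd'.symm
  have hφ0 : 4 + ρ ≠ 0 := by
    intro h; rw [h, mul_zero] at hd'; exact (mul_ne_zero hx h1ε0) hd'.symm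
  have hq : X0 / xd * (1 + ε) = u * (4 + ρ) := by
    have hxd' : xd = x * (1 + ε) / (4 + ρ) := by
      field_simp; exact hd'
    rw [hxd']
    simp only [hu, hw]
    field_simp
  have hqs : v (X0 / xd) < 1 := by
    have : v (X0 / xd) * v (1 + ε) = v (u * (4 + ρ)) := by rw [← map_mul, hq]
    rw [h1ε, mul_one] at this
    rw [this]
    exact sm_mul_left v hui hφ
  refine ⟨?_, hqs⟩
  rw [div_eq_mul_inv] at hqs
  exact le_of_div_le_one v hxd hqs.le

end generic

section points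

variable {K : Type*} [Field K] [DecidableEq K] {Γ : Type*} [LinearOrderedCommGroupWithZero Γ]
  {v : Valuation K Γ} {W : WeierstrassCurve.Affine K} {X0 : K} {P Q : W.Point}

/-- duplication, point level -/
lemma ftwo_good_two_nsmul (hW : ftwo_IntegralB v W) (hX0 : 1 < v X0) (hP : P ≠ 0)
    (hx : v X0 ≤ v (xc P)) :
    Good v X0 (2 • P) ∧ v (qf X0 (2 • P)) < 1 := by
  by_cases h2 : 2 • P = 0
  · rw [h2]
    refine ⟨good_zero, ?_⟩
    rw [qf_zero, map_zero]; exact zero_lt_one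
  · obtain ⟨-, hdup⟩ := Fermat.Agent.S51.xc_two_nsmul hP h2
    obtain ⟨h3, h4⟩ := ftwo_core_dup hW hX0 hx hdup
    exact ⟨Or.inr h3, h4⟩

theorem ftwo_good_add_sub (hW : ftwo_IntegralB v W) (hX0 : 1 < v X0) (hP : Good v X0 P)
    (hQ : Good v X0 Q) :
    Good v X0 (P + Q) ∧ Good v X0 (P - Q) ∧
      v (qf X0 (P + Q) - qf X0 P - qf X0 Q) < 1 ∧ v (qf X0 (P - Q) - qf X0 P - qf X0 Q) < 1 := by
  have h2s : v (2 : K) < 1 := hW.two
  have hqi : ∀ {R : W.Point}, Good v X0 R → v (qf X0 R) ≤ 1 := by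
    intro R hR
    rcases hR with rfl | hR
    · rw [qf_zero, map_zero]; exact zero_le_one
    · by_cases hx0 : xc R = 0
      · simp [qf, hx0]
      · rw [qf, div_eq_mul_inv]; exact div_le_one_of_le v hx0 hR
  have h2q : ∀ {R : W.Point}, Good v X0 R → v (2 * qf X0 R) < 1 := fun hR =>
    sm_mul_right v h2s (hqi hR)
  by_cases hP0 : P = 0
  · subst hP0
    refine ⟨by rwa [zero_add], by rw [zero_sub]; exact good_neg hQ, ?_, ?_⟩
    · rw [zero_add, qf_zero]
      have : qf X0 Q - 0 - qf X0 Q = 0 := by ring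
      rw [this, map_zero]; exact zero_lt_one
    · rw [zero_sub, qf_neg, qf_zero]
      have : qf X0 Q - 0 - qf X0 Q = 0 := by ring
      rw [this, map_zero]; exact zero_lt_one
  by_cases hQ0 : Q = 0
  · subst hQ0
    refine ⟨by rwa [add_zero], by rwa [sub_zero], ?_, ?_⟩
    · rw [add_zero, qf_zero]
      have : qf X0 P - qf X0 P - 0 = 0 := by ring
      rw [this, map_zero]; exact zero_lt_one
    · rw [sub_zero, qf_zero]
      have : qf X0 P - qf X0 P - 0 = 0 := by ring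
      rw [this, map_zero]; exact zero_lt_one
  have hxP : v X0 ≤ v (xc P) := hP.resolve_left hP0
  have hxQ : v X0 ≤ v (xc Q) := hQ.resolve_left hQ0
  by_cases hx : xc P = xc Q
  · rcases Fermat.Agent.S51.eq_or_eq_neg_of_xc_eq hP0 hQ0 hx with h | h
    · subst h
      obtain ⟨h3, h4⟩ := ftwo_good_two_nsmul hW hX0 hP0 hxP
      rw [← two_nsmul, sub_self]
      refine ⟨h3, good_zero, ?_, ?_⟩
      · have : qf X0 (2 • P) - qf X0 P - qf X0 P = qf X0 (2 • P) - 2 * qf X0 P := by ring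
        rw [this]; exact v.map_sub_lt h4 (h2q hP)
      · rw [qf_zero]
        have : (0 : K) - qf X0 P - qf X0 P = -(2 * qf X0 P) := by ring
        rw [this, Valuation.map_neg]; exact h2q hP
    · subst h
      obtain ⟨h3, h4⟩ := ftwo_good_two_nsmul hW hX0 hQ0 hxQ
      have e1 : -Q + Q = 0 := neg_add_cancel Q
      have e2 : -Q - Q = -(2 • Q) := by rw [two_nsmul]; abel
      rw [e1, e2]
      refine ⟨good_zero, good_neg h3, ?_, ?_⟩
      · rw [qf_zero, qf_neg]
        have : (0 : K) - qf X0 Q - qf X0 Q = -(2 * qf X0 Q) := by ring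
        rw [this, Valuation.map_neg]; exact h2q hQ
      · rw [qf_neg, qf_neg]
        have : qf X0 (2 • Q) - qf X0 Q - qf X0 Q = qf X0 (2 • Q) - 2 * qf X0 Q := by ring
        rw [this]; exact v.map_sub_lt h4 (h2q hQ)
  · obtain ⟨h1, h2, h3, h4⟩ := ftwo_core_generic hW hX0 hxP hxQ
      (xc_add_add_xc_sub hP0 hQ0 hx) (xc_add_mul_xc_sub hP0 hQ0 hx)
    exact ⟨Or.inr h1, Or.inr h2, h3, h4⟩

theorem ftwo_good_nsmul (hW : ftwo_IntegralB v W) (hX0 : 1 < v X0) (hP : Good v X0 P) (n : ℕ) :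
    Good v X0 (n • P) ∧ v (qf X0 (n • P) - (n : K) * qf X0 P) < 1 := by
  induction n with
  | zero =>
    refine ⟨by rw [zero_smul]; exact good_zero, ?_⟩
    rw [zero_smul, qf_zero]
    simp
  | succ n ih =>
    obtain ⟨g0, q0⟩ := ih
    obtain ⟨ga, -, hadd, -⟩ := ftwo_good_add_sub hW hX0 g0 hP
    rw [succ_nsmul]
    refine ⟨ga, ?_⟩
    have key : qf X0 (n • P + P) - ((n + 1 : ℕ) : K) * qf X0 P =
        (qf X0 (n • P + P) - qf X0 (n • P) - qf X0 P) + (qf X0 (n • P) - (n : K) * qf X0 P) := by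
      push_cast
      ring
    rw [key]
    exact v.map_add_lt hadd q0

/-- Main theorem: no torsion of order prime to the residue characteristic in the kernel of
reduction (residue characteristic `2`). -/
theorem ftwo_nsmul_ne_zero_of_one_lt (hW : ftwo_IntegralB v W) (hP : P ≠ 0) (hx : 1 < v (xc P))
    {n : ℕ} (hn : v (n : K) = 1) : n • P ≠ 0 := by
  intro h0
  have hg : Good v (xc P) P := Or.inr le_rfl
  obtain ⟨-, hq⟩ := ftwo_good_nsmul hW hx hg n
  have hx0 : xc P ≠ 0 := ne_zero_of_one_lt v hx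
  have h1 : qf (xc P) P = 1 := by simp [qf, hx0]
  rw [h0, qf_zero, h1, mul_one, zero_sub, Valuation.map_neg, hn] at hq
  exact lt_irrefl _ hq

theorem ftwo_E1_add_mem (hW : ftwo_IntegralB v W) (hP : P ∈ E1set v W) (hQ : Q ∈ E1set v W) :
    P + Q ∈ E1set v W := by
  rcases hP with rfl | hP
  · rwa [zero_add]
  rcases hQ with rfl | hQ
  · rw [add_zero]; exact Or.inr hP
  rcases le_total (v (xc P)) (v (xc Q)) with hle | hle
  · have := (ftwo_good_add_sub hW hP (Or.inr le_rfl) (Or.inr hle)).1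
    rcases this with h | h
    · exact Or.inl h
    · exact Or.inr (hP.trans_le h)
  · have := (ftwo_good_add_sub hW hQ (Or.inr hle) (Or.inr le_rfl)).1
    rcases this with h | h
    · exact Or.inl h
    · exact Or.inr (hQ.trans_le h)

/-- The kernel of reduction as an additive subgroup (residue characteristic `2`). -/
def ftwo_E1 (hW : ftwo_IntegralB v W) : AddSubgroup W.Point where
  carrier := E1set v W
  zero_mem' := Or.inl rfl
  add_mem' := fun hP hQ => ftwo_E1_add_mem hW hP hQ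
  neg_mem' := by
    intro P hP
    rcases hP with rfl | hP
    · left; exact neg_zero
    · right; rwa [Fermat.Agent.S51.xc_neg]

lemma ftwo_mem_E1_iff (hW : ftwo_IntegralB v W) : P ∈ ftwo_E1 hW ↔ P = 0 ∨ 1 < v (xc P) :=
  Iff.rfl

/-- `E1` has no `n`-torsion for `n` a unit. -/
theorem ftwo_E1_torsion_free (hW : ftwo_IntegralB v W) {n : ℕ} (hn : v (n : K) = 1)
    (hP : P ∈ ftwo_E1 hW) (h : n • P = 0) : P = 0 := by
  rcases hP with h0 | hx
  · exact h0
  · by_contra hP0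
    exact ftwo_nsmul_ne_zero_of_one_lt hW hP0 hx hn h

end points

end Fermat.Agent.S13

namespace Fermat.Agent.S13

open WeierstrassCurve WeierstrassCurve.Affine
open Fermat.Agent.S51 (xc)
open Fermat.Agent.S05

section subring

variable {K : Type*} [Field K] [DecidableEq K] (A : ValuationSubring K)
  {W : WeierstrassCurve.Affine K}

/-- Integral `a`-coefficients and `2` a non-unit give `ftwo_IntegralB`. -/
theorem ftwo_IntegralB.of_coeffs (h1 : W.a₁ ∈ A) (h2 : W.a₂ ∈ A) (h3 : W.a₃ ∈ A) (h4 : W.a₄ ∈ A)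
    (h6 : W.a₆ ∈ A) (htwo : A.valuation 2 < 1) : ftwo_IntegralB A.valuation W := by
  have two_mem : (2 : K) ∈ A := (A.valuation_le_one_iff _).mp htwo.le
  have four_mem : (4 : K) ∈ A := by
    have : (4 : K) = 2 * 2 := by norm_num
    rw [this]; exact A.mul_mem _ _ two_mem two_mem
  refine ⟨?_, ?_, ?_, ?_, htwo⟩
  · rw [A.valuation_le_one_iff, WeierstrassCurve.b₂]
    exact A.add_mem _ _ (pow_mem h1 2) (A.mul_mem _ _ four_mem h2)
  · rw [A.valuation_le_one_iff, WeierstrassCurve.b₄]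
    exact A.add_mem _ _ (A.mul_mem _ _ two_mem h4) (A.mul_mem _ _ h1 h3)
  · rw [A.valuation_le_one_iff, WeierstrassCurve.b₆]
    exact A.add_mem _ _ (pow_mem h3 2) (A.mul_mem _ _ four_mem h6)
  · rw [A.valuation_le_one_iff, WeierstrassCurve.b₈]
    refine sub_mem (add_mem (sub_mem (add_mem ?_ ?_) ?_) ?_) ?_
    · exact A.mul_mem _ _ (pow_mem h1 2) h6
    · exact A.mul_mem _ _ (A.mul_mem _ _ four_mem h2) h6
    · exact A.mul_mem _ _ (A.mul_mem _ _ h1 h3) h4
    · exact A.mul_mem _ _ h2 (pow_mem h3 2)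
    · exact pow_mem h4 2

/-- `InE1 A P` iff `P` lies in the subgroup `ftwo_E1`. -/
theorem ftwo_inE1_iff_mem_E1 (hW : ftwo_IntegralB A.valuation W) (P : W.Point) :
    InE1 A P ↔ P ∈ ftwo_E1 hW := by
  rw [ftwo_mem_E1_iff, one_lt_valuation_iff]
  cases P with
  | zero => exact ⟨fun _ => Or.inl rfl, fun _ => trivial⟩
  | some x y h =>
    constructor
    · intro hx
      exact Or.inr hx
    · rintro (h0 | hx)
      · exact absurd h0 (Point.some_ne_zero h)
      · exact hx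

section coeffs

variable (ha₁ : W.a₁ ∈ A) (ha₂ : W.a₂ ∈ A) (ha₃ : W.a₃ ∈ A) (ha₄ : W.a₄ ∈ A) (ha₆ : W.a₆ ∈ A)
  (h2 : A.valuation (2 : K) < 1)

include ha₁ ha₂ ha₃ ha₄ ha₆ h2

/-- `E1` is closed under subtraction (residue characteristic `2`). -/
theorem ftwo_inE1_sub {P Q : W.Point} (hP : InE1 A P) (hQ : InE1 A Q) : InE1 A (P - Q) := by
  have hW := ftwo_IntegralB.of_coeffs A ha₁ ha₂ ha₃ ha₄ ha₆ h2
  rw [ftwo_inE1_iff_mem_E1 A hW] at hP hQ ⊢
  exact sub_mem hP hQ

theorem ftwo_inE1_add {P Q : W.Point} (hP : InE1 A P) (hQ : InE1 A Q) : InE1 A (P + Q) := by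
  have hW := ftwo_IntegralB.of_coeffs A ha₁ ha₂ ha₃ ha₄ ha₆ h2
  rw [ftwo_inE1_iff_mem_E1 A hW] at hP hQ ⊢
  exact add_mem hP hQ

theorem ftwo_inE1_neg {P : W.Point} (hP : InE1 A P) : InE1 A (-P) := by
  have hW := ftwo_IntegralB.of_coeffs A ha₁ ha₂ ha₃ ha₄ ha₆ h2
  rw [ftwo_inE1_iff_mem_E1 A hW] at hP ⊢
  exact neg_mem hP

/-- `E1` has no `n`-torsion for `n` a unit of `A` (residue characteristic `2`). -/
theorem ftwo_eq_zero_of_inE1_of_nsmul (n : ℕ) (hn : A.valuation (n : K) = 1) {P : W.Point}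
    (hP : InE1 A P) (h : n • P = 0) : P = 0 := by
  have hW := ftwo_IntegralB.of_coeffs A ha₁ ha₂ ha₃ ha₄ ha₆ h2
  rw [ftwo_inE1_iff_mem_E1 A hW] at hP
  exact ftwo_E1_torsion_free hW hn hP h

theorem ftwo_eq_zero_of_inE1_of_zsmul (n : ℕ) (hn : A.valuation (n : K) = 1) {P : W.Point}
    (hP : InE1 A P) (h : (n : ℤ) • P = 0) : P = 0 := by
  rw [natCast_zsmul] at h
  exact ftwo_eq_zero_of_inE1_of_nsmul A ha₁ ha₂ ha₃ ha₄ ha₆ h2 n hn hP h

end coeffs

end subring

end Fermat.Agent.S13
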