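/-
S13 (B1u), generic part: on the model `y² + xy = x³ + a₂x² + a₄x` over a valued field of residue
characteristic `2` (`Node` of `TwoLabel`), an additive map `τ` of the points induced by a ring
endomorphism `σ` which is *inertial* (`σ z - z ∈ 𝔪` on `A`, valuation preserving) acts
unipotently on `n`-torsion (`v n = 1`): `τ (τ T - T) = τ T - T`.

Ingredients: `TwoLabel.Cp_add_Cp_eq` (label calculus), `FormalTwo` (`E₁` is a torsion-free
subgroup), `S05.sub_mem_E1_of_congr` (same nonsingular reduction ⇒ difference in `E₁`).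
-/
import Fermat.Agent.S13.Two.TwoLabel
import Fermat.Agent.S13.Two.FormalTwo
import Fermat.Agent.S05.Congruence

set_option autoImplicit false
set_option linter.unusedSectionVars false
set_option linter.unusedVariables false

namespace Fermat.Agent.S13B

open WeierstrassCurve WeierstrassCurve.Affine
open Fermat.Agent.S05 (InE1 sub_mem_E1_of_congr)
open Fermat.Agent.S13
open Fermat.Agent.S13.TwoAdd Fermat.Agent.S13.TwoLabel

variable {K : Type*} [Field K] [DecidableEq K] (A : ValuationSubring K)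
  {W : WeierstrassCurve.Affine K} {s : K}

section coeffs

variable (hN : Node A.valuation W s)

include hN

lemma b1u_a₁_mem : W.a₁ ∈ A := by rw [hN.h1]; exact A.one_mem
lemma b1u_a₃_mem : W.a₃ ∈ A := by rw [hN.h3]; exact A.zero_mem
lemma b1u_a₆_mem : W.a₆ ∈ A := by rw [hN.h6]; exact A.zero_mem
lemma b1u_a₂_mem : W.a₂ ∈ A := (A.valuation_le_one_iff _).mp hN.env.va
lemma b1u_a₄_mem : W.a₄ ∈ A := (A.valuation_le_one_iff _).mp hN.env.vb.le
lemma b1u_s_mem : s ∈ A := (A.valuation_le_one_iff _).mp hN.env.vs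

end coeffs

section main

variable (hN : Node A.valuation W s) (h2 : A.valuation (2 : K) < 1)
  (τ : W.Point →+ W.Point) (σ : K →+* K)
  (hσA : ∀ z ∈ A, σ z - z ∈ A.nonunits)
  (hσv : ∀ z, A.valuation (σ z) = A.valuation z)
  (hτ : ∀ (x y : K) (h : W.Nonsingular x y), ∃ h', τ (.some x y h) = .some (σ x) (σ y) h')

include hN h2 hσA hσv hτ

/-- `τ` in `(X, m)`-coordinates. -/
lemma b1u_isXM_map {P : W.Point} {X m : K} (hP : IsXM P X m) : IsXM (τ P) (σ X) (σ m) := by
  obtain ⟨hX, h, rfl⟩ := hP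
  obtain ⟨h', e⟩ := hτ X (m * X) h
  refine ⟨(map_ne_zero_iff σ σ.injective).mpr hX, ?_⟩
  rw [e]
  exact some_congr rfl (map_mul σ m X) h'

/-- `τ` fixes `T0 = (0,0)`. -/
lemma b1u_map_T0 : τ (T0 hN) = T0 hN := by
  unfold T0
  obtain ⟨h', e⟩ := hτ 0 0 (nonsingular_T0 hN)
  rw [e]
  obtain ⟨h'', e'⟩ := some_congr (map_zero σ) (map_zero σ) h'
  rw [e']

/-- A point not reducing to the node is moved by an element of `E₁`. -/
theorem b1u_inE1_sub_of_E0 {P : W.Point} (hP : E0 A.valuation P) : InE1 A (τ P - P) := by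
  have hE := hN.env
  rcases hP with rfl | ⟨X, m, hXM, hv⟩
  · rw [map_zero, sub_zero]; exact trivial
  · have hXM' := b1u_isXM_map A hN h2 τ σ hσA hσv hτ hXM
    have em := hXM.eqn hN.h1 hN.h3 hN.h6
    obtain ⟨hX, h, rfl⟩ := hXM
    obtain ⟨hX', h', e⟩ := hXM'
    rw [e]
    rcases eq_or_lt_of_le hv with h1 | h1
    · -- unit abscissa: same nonsingular reduction
      have hXA : X ∈ A := (A.valuation_le_one_iff _).mp h1.symm.le
      have hmA : m ∈ A := by
        rw [← A.valuation_le_one_iff]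
        have := val_m_sq_le hE em hv
        rw [← h1] at this
        by_contra hcon
        rw [not_le] at hcon
        have : 1 < A.valuation m ^ 2 := one_lt_pow₀ hcon (by norm_num)
        exact absurd ‹A.valuation m ^ 2 ≤ 1› (not_le.mpr this)
      have hYA : m * X ∈ A := A.mul_mem _ _ hmA hXA
      have hxx : σ X - X ∈ A.nonunits := hσA X hXA
      have hyy : σ m * σ X - m * X ∈ A.nonunits := by
        have := hσA (m * X) hYA
        rwa [map_mul] at this
      refine sub_mem_E1_of_congr A (b1u_a₁_mem A hN) (b1u_a₂_mem A hN) (b1u_a₃_mem A hN)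
        (b1u_a₄_mem A hN) h h' hXA hYA hxx hyy ?_
      rintro ⟨-, hWy⟩
      rw [hN.h1, hN.h3, A.mem_nonunits_iff] at hWy
      have h2Y : A.valuation (2 * (m * X)) < 1 := by
        rw [map_mul]
        exact mul_lt_one_of_nonneg_of_lt_one_left zero_le h2 ((A.valuation_le_one_iff _).mpr hYA)
      have : A.valuation (2 * (m * X) + 1 * X + 0) = 1 := by
        rw [add_zero, one_mul, add_comm,
          Valuation.map_add_eq_of_lt_left _ (by rw [← h1]; exact h2Y), ← h1]
      rw [this] at hWy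
      exact lt_irrefl _ hWy
    · -- both in `E₁`
      have hP1 : InE1 A (Point.some X (m * X) h) := by
        show X ∉ A
        rw [← A.valuation_le_one_iff, not_le]; exact h1
      have hP2 : InE1 A (Point.some (σ X) (σ m * σ X) h') := by
        show σ X ∉ A
        rw [← A.valuation_le_one_iff, not_le, hσv]; exact h1
      exact ftwo_inE1_sub A (b1u_a₁_mem A hN) (b1u_a₂_mem A hN) (b1u_a₃_mem A hN)
        (b1u_a₄_mem A hN) (b1u_a₆_mem A hN) h2 hP2 hP1

/-- A point near the node on the branch `s`, in the open annulus, is moved by an element of `E0`. -/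
theorem b1u_E0_sub_of_branch {P : W.Point} {X m : K} (hXM : IsXM P X m)
    (hl : A.valuation W.a₄ < A.valuation X) (hu : A.valuation X < 1)
    (hm : A.valuation (m - s) < 1) : E0 A.valuation (τ P - P) := by
  have hE := hN.env
  have hX : X ≠ 0 := hXM.1
  have hXpos : 0 < A.valuation X := lt_of_le_of_lt zero_le hl
  -- `τ P ∈ C⁺(X)`
  have hXM' := b1u_isXM_map A hN h2 τ σ hσA hσv hτ hXM
  have hm' : A.valuation (σ m - s) < 1 := by
    have e : σ m - s = σ (m - s) + (σ s - s) := by rw [map_sub]; ring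
    rw [e]
    refine Valuation.map_add_lt _ (by rw [hσv]; exact hm) ?_
    exact A.mem_nonunits_iff.mp (hσA s (b1u_s_mem A hN))
  have hC1 : Cp A.valuation s X (τ P) := ⟨σ X, σ m, hXM', hσv X, hm'⟩
  -- `-P + T0 ∈ C⁺(a₄ / X)`
  have hQ : IsXM (-P + Point.some 0 0 (nonsingular_T0 hN)) (W.a₄ / X) m := by
    have := (hXM.neg hN.h1 hN.h3).add_T0 hN.h1 hN.h3 hN.h6 (nonsingular_T0 hN) hE.b_ne
    have e : -(-m - 1) - 1 = m := by ring
    rwa [e] at this
  have hC2 : Cp A.valuation s (W.a₄ / X) (-P + Point.some 0 0 (nonsingular_T0 hN)) :=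
    ⟨W.a₄ / X, m, hQ, rfl, hm⟩
  have h12 : A.valuation X * A.valuation (W.a₄ / X) = A.valuation W.a₄ := by
    rw [map_div₀, mul_div_cancel₀ _ hXpos.ne']
  have key := Cp_add_Cp_eq hN h12 hC1 hC2
  have e : τ P + (-P + Point.some 0 0 (nonsingular_T0 hN)) + Point.some 0 0 (nonsingular_T0 hN)
      = τ P - P := by
    have h00 := T0_add_T0 hN.h1 hN.h3 (nonsingular_T0 hN)
    calc τ P + (-P + Point.some 0 0 (nonsingular_T0 hN)) + Point.some 0 0 (nonsingular_T0 hN)
        = τ P - P + (Point.some 0 0 (nonsingular_T0 hN) + Point.some 0 0 (nonsingular_T0 hN)) := by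
          abel
      _ = τ P - P := by rw [h00, add_zero]
  rwa [e] at key

/-- A point near the node in the open annulus is moved by an element of `E0`. -/
theorem b1u_E0_sub_of_near {P : W.Point} {X m : K} (hXM : IsXM P X m)
    (hl : A.valuation W.a₄ < A.valuation X) (hu : A.valuation X < 1) :
    E0 A.valuation (τ P - P) := by
  have hE := hN.env
  have em := hXM.eqn hN.h1 hN.h3 hN.h6
  rcases dichotomy hE em hl hu with hm | hm
  · exact b1u_E0_sub_of_branch A hN h2 τ σ hσA hσv hτ hXM hl hu hm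
  · have hm' : A.valuation (m - (-s - 1)) < 1 := by
      have e : m - (-s - 1) = m + s + 1 := by ring
      rw [e]; exact hm
    exact b1u_E0_sub_of_branch A hN.swap h2 τ σ hσA hσv hτ hXM hl hu hm'

/-- A point deep in the node region (`v X ≤ v a₄`) is moved by an element of `E₁`. -/
theorem b1u_inE1_sub_of_deep {P : W.Point} {X m : K} (hXM : IsXM P X m)
    (hl : A.valuation X ≤ A.valuation W.a₄) : InE1 A (τ P - P) := by
  have hE := hN.env
  have hX : X ≠ 0 := hXM.1
  have hXpos : 0 < A.valuation X := by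
    rw [Valuation.pos_iff]; exact hX
  have hQ := hXM.add_T0 hN.h1 hN.h3 hN.h6 (nonsingular_T0 hN) hE.b_ne
  have hv : 1 ≤ A.valuation (W.a₄ / X) := by
    rw [map_div₀, one_le_div₀ hXpos]; exact hl
  have hE0 : E0 A.valuation (P + Point.some 0 0 (nonsingular_T0 hN)) :=
    Or.inr ⟨_, _, hQ, hv⟩
  have key := b1u_inE1_sub_of_E0 A hN h2 τ σ hσA hσv hτ hE0
  have hT0 := b1u_map_T0 A hN h2 τ σ hσA hσv hτ
  unfold T0 at hT0
  have e : τ (P + Point.some 0 0 (nonsingular_T0 hN)) - (P + Point.some 0 0 (nonsingular_T0 hN))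
      = τ P - P := by
    rw [map_add, hT0]; abel
  rwa [e] at key

/-- **Unipotence.** `τ (τ T - T) = τ T - T` for every `n`-torsion point `T`, `v n = 1`. -/
theorem b1u_unipotent (n : ℕ) (hn : A.valuation (n : K) = 1) (T : W.Point) (hT : n • T = 0) :
    τ (τ T - T) = τ T - T := by
  have hE := hN.env
  have tf : ∀ Q : W.Point, InE1 A Q → n • Q = 0 → Q = 0 := fun Q hQ hnQ =>
    ftwo_eq_zero_of_inE1_of_nsmul A (b1u_a₁_mem A hN) (b1u_a₂_mem A hN) (b1u_a₃_mem A hN)
      (b1u_a₄_mem A hN) (b1u_a₆_mem A hN) h2 n hn hQ hnQ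
  have hR : n • (τ T - T) = 0 := by
    rw [smul_sub, ← map_nsmul, hT, map_zero, sub_zero]
  -- it suffices to show `E0 (τ T - T)`
  suffices hE0 : E0 A.valuation (τ T - T) by
    have h1 := b1u_inE1_sub_of_E0 A hN h2 τ σ hσA hσv hτ hE0
    have h2' : n • (τ (τ T - T) - (τ T - T)) = 0 := by
      rw [smul_sub, ← map_nsmul, hR, map_zero, sub_zero]
    exact sub_eq_zero.mp (tf _ h1 h2')
  have hzero : ∀ {Q : W.Point}, InE1 A Q → n • Q = 0 → E0 A.valuation Q := by
    intro Q hQ hnQ
    rw [tf Q hQ hnQ]; exact Or.inl rfl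
  rcases T with _ | ⟨x, y, h⟩
  · left
    show τ 0 - 0 = 0
    rw [map_zero, sub_zero]
  · by_cases hx : x = 0
    · -- `T = T0`
      subst hx
      have hy : y = 0 := by
        have := h.1
        rw [equation_iff, hN.h1, hN.h3, hN.h6] at this
        have : y ^ 2 = 0 := by linear_combination this
        exact pow_eq_zero_iff (by norm_num) |>.mp this
      subst hy
      left
      obtain ⟨h', e⟩ := hτ 0 0 h
      rw [e]
      obtain ⟨h'', e'⟩ := some_congr (map_zero σ) (map_zero σ) h'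
      rw [e', sub_self]
    · have hXM := isXM_some h hx
      rcases le_or_gt 1 (A.valuation x) with h1 | h1
      · exact hzero (b1u_inE1_sub_of_E0 A hN h2 τ σ hσA hσv hτ (Or.inr ⟨_, _, hXM, h1⟩)) hR
      · rcases lt_or_ge (A.valuation W.a₄) (A.valuation x) with h4 | h4
        · exact b1u_E0_sub_of_near A hN h2 τ σ hσA hσv hτ hXM h4 h1
        · exact hzero (b1u_inE1_sub_of_deep A hN h2 τ σ hσA hσv hτ hXM h4) hR

end main

end Fermat.Agent.S13B
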