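/-
S13 (B1u) for the Frey curve: inertia at a place over `2` acts unipotently on `E[p]`.
Instantiation of the generic `b1u_unipotent` (`Two/UnipotentGen.lean`) with the Frey numerics at
`2` of `Two/RatNode.lean`.
-/
import Fermat.Agent.S13.Two.UnipotentGen
import Fermat.Agent.S13.Two.RatNode
import Fermat.Agent.S13.Contracts

set_option autoImplicit false

namespace Fermat.Agent.S13B

open WeierstrassCurve WeierstrassCurve.Affine
open Fermat.Agent.S05 Fermat.Agent.S13 Fermat.Agent.S13.RatNode Fermat.Agent.S13x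

/-- Pointwise form: inertia at `2` is unipotent on the `p`-torsion points of the Frey curve. -/
theorem b1u_frey_point (P : FreyPackage) (A : ValuationSubring (AlgebraicClosure ℚ))
    (hA : A.LiesOverPrime 2) (σ : S13x.GalQ) (hσ : σ ∈ A.inertiaSubgroupIn ℚ)
    (T : ((P.freyCurve)⁄(AlgebraicClosure ℚ)).Point) (hT : P.p • T = 0) :
    σ • (σ • T - T) = σ • T - T := by
  classical
  obtain ⟨s, hN⟩ := rnode_exists_node P hA
  let τ : ((P.freyCurve)⁄(AlgebraicClosure ℚ)).Point →+ ((P.freyCurve)⁄(AlgebraicClosure ℚ)).Point :=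
    DistribSMul.toAddMonoidHom _ σ
  let sR : AlgebraicClosure ℚ →+* AlgebraicClosure ℚ :=
    (σ : AlgebraicClosure ℚ ≃ₐ[ℚ] AlgebraicClosure ℚ).toAlgHom.toRingHom
  have hsR : ∀ x ∈ A, sR x - x ∈ A.nonunits := fun x hx => inertia_sub_mem_nonunits hσ hx
  have hsv : ∀ x, A.valuation (sR x) = A.valuation x := fun x => inertia_valuation_eq_Qbar hσ x
  have hτ : ∀ (x y : AlgebraicClosure ℚ) (h : ((P.freyCurve)⁄(AlgebraicClosure ℚ)).Nonsingular x y),
      ∃ h', τ (.some x y h) = .some (sR x) (sR y) h' :=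
    fun x y h => ⟨nonsingular_apply _ σ h, rfl⟩
  exact b1u_unipotent A hN (rnode_val_two_lt hA) τ sR hsR hsv hτ P.p (rnode_val_p P hA) T hT

/-- **(B1u) holds for every Frey package.** -/
theorem b1u_contractB1u_holds (P : FreyPackage) : ContractB1u P := by
  intro A hA σ hσ x
  have hx : P.p • (x : ((P.freyCurve)⁄(AlgebraicClosure ℚ)).Point) = 0 := by
    have := x.2
    rw [Submodule.mem_torsionBy_iff, natCast_zsmul] at this
    exact this
  apply Subtype.ext
  exact b1u_frey_point P A hA σ hσ x.1 hx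

end Fermat.Agent.S13B
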