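import Mathlib
import Fermat.Agent.S05.LegAdd

/-!
# S13, package (B): addition formulas on curves `y² + a₁ x y = x³ + a₂ x² + a₄ x`

For a Weierstrass curve with `a₃ = a₆ = 0` (and ARBITRARY `a₁`, in particular the model
`a₁ = 1` of the Frey curve, which is minimal at `2`) the point `(0,0)` is a rational `2`-torsion
point and the group law has a uniform shape in the coordinates `(X, m)`, `m = y / x`:
with `M := m₁ + m₂ + a₁`,
`X₃ = (X₁ X₂ - a₄)² / (X₁ X₂ M²)`,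
`m₃ = m₂ + a₄ M / (X₁ X₂ - a₄) - (X₁ X₂ - a₄) / (X₁ M)`.
No hypothesis on the characteristic: this is the residue-characteristic-`2` replacement of
`Fermat.Agent.S05.LegAdd` (which is the case `a₁ = 0`).
-/

set_option autoImplicit false
set_option linter.unusedSectionVars false

namespace Fermat.Agent.S13.Two

open WeierstrassCurve WeierstrassCurve.Affine
open Fermat.Agent.S05.LegAdd (IsXM isXM_some some_congr)

section algebra

variable {K : Type*} [Field K]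

/-- The key identity behind all formulas. -/
theorem two_key_identity {a1 a2 a4 X1 Y1 X2 Y2 : K}
    (e1 : Y1 ^ 2 + a1 * X1 * Y1 = X1 ^ 3 + a2 * X1 ^ 2 + a4 * X1)
    (e2 : Y2 ^ 2 + a1 * X2 * Y2 = X2 ^ 3 + a2 * X2 ^ 2 + a4 * X2) :
    (Y1 * X2 - Y2 * X1) * (Y1 * X2 + Y2 * X1 + a1 * X1 * X2) =
      X1 * X2 * (X1 - X2) * (X1 * X2 - a4) := by
  linear_combination X2 ^ 2 * e1 - X1 ^ 2 * e2

theorem two_chord_X {a1 a2 a4 X1 Y1 X2 Y2 : K}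
    (e1 : Y1 ^ 2 + a1 * X1 * Y1 = X1 ^ 3 + a2 * X1 ^ 2 + a4 * X1)
    (e2 : Y2 ^ 2 + a1 * X2 * Y2 = X2 ^ 3 + a2 * X2 ^ 2 + a4 * X2) (hx : X1 - X2 ≠ 0) :
    (((Y1 - Y2) / (X1 - X2)) ^ 2 + a1 * ((Y1 - Y2) / (X1 - X2)) - a2 - X1 - X2) *
        (Y1 * X2 + Y2 * X1 + a1 * X1 * X2) ^ 2 =
      X1 * X2 * (X1 * X2 - a4) ^ 2 := by
  field_simp
  grind

theorem two_chord_slope {a1 a2 a4 X1 Y1 X2 Y2 : K}
    (e1 : Y1 ^ 2 + a1 * X1 * Y1 = X1 ^ 3 + a2 * X1 ^ 2 + a4 * X1)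
    (e2 : Y2 ^ 2 + a1 * X2 * Y2 = X2 ^ 3 + a2 * X2 ^ 2 + a4 * X2) (hx : X1 - X2 ≠ 0) :
    ((Y1 - Y2) / (X1 - X2)) * X1 * (Y1 * X2 + Y2 * X1 + a1 * X1 * X2) =
      Y1 * (Y1 * X2 + Y2 * X1 + a1 * X1 * X2) + X1 * X2 * (X1 * X2 - a4) := by
  have k := two_key_identity e1 e2
  field_simp
  linear_combination k

theorem two_tangent_slope {a1 a2 a4 X1 Y1 ℓ : K}
    (e1 : Y1 ^ 2 + a1 * X1 * Y1 = X1 ^ 3 + a2 * X1 ^ 2 + a4 * X1)
    (hℓ : ℓ * (2 * Y1 + a1 * X1) = 3 * X1 ^ 2 + 2 * a2 * X1 + a4 - a1 * Y1) :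
    ℓ * X1 * (Y1 * X1 + Y1 * X1 + a1 * X1 * X1) =
      Y1 * (Y1 * X1 + Y1 * X1 + a1 * X1 * X1) + X1 * X1 * (X1 * X1 - a4) := by
  linear_combination X1 ^ 2 * hℓ - 2 * X1 * e1

theorem two_tangent_X {a1 a2 a4 X1 Y1 ℓ : K}
    (e1 : Y1 ^ 2 + a1 * X1 * Y1 = X1 ^ 3 + a2 * X1 ^ 2 + a4 * X1)
    (hℓ : ℓ * (2 * Y1 + a1 * X1) = 3 * X1 ^ 2 + 2 * a2 * X1 + a4 - a1 * Y1) :
    (ℓ ^ 2 + a1 * ℓ - a2 - X1 - X1) * (Y1 * X1 + Y1 * X1 + a1 * X1 * X1) ^ 2 =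
      X1 * X1 * (X1 * X1 - a4) ^ 2 := by
  linear_combination (X1 ^ 2 * (ℓ * (2 * Y1 + a1 * X1) + (3 * X1 ^ 2 + 2 * a2 * X1 + a4 - a1 * Y1))
    + a1 * X1 ^ 2 * (2 * Y1 + a1 * X1)) * hℓ - X1 ^ 2 * (a1 ^ 2 + 4 * a2 + 8 * X1) * e1

/-- From the slope formula, the formula for the `Y`-coordinate of the sum. -/
theorem two_Y_of_slope {a1 a4 X1 Y1 X2 X3 D ℓ : K}
    (hℓ : ℓ * X1 * D = Y1 * D + X1 * X2 * (X1 * X2 - a4)) :
    (-(ℓ * (X3 - X1) + Y1) - a1 * X3) * X1 * D =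
      -Y1 * D * X3 + X1 * X2 * (X1 * X2 - a4) * (X1 - X3) - a1 * X1 * X3 * D := by
  linear_combination (-(X3 - X1)) * hℓ

end algebra

variable {K : Type*} [Field K] {W : Affine K}

/-- The equation of a curve with `a₃ = a₆ = 0`. -/
theorem two_eqn (h3 : W.a₃ = 0) (h6 : W.a₆ = 0) {x y : K} (h : W.Equation x y) :
    y ^ 2 + W.a₁ * x * y = x ^ 3 + W.a₂ * x ^ 2 + W.a₄ * x := by
  rw [equation_iff, h3, h6] at h
  linear_combination h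

theorem two_negY_eq (h3 : W.a₃ = 0) (x y : K) : W.negY x y = -y - W.a₁ * x := by
  rw [negY, h3]; ring

variable [DecidableEq K]

/-- **Master addition formula** (`a₃ = a₆ = 0`), valid for chords and tangents. -/
theorem two_add_some (h3 : W.a₃ = 0) (h6 : W.a₆ = 0) {X1 Y1 X2 Y2 : K}
    (hP1 : W.Nonsingular X1 Y1) (hP2 : W.Nonsingular X2 Y2)
    (hD : Y1 * X2 + Y2 * X1 + W.a₁ * X1 * X2 ≠ 0) :
    ∃ X3 Y3, ∃ h : W.Nonsingular X3 Y3,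
      Point.some X1 Y1 hP1 + Point.some X2 Y2 hP2 = Point.some X3 Y3 h ∧
      X3 * (Y1 * X2 + Y2 * X1 + W.a₁ * X1 * X2) ^ 2 = X1 * X2 * (X1 * X2 - W.a₄) ^ 2 ∧
      Y3 * X1 * (Y1 * X2 + Y2 * X1 + W.a₁ * X1 * X2) =
        -Y1 * (Y1 * X2 + Y2 * X1 + W.a₁ * X1 * X2) * X3 +
          X1 * X2 * (X1 * X2 - W.a₄) * (X1 - X3) -
          W.a₁ * X1 * X3 * (Y1 * X2 + Y2 * X1 + W.a₁ * X1 * X2) := by
  have e1 := two_eqn h3 h6 hP1.1
  have e2 := two_eqn h3 h6 hP2.1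
  by_cases hx : X1 = X2
  · -- tangent case
    have hY : Y1 ≠ W.negY X2 Y2 := by
      rw [two_negY_eq h3]
      intro hc
      apply hD
      rw [hc, hx]; ring
    have hYY : Y1 = Y2 := Y_eq_of_Y_ne hP1.1 hP2.1 hx hY
    subst hx
    subst hYY
    have hden : 2 * Y1 + W.a₁ * X1 ≠ 0 := by
      intro hc
      apply hD
      linear_combination X1 * hc
    have hs : W.slope X1 X1 Y1 Y1 =
        (3 * X1 ^ 2 + 2 * W.a₂ * X1 + W.a₄ - W.a₁ * Y1) / (2 * Y1 + W.a₁ * X1) := by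
      rw [slope_of_Y_ne rfl hY, two_negY_eq h3]
      congr 1; ring
    have hℓ : W.slope X1 X1 Y1 Y1 * (2 * Y1 + W.a₁ * X1) =
        3 * X1 ^ 2 + 2 * W.a₂ * X1 + W.a₄ - W.a₁ * Y1 := by
      rw [hs, div_mul_cancel₀ _ hden]
    refine ⟨_, _, _, Point.add_of_Y_ne hY, ?_, ?_⟩
    · rw [addX]
      have := two_tangent_X e1 hℓ
      linear_combination this
    · rw [addY, negAddY, two_negY_eq h3]
      exact two_Y_of_slope (two_tangent_slope e1 hℓ)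
  · -- chord case
    have hx' : X1 - X2 ≠ 0 := sub_ne_zero.mpr hx
    refine ⟨_, _, _, Point.add_of_X_ne hx, ?_, ?_⟩
    · rw [slope_of_X_ne hx, addX]
      have := two_chord_X e1 e2 hx'
      linear_combination this
    · rw [addY, negAddY, slope_of_X_ne hx, two_negY_eq h3]
      exact two_Y_of_slope (two_chord_slope e1 e2 hx')

/-- The curve equation in `(X, m)`-coordinates, polynomial form. -/
theorem two_eqn_XM (h3 : W.a₃ = 0) (h6 : W.a₆ = 0) {X m : K} (hX : X ≠ 0)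
    (h : W.Equation X (m * X)) : m ^ 2 * X + W.a₁ * m * X = X ^ 2 + W.a₂ * X + W.a₄ := by
  have e := two_eqn h3 h6 h
  have : X * (m ^ 2 * X + W.a₁ * m * X - (X ^ 2 + W.a₂ * X + W.a₄)) = 0 := by
    linear_combination e
  rcases mul_eq_zero.mp this with h | h
  · exact absurd h hX
  · exact sub_eq_zero.mp h

/-- The curve equation in `(X, m)`-coordinates. -/
theorem two_isXM_eqn (h3 : W.a₃ = 0) (h6 : W.a₆ = 0) {P : W.Point} {X m : K}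
    (hP : IsXM P X m) : m ^ 2 + W.a₁ * m = X + W.a₂ + W.a₄ / X := by
  obtain ⟨hX, h, -⟩ := hP
  have e := two_eqn_XM h3 h6 hX h.1
  field_simp
  linear_combination e

/-- Negation in `(X, m)`-coordinates. -/
theorem two_isXM_neg (h3 : W.a₃ = 0) {P : W.Point} {X m : K} (hP : IsXM P X m) :
    IsXM (-P) X (-m - W.a₁) := by
  obtain ⟨hX, h, rfl⟩ := hP
  refine ⟨hX, ?_⟩
  rw [Point.neg_some]
  apply some_congr rfl
  rw [two_negY_eq h3]; ring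

/-- `(0,0)` is a nonsingular point as soon as `a₄ ≠ 0`. -/
theorem two_nonsingular_T0 (h3 : W.a₃ = 0) (h6 : W.a₆ = 0) (ha4 : W.a₄ ≠ 0) :
    W.Nonsingular 0 0 := by
  rw [nonsingular_iff, equation_iff, h3, h6]
  refine ⟨by ring, Or.inl ?_⟩
  intro h
  apply ha4
  linear_combination -h

/-- Translation by the `2`-torsion point `(0,0)` in `(X, m)`-coordinates. -/
theorem two_isXM_add_T0 (h3 : W.a₃ = 0) (h6 : W.a₆ = 0) (h0 : W.Nonsingular 0 0)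
    {P : W.Point} {X m : K} (hP : IsXM P X m) (ha4 : W.a₄ ≠ 0) :
    IsXM (P + Point.some 0 0 h0) (W.a₄ / X) (-m - W.a₁) := by
  have hm : m ^ 2 + W.a₁ * m = X + W.a₂ + W.a₄ / X := two_isXM_eqn h3 h6 hP
  obtain ⟨hX, h, rfl⟩ := hP
  refine ⟨div_ne_zero ha4 hX, ?_⟩
  rw [Point.add_of_X_ne hX]
  have hs : W.slope X 0 (m * X) 0 = m := by
    rw [slope_of_X_ne hX, sub_zero, sub_zero, mul_div_cancel_right₀ _ hX]
  apply some_congr
  · rw [hs, addX]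
    linear_combination hm
  · rw [addY, negAddY, hs, two_negY_eq h3, addX]
    linear_combination (-m - W.a₁) * hm

/-- `(0,0) + (0,0) = 0`. -/
theorem two_T0_add_T0 (h3 : W.a₃ = 0) (h0 : W.Nonsingular 0 0) :
    Point.some 0 0 h0 + Point.some 0 0 h0 = 0 := by
  apply Point.add_of_Y_eq rfl
  rw [two_negY_eq h3]; ring

/-- **Master addition formula** in `(X, m)`-coordinates, `M = m₁ + m₂ + a₁`. -/
theorem two_isXM_add (h3 : W.a₃ = 0) (h6 : W.a₆ = 0)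
    {P1 P2 : W.Point} {X1 m1 X2 m2 : K} (hP1 : IsXM P1 X1 m1) (hP2 : IsXM P2 X2 m2)
    (hm : m1 + m2 + W.a₁ ≠ 0) (hne : X1 * X2 ≠ W.a₄) :
    IsXM (P1 + P2) ((X1 * X2 - W.a₄) ^ 2 / (X1 * X2 * (m1 + m2 + W.a₁) ^ 2))
      (m2 + W.a₄ * (m1 + m2 + W.a₁) / (X1 * X2 - W.a₄) -
        (X1 * X2 - W.a₄) / (X1 * (m1 + m2 + W.a₁))) := by
  obtain ⟨hX1, h, rfl⟩ := hP1
  obtain ⟨hX2, h', rfl⟩ := hP2
  set M := m1 + m2 + W.a₁ with hM
  have hX12 : X1 * X2 ≠ 0 := mul_ne_zero hX1 hX2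
  have hDeq : m1 * X1 * X2 + m2 * X2 * X1 + W.a₁ * X1 * X2 = X1 * X2 * M := by
    rw [hM]; ring
  have hD : m1 * X1 * X2 + m2 * X2 * X1 + W.a₁ * X1 * X2 ≠ 0 := by
    rw [hDeq]
    exact mul_ne_zero hX12 hm
  have hne' : X1 * X2 - W.a₄ ≠ 0 := sub_ne_zero.mpr hne
  obtain ⟨X3, Y3, h3', hadd, hX3, hY3⟩ := two_add_some h3 h6 h h' hD
  rw [hDeq] at hX3 hY3
  have hDn : X1 * X2 * M ^ 2 ≠ 0 := mul_ne_zero hX12 (pow_ne_zero _ hm)
  have hX3' : X3 * (X1 * X2 * M ^ 2) = (X1 * X2 - W.a₄) ^ 2 := by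
    have : X1 * X2 * (X3 * (X1 * X2 * M ^ 2) - (X1 * X2 - W.a₄) ^ 2) = 0 := by
      linear_combination hX3
    rcases mul_eq_zero.mp this with h | h
    · exact absurd h hX12
    · exact sub_eq_zero.mp h
  have eX : X3 = (X1 * X2 - W.a₄) ^ 2 / (X1 * X2 * M ^ 2) := by
    rw [eq_div_iff hDn]
    exact hX3'
  have hX3ne : X3 ≠ 0 := by
    rw [eX]
    exact div_ne_zero (pow_ne_zero _ hne') hDn
  refine ⟨by rw [← eX]; exact hX3ne, ?_⟩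
  rw [hadd]
  apply some_congr eX
  rw [← eX]
  have hY3' : Y3 * X1 * M =
      -(m1 * X1) * M * X3 + (X1 * X2 - W.a₄) * (X1 - X3) - W.a₁ * X1 * X3 * M := by
    have : X1 * X2 * (Y3 * X1 * M -
        (-(m1 * X1) * M * X3 + (X1 * X2 - W.a₄) * (X1 - X3) - W.a₁ * X1 * X3 * M)) = 0 := by
      linear_combination hY3
    rcases mul_eq_zero.mp this with h | h
    · exact absurd h hX12
    · exact sub_eq_zero.mp h
  have hden : X1 * M * (X1 * X2 - W.a₄) ≠ 0 :=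
    mul_ne_zero (mul_ne_zero hX1 hm) hne'
  have hkey : Y3 * (X1 * M * (X1 * X2 - W.a₄)) =
      (m2 * X1 * M * (X1 * X2 - W.a₄) + W.a₄ * M ^ 2 * X1 -
        (X1 * X2 - W.a₄) ^ 2) * X3 := by
    linear_combination (X1 * X2 - W.a₄) * hY3' - X1 * hX3'
  have hm3 : m2 + W.a₄ * M / (X1 * X2 - W.a₄) - (X1 * X2 - W.a₄) / (X1 * M) =
      (m2 * X1 * M * (X1 * X2 - W.a₄) + W.a₄ * M ^ 2 * X1 -
        (X1 * X2 - W.a₄) ^ 2) / (X1 * M * (X1 * X2 - W.a₄)) := by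
    field_simp
  rw [hm3, div_mul_eq_mul_div, eq_div_iff hden]
  exact hkey

/-- If `X₁ X₂ = a₄` (and `M ≠ 0`) the sum is the point `(0,0)`. -/
theorem two_isXM_add_eq_T0 (h3 : W.a₃ = 0) (h6 : W.a₆ = 0) (h0 : W.Nonsingular 0 0)
    {P1 P2 : W.Point} {X1 m1 X2 m2 : K} (hP1 : IsXM P1 X1 m1) (hP2 : IsXM P2 X2 m2)
    (hm : m1 + m2 + W.a₁ ≠ 0) (he : X1 * X2 = W.a₄) :
    P1 + P2 = Point.some 0 0 h0 := by
  obtain ⟨hX1, h, rfl⟩ := hP1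
  obtain ⟨hX2, h', rfl⟩ := hP2
  have hDeq : m1 * X1 * X2 + m2 * X2 * X1 + W.a₁ * X1 * X2 = X1 * X2 * (m1 + m2 + W.a₁) := by
    ring
  have hD : m1 * X1 * X2 + m2 * X2 * X1 + W.a₁ * X1 * X2 ≠ 0 := by
    rw [hDeq]
    exact mul_ne_zero (mul_ne_zero hX1 hX2) hm
  obtain ⟨X3, Y3, h3', hadd, hX3, hY3⟩ := two_add_some h3 h6 h h' hD
  rw [he, sub_self] at hX3 hY3
  have hX30 : X3 = 0 := by
    have : X3 * (m1 * X1 * X2 + m2 * X2 * X1 + W.a₁ * X1 * X2) ^ 2 = 0 := by rw [hX3]; ring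
    rcases mul_eq_zero.mp this with h | h
    · exact h
    · exact absurd ((pow_eq_zero_iff two_ne_zero).mp h) hD
  have hY30 : Y3 = 0 := by
    rw [hX30] at hY3
    have : Y3 * (X1 * (m1 * X1 * X2 + m2 * X2 * X1 + W.a₁ * X1 * X2)) = 0 := by
      linear_combination hY3
    rcases mul_eq_zero.mp this with h | h
    · exact h
    · exact absurd h (mul_ne_zero hX1 hD)
  rw [hadd]
  obtain ⟨h'', e⟩ := some_congr hX30 hY30 h3'
  rw [e]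

/-- If `M = m₁ + m₂ + a₁ = 0` and `X₁ X₂ ≠ a₄` the two points are opposite. -/
theorem two_add_eq_zero_of_M (h3 : W.a₃ = 0) (h6 : W.a₆ = 0) {P1 P2 : W.Point}
    {X1 m1 X2 m2 : K} (hP1 : IsXM P1 X1 m1) (hP2 : IsXM P2 X2 m2)
    (hM : m1 + m2 + W.a₁ = 0) (hne : X1 * X2 ≠ W.a₄) : P1 + P2 = 0 := by
  have e1 := two_isXM_eqn h3 h6 hP1
  have e2 := two_isXM_eqn h3 h6 hP2
  obtain ⟨hX1, h, rfl⟩ := hP1
  obtain ⟨hX2, h', rfl⟩ := hP2
  have hm2 : m2 = -m1 - W.a₁ := by linear_combination hM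
  subst hm2
  have hXX : X1 = X2 := by
    have h0 : (X1 - X2) * (X1 * X2 - W.a₄) = 0 := by
      have e : X1 + W.a₂ + W.a₄ / X1 = X2 + W.a₂ + W.a₄ / X2 := by
        rw [← e1, ← e2]; ring
      field_simp at e
      linear_combination e
    rcases mul_eq_zero.mp h0 with h0 | h0
    · exact sub_eq_zero.mp h0
    · exact absurd (sub_eq_zero.mp h0) hne
  subst hXX
  apply Point.add_of_Y_eq rfl
  rw [two_negY_eq h3]
  ring

end Fermat.Agent.S13.Two
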