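import Fermat.Agent.S13.Two.TwoLabel
import Fermat.Agent.S13.Two.FormalTwo

/-!
# S13 (B1u): inertia at `2` acts unipotently on odd torsion (abstract form)

`W : y² + x y = x³ + a₂ x² + a₄ x` over a field `K` with a valuation subring `A` of residue
characteristic `2`, with a node at `(0, 0)` modulo the maximal ideal (`TwoLabel.Node`).
`τ` is an additive endomorphism of the group of points acting on coordinates through a ring
endomorphism `s` of `K` which preserves the valuation and is trivial modulo the maximal ideal.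
For `n` a unit of `A` and `P` with `n • P = 0` we show `τ (τ P - P) = τ P - P`.
-/

set_option autoImplicit false
set_option linter.unusedSectionVars false
set_option linter.unusedVariables false

namespace Fermat.Agent.S13.TwoUnip

open WeierstrassCurve WeierstrassCurve.Affine
open Fermat.Agent.S05
open Fermat.Agent.S13.TwoAdd Fermat.Agent.S13.TwoLabel

variable {K : Type*} [Field K] [DecidableEq K] {A : ValuationSubring K}
  {W : WeierstrassCurve.Affine K} {s0 : K}

section coeffs

variable (hN : Node A.valuation W s0)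
include hN

theorem unip_mem_a₁ : W.a₁ ∈ A := by rw [hN.h1]; exact A.one_mem
theorem unip_mem_a₃ : W.a₃ ∈ A := by rw [hN.h3]; exact A.zero_mem
theorem unip_mem_a₆ : W.a₆ ∈ A := by rw [hN.h6]; exact A.zero_mem
theorem unip_mem_a₂ : W.a₂ ∈ A := (A.valuation_le_one_iff _).mp hN.env.va
theorem unip_mem_a₄ : W.a₄ ∈ A := (A.valuation_le_one_iff _).mp hN.env.vb.le

end coeffs

section main

variable (hN : Node A.valuation W s0) (h2 : A.valuation (2 : K) < 1)
  (τ : W.Point →+ W.Point) (s : K →+* K)
  (hs : ∀ x ∈ A, s x - x ∈ A.nonunits)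
  (hv : ∀ x, A.valuation (s x) = A.valuation x)
  (hτ : ∀ (x y : K) (h : W.Nonsingular x y), ∃ h', τ (.some x y h) = .some (s x) (s y) h')
  (n : ℕ) (hn : A.valuation (n : K) = 1)

include hN h2 in
/-- `n` is odd. -/
theorem unip_odd (hn : A.valuation (n : K) = 1) : Odd n := by
  rcases Nat.even_or_odd n with ⟨k, hk⟩ | h
  · exfalso
    have : (n : K) = 2 * (k : K) := by rw [hk]; push_cast; ring
    rw [this, map_mul] at hn
    have hk1 : A.valuation (k : K) ≤ 1 := (A.valuation_le_one_iff _).mpr (natCast_mem A k)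
    have : A.valuation (2 : K) * A.valuation (k : K) < 1 :=
      lt_of_le_of_lt (mul_le_of_le_one_right zero_le hk1) h2
    rw [hn] at this
    exact lt_irrefl _ this
  · exact h

include hN h2 hs hτ in
/-- A point with unit abscissa: `τ Q - Q` lies in the kernel of reduction. -/
theorem unip_sub_mem_E1_of_unit {x y : K} (h : W.Nonsingular x y) (hx : A.valuation x = 1) :
    InE1 A (τ (.some x y h) - .some x y h) := by
  have hxA : x ∈ A := (A.valuation_le_one_iff _).mp hx.le
  have hyA : y ∈ A := y_mem_of_x_mem A (unip_mem_a₁ hN) (unip_mem_a₂ hN) (unip_mem_a₃ hN)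
    (unip_mem_a₄ hN) (unip_mem_a₆ hN) h.1 hxA
  refine map_sub_mem_E1 A (unip_mem_a₁ hN) (unip_mem_a₂ hN) (unip_mem_a₃ hN) (unip_mem_a₄ hN)
    τ s hs hτ h hxA hyA ?_
  rintro ⟨-, hWy⟩
  rw [A.mem_nonunits_iff, hN.h1, hN.h3] at hWy
  have h2y : A.valuation (2 * y) < 1 := by
    rw [map_mul]
    exact lt_of_le_of_lt (mul_le_of_le_one_right zero_le ((A.valuation_le_one_iff _).mpr hyA)) h2
  have : A.valuation (2 * y + 1 * x + 0) = 1 := by
    have e : 2 * y + 1 * x + 0 = x + 2 * y := by ring
    rw [e, Valuation.map_add_eq_of_lt_left _ (by rw [hx]; exact h2y), hx]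
  rw [this] at hWy
  exact lt_irrefl _ hWy

include hN h2 hn in
/-- `n`-torsion in the kernel of reduction vanishes. -/
theorem unip_E1_tors {Q : W.Point} (hQ : InE1 A Q) (hnQ : n • Q = 0) : Q = 0 :=
  ftwo_eq_zero_of_inE1_of_nsmul A (unip_mem_a₁ hN) (unip_mem_a₂ hN) (unip_mem_a₃ hN)
    (unip_mem_a₄ hN) (unip_mem_a₆ hN) h2 n hn hQ hnQ

include hN h2 hs hτ hn in
/-- **Case `E0`.** `τ` fixes the `n`-torsion points not reducing to the node. -/
theorem unip_fix_of_E0 {P : W.Point} (hP : E0 A.valuation P) (hnP : n • P = 0) : τ P = P := by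
  rcases hP with rfl | ⟨X, m, ⟨hX0, h, rfl⟩, hX⟩
  · exact map_zero τ
  · rcases hX.lt_or_eq with hlt | heq
    · have h0 : Point.some X (m * X) h = 0 :=
        unip_E1_tors hN h2 n hn (show X ∉ A from fun hA =>
          absurd ((A.valuation_le_one_iff _).mpr hA) (not_le.mpr hlt)) hnP
      rw [h0]; exact map_zero τ
    · have hE1 := unip_sub_mem_E1_of_unit hN h2 τ s hs hτ h heq.symm
      have hn0 : n • (τ (.some X (m * X) h) - .some X (m * X) h) = 0 := by
        rw [smul_sub, ← map_nsmul, hnP, map_zero, sub_zero]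
      exact sub_eq_zero.mp (unip_E1_tors hN h2 n hn hE1 hn0)

include hτ in
/-- `τ` fixes `T0 = (0, 0)`. -/
theorem unip_map_T0 (h0 : W.Nonsingular 0 0) : τ (.some 0 0 h0) = .some 0 0 h0 := by
  obtain ⟨h', e⟩ := hτ 0 0 h0
  rw [e]
  simp only [map_zero]

include hv hτ in
/-- `τ` in `(X, m)`-coordinates. -/
theorem unip_isXM_map {P : W.Point} {X m : K} (hP : IsXM P X m) : IsXM (τ P) (s X) (s m) := by
  obtain ⟨hX0, h, rfl⟩ := hP
  obtain ⟨h', e⟩ := hτ X (m * X) h
  have hsX : s X ≠ 0 := by
    intro h0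
    have := hv X
    rw [h0, map_zero] at this
    exact hX0 ((A.valuation.zero_iff).mp this.symm)
  refine ⟨hsX, ?_⟩
  rw [e]
  exact some_congr rfl (map_mul s m X) h'

include hN hs hv hτ in
/-- **Near the node**, on the branch `m ≡ s0`: `τ P - P ∈ E0`. -/
theorem unip_sub_mem_E0_of_branch {P : W.Point} {X m : K} (hP : IsXM P X m)
    (hm : A.valuation (m - s0) < 1) : E0 A.valuation (τ P - P) := by
  have hE := hN.env
  have hmA : m ∈ A := (A.valuation_le_one_iff _).mp (val_m_le_one hE hm)
  have hτP : Cp A.valuation s0 X (τ P) := by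
    refine ⟨s X, s m, unip_isXM_map τ s hv hτ hP, hv X, ?_⟩
    have e : s m - s0 = (s m - m) + (m - s0) := by ring
    rw [e]
    exact A.valuation.map_add_lt (A.mem_nonunits_iff.mp (hs m hmA)) hm
  have hnegP : IsXM (-P + Point.some 0 0 (nonsingular_T0 hN)) (W.a₄ / X) m := by
    have := (hP.neg hN.h1 hN.h3).add_T0 hN.h1 hN.h3 hN.h6 (nonsingular_T0 hN) hE.b_ne
    have e : -(-m - 1) - 1 = m := by ring
    rwa [e] at this
  have hQ : Cp A.valuation s0 (W.a₄ / X) (-P + Point.some 0 0 (nonsingular_T0 hN)) :=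
    ⟨W.a₄ / X, m, hnegP, rfl, hm⟩
  have h12 : A.valuation X * A.valuation (W.a₄ / X) = A.valuation W.a₄ := by
    rw [← map_mul, mul_div_cancel₀ _ hP.1]
  have := Cp_add_Cp_eq hN h12 hτP hQ
  have e : τ P + (-P + Point.some 0 0 (nonsingular_T0 hN)) + Point.some 0 0 (nonsingular_T0 hN)
      = τ P - P := by
    have hT := T0_add_T0 hN.h1 hN.h3 (nonsingular_T0 hN)
    rw [add_assoc, add_assoc, hT, add_zero, sub_eq_add_neg]
  rwa [e] at this

include hN hs hv hτ in
/-- **Near the node**: `τ P - P ∈ E0`. -/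
theorem unip_sub_mem_E0_of_near {P : W.Point} {X m : K} (hP : IsXM P X m)
    (hl : A.valuation W.a₄ < A.valuation X) (hu : A.valuation X < 1) :
    E0 A.valuation (τ P - P) := by
  rcases dichotomy hN.env (hP.eqn hN.h1 hN.h3 hN.h6) hl hu with h | h
  · exact unip_sub_mem_E0_of_branch hN τ s hs hv hτ hP h
  · refine unip_sub_mem_E0_of_branch hN.swap τ s hs hv hτ hP ?_
    have e : m - (-s0 - 1) = m + s0 + 1 := by ring
    rw [e]; exact h

include hN h2 hs hτ hn in
/-- **Below the node**: `τ` fixes `n`-torsion points with `v X ≤ v a₄`. -/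
theorem unip_fix_of_low {P : W.Point} {X m : K} (hP : IsXM P X m)
    (hl : A.valuation X ≤ A.valuation W.a₄) (hnP : n • P = 0) : τ P = P := by
  have hE := hN.env
  have hT0 := unip_map_T0 τ s hτ (nonsingular_T0 hN)
  have hTT := T0_add_T0 hN.h1 hN.h3 (nonsingular_T0 hN)
  have hP' := hP.add_T0 hN.h1 hN.h3 hN.h6 (nonsingular_T0 hN) hE.b_ne
  have hXpos : 0 < A.valuation X :=
    lt_of_le_of_ne zero_le (Ne.symm ((A.valuation.ne_zero_iff).mpr hP.1))
  have hX' : 1 ≤ A.valuation (W.a₄ / X) := by
    rw [map_div₀, one_le_div₀ hXpos]; exact hl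
  -- the difference is unchanged by the translation
  have hdiff : τ (P + Point.some 0 0 (nonsingular_T0 hN)) - (P + Point.some 0 0 (nonsingular_T0 hN))
      = τ P - P := by
    rw [map_add, hT0]; abel
  have hn0 : n • (τ P - P) = 0 := by
    rw [smul_sub, ← map_nsmul, hnP, map_zero, sub_zero]
  obtain ⟨hX0', h', e'⟩ := hP'
  rcases hX'.lt_or_eq with hlt | heq
  · -- `P + T0 ∈ E1`, so `2 • P ∈ E1`
    have hE1 : InE1 A (P + Point.some 0 0 (nonsingular_T0 hN)) := by
      rw [e']
      exact fun hA => absurd ((A.valuation_le_one_iff _).mpr hA) (not_le.mpr hlt)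
    have h2P : InE1 A (2 • P) := by
      have := ftwo_inE1_add A (unip_mem_a₁ hN) (unip_mem_a₂ hN) (unip_mem_a₃ hN)
        (unip_mem_a₄ hN) (unip_mem_a₆ hN) h2 hE1 hE1
      have e : P + Point.some 0 0 (nonsingular_T0 hN) + (P + Point.some 0 0 (nonsingular_T0 hN))
          = 2 • P := by
        rw [add_add_add_comm, hTT, add_zero, two_nsmul]
      rwa [e] at this
    have h2P0 : 2 • P = 0 := by
      refine unip_E1_tors hN h2 n hn h2P ?_
      rw [smul_comm, hnP, smul_zero]
    obtain ⟨k, hk⟩ := unip_odd hN h2 n hn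
    have : P = 0 := by
      have e : n • P = k • (2 • P) + P := by
        rw [hk, smul_smul, add_smul, one_smul, mul_comm]
      rw [hnP, h2P0, smul_zero, zero_add] at e
      exact e.symm
    rw [this]; exact map_zero τ
  · have hE1 := unip_sub_mem_E1_of_unit hN h2 τ s hs hτ h' heq.symm
    rw [← e', hdiff] at hE1
    exact sub_eq_zero.mp (unip_E1_tors hN h2 n hn hE1 hn0)

include hN h2 hs hv hτ hn in
/-- **(B1u), abstract form.** `τ - 1` kills `(τ - 1) P` for every `n`-torsion point `P`. -/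
theorem unip_main (P : W.Point) (hnP : n • P = 0) : τ (τ P - P) = τ P - P := by
  have hfix : τ P = P → τ (τ P - P) = τ P - P := fun h => by rw [h, sub_self, map_zero]
  rcases P with _ | ⟨x, y, h⟩
  · apply hfix
    rw [← Point.zero_def]; exact map_zero τ
  · by_cases hx0 : x = 0
    · -- `P = T0`
      subst hx0
      have hy0 : y = 0 := by
        have := TwoAdd.eqn hN.h1 hN.h3 hN.h6 h.1
        have : y ^ 2 = 0 := by linear_combination this
        exact pow_eq_zero_iff (two_ne_zero) |>.mp this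
      subst hy0
      exact hfix (unip_map_T0 τ s hτ h)
    · have hP := isXM_some h hx0
      rcases le_or_gt 1 (A.valuation x) with h1 | h1
      · exact hfix (unip_fix_of_E0 hN h2 τ s hs hτ n hn (Or.inr ⟨x, y / x, hP, h1⟩) hnP)
      · rcases le_or_gt (A.valuation x) (A.valuation W.a₄) with hl | hl
        · exact hfix (unip_fix_of_low hN h2 τ s hs hτ n hn hP hl hnP)
        · have hQ := unip_sub_mem_E0_of_near hN τ s hs hv hτ hP hl h1
          have hn0 : n • (τ (.some x y h) - .some x y h) = 0 := by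
            rw [smul_sub, ← map_nsmul, hnP, map_zero, sub_zero]
          exact unip_fix_of_E0 hN h2 τ s hs hτ n hn hQ hn0

end main

end Fermat.Agent.S13.TwoUnip
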