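import Fermat.Agent.S13.Contracts
import Fermat.Agent.S13.Two.Unipotent
import Fermat.Agent.S05.Interface

/-!
# S13 (B1u): inertia at `2` acts unipotently on `E[p]` of the Frey curve

`b1u_of_node` reduces the contract `ContractB1u P` to the existence, for every place `A` of
`Qbar` over `2`, of a node structure `TwoLabel.Node A.valuation (freyCurve⁄Qbar) s`
(supplied by `Two/FreyTwo.lean`).
-/

set_option autoImplicit false

namespace Fermat.Agent.S13.TwoUnip

open WeierstrassCurve WeierstrassCurve.Affine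
open Fermat.Agent.S05 Fermat.Agent.S13.TwoLabel
open Fermat.Agent.S13x (ContractB1u)

/-- Pointwise form of (B1u) for a curve over `ℚ` with a node at a place over `2`. -/
theorem b1u_point (W : WeierstrassCurve ℚ) (p : ℕ) (hp : p.Prime) (hp2 : p ≠ 2)
    (A : ValuationSubring Qbar) (hA : A.LiesOverPrime 2) (s0 : Qbar)
    (hN : Node A.valuation (W⁄Qbar) s0) (σ : GalQ) (hσ : σ ∈ A.inertiaSubgroupIn ℚ)
    (T : (W⁄Qbar).Point) (hT : p • T = 0) : σ • (σ • T - T) = σ • T - T := by
  have h2 : A.valuation (2 : Qbar) < 1 := by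
    have := (intCast_mem_nonunits_iff Nat.prime_two hA 2).mpr (by norm_num)
    have := A.mem_nonunits_iff.mp this
    simpa using this
  have hvp : A.valuation (p : Qbar) = 1 :=
    valuation_prime_eq_one Nat.prime_two hA hp (Ne.symm hp2)
  let τ : (W⁄Qbar).Point →+ (W⁄Qbar).Point := DistribSMul.toAddMonoidHom (W⁄Qbar).Point σ
  let sR : Qbar →+* Qbar := (σ : Qbar ≃ₐ[ℚ] Qbar).toAlgHom.toRingHom
  have hsR : ∀ x ∈ A, sR x - x ∈ A.nonunits := fun x hx => inertia_sub_mem_nonunits hσ hx
  have hvR : ∀ x, A.valuation (sR x) = A.valuation x := fun x => inertia_valuation_eq_Qbar hσ x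
  have hτ : ∀ (x y : Qbar) (h : (W⁄Qbar).Nonsingular x y),
      ∃ h', τ (.some x y h) = .some (sR x) (sR y) h' :=
    fun x y h => ⟨nonsingular_apply _ σ h, rfl⟩
  exact unip_main hN h2 τ sR hsR hvR hτ p hvp T hT

/-- (B1u) from the node structures at the places over `2`. -/
theorem b1u_of_node (P : FreyPackage)
    (hnode : ∀ A : ValuationSubring Qbar, A.LiesOverPrime 2 →
      ∃ s0 : Qbar, Node A.valuation (P.freyCurve⁄Qbar) s0) : ContractB1u P := by
  intro A hA σ hσ x
  obtain ⟨s0, hN⟩ := hnode A hA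
  apply Subtype.ext
  have hx := x.2
  rw [Submodule.mem_torsionBy_iff] at hx
  have hx' : P.p • x.1 = 0 := by
    rw [← natCast_zsmul]; exact hx
  have hp2 : P.p ≠ 2 := by have := P.hp5; omega
  exact b1u_point P.freyCurve P.p P.pp hp2 A hA s0 hN σ hσ x.1 hx'

end Fermat.Agent.S13.TwoUnip
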