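import Fermat.Agent.S13.Two.B1uFinal
import Fermat.Agent.S13.Two.RatNode

/-!
# S13 (B1u) holds: inertia at `2` acts unipotently on `E[p]` of the Frey curve
-/

set_option autoImplicit false

namespace Fermat.Agent.S13.TwoUnip

/-- **Contract (B1u)**, unconditionally. -/
theorem b1u_contractB1u_holds' (P : FreyPackage) : Fermat.Agent.S13x.ContractB1u P :=
  b1u_of_node P (fun _ hA => Fermat.Agent.S13.RatNode.rnode_exists_node P hA)

end Fermat.Agent.S13.TwoUnip
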