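import Fermat.Agent.S13.Two.Rational
import Fermat.Agent.S13.Two.RatNode

/-!
# S13 (B2): closing the two label-calculus hypotheses of `Two/Rational.lean`

`b2c_TLHyp : b2r_TLHyp` (from `RatNode.rnode_torsion_label`) and `b2c_E0Hyp : b2r_E0Hyp`
(from `TwoLabel.E0_add`), hence `b2c_contractB2 (P) : ContractB2 P`.
-/

set_option autoImplicit false

namespace Fermat.Agent.S13

open WeierstrassCurve WeierstrassCurve.Affine
open Fermat.Agent.S05
open Fermat.Agent.S05.MultEndgame (InE0)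

theorem b2c_TLHyp : b2r_TLHyp := fun A W hM n x y h hn hl hu =>
  RatNode.rnode_torsion_label A W hM.a₁ hM.a₃ hM.a₆ hM.a₂ hM.a₄_lt hM.a₄_ne hM.two n x y h hn hl hu

theorem b2c_inE0_iff {A : ValuationSubring Qbar} {W : Affine Qbar} (P : W.Point) :
    InE0 A P ↔ TwoLabel.E0 A.valuation P := by
  rcases P with _ | ⟨x, y, h⟩
  · exact ⟨fun _ => Or.inl rfl, fun _ => trivial⟩
  · show x ∉ A.nonunits ↔ _
    rw [A.mem_nonunits_iff, not_lt]
    constructor
    · intro hx
      have hx0 : x ≠ 0 := by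
        rintro rfl
        rw [map_zero] at hx
        exact absurd hx (by simp)
      exact Or.inr ⟨x, y / x, TwoAdd.isXM_some h hx0, hx⟩
    · rintro (h0 | ⟨X, m, hXM, hX⟩)
      · exact absurd h0 (Point.some_ne_zero h)
      · obtain ⟨-, h', e⟩ := hXM
        injection e with e1 e2
        rw [e1]; exact hX

theorem b2c_E0Hyp : b2r_E0Hyp := by
  intro A W hM P Q hP hQ
  obtain ⟨s, hN⟩ := RatNode.rnode_node_of_two W hM.a₁ hM.a₃ hM.a₆ hM.a₂ hM.a₄_lt hM.a₄_ne hM.two
  rw [b2c_inE0_iff] at hP hQ ⊢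
  exact TwoLabel.E0_add hN hP hQ

/-- **(B2)** for the Frey curve: no nonzero `G_ℚ`-fixed `p`-torsion point. -/
theorem b2c_contractB2 (P : FreyPackage) : Fermat.Agent.S13x.ContractB2 P :=
  b2r_contractB2 b2c_TLHyp b2c_E0Hyp P

end Fermat.Agent.S13
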