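import Fermat.Agent.S13.Contracts
import Fermat.Agent.S13.Two.RatNode

/-!
# S13 (B2): no nonzero Galois-fixed `p`-torsion point on the Frey curve (assembly)

`b2_of_E0case` reduces `ContractB2 P` to the `E0`-case at one place over `2`:
a Galois-fixed `p`-torsion point which does not reduce to the node at `2` is zero.
The near-node case is `RatNode.rnode_not_near_of_fixed`; the remaining case
`v x ≤ v a₄` is reduced to the `E0`-case by translating with the rational point `(0, 0)`.
-/

set_option autoImplicit false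

namespace Fermat.Agent.S13.TwoRat

open WeierstrassCurve WeierstrassCurve.Affine
open Fermat.Agent.S05 Fermat.Agent.S13.TwoLabel Fermat.Agent.S13.TwoAdd
open Fermat.Agent.S13x (ContractB2)

/-- There is a place of `Qbar` over every prime. -/
theorem b2_exists_place (q : ℕ) (hq : q.Prime) :
    ∃ A : ValuationSubring Qbar, A.LiesOverPrime q := by
  let R : Subring Qbar := (algebraMap ℤ Qbar).range
  let qR : R := ⟨(q : Qbar), ⟨(q : ℤ), by simp⟩⟩
  have hne : Ideal.span {qR} ≠ ⊤ := by
    rw [Ne, Ideal.span_singleton_eq_top]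
    intro hu
    obtain ⟨⟨b, n, rfl⟩, hb⟩ := isUnit_iff_exists_inv.mp hu
    have h1 : (q : Qbar) * (algebraMap ℤ Qbar n) = 1 := congrArg Subtype.val hb
    have h2 : ((q * n : ℤ) : Qbar) = ((1 : ℤ) : Qbar) := by
      push_cast
      rw [← h1]; simp
    have h3 : (q : ℤ) * n = 1 := Int.cast_injective h2
    have : IsUnit (q : ℤ) := IsUnit.of_mul_eq_one _ h3
    rw [Int.isUnit_iff_natAbs_eq] at this
    have := hq.one_lt
    simp at *
    omega
  obtain ⟨V, -, hV⟩ := Ideal.image_subset_nonunits_valuationSubring _ hne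
  exact ⟨V, hV ⟨qR, Ideal.subset_span rfl, rfl⟩⟩

variable (P : FreyPackage)

/-- The Galois group fixes `(0, 0)`. -/
theorem b2_smul_T0 (σ : GalQ) (h0 : (P.freyCurve⁄Qbar).Nonsingular 0 0) :
    σ • (Point.some 0 0 h0 : (P.freyCurve⁄Qbar).Point) = Point.some 0 0 h0 := by
  rw [smul_point_some]
  simp only [map_zero]

/-- **(B2) from the `E0`-case.** -/
theorem b2_of_E0case
    (hE0 : ∀ A : ValuationSubring Qbar, A.LiesOverPrime 2 →
      ∀ Q : (P.freyCurve⁄Qbar).Point, (∀ σ : GalQ, σ • Q = Q) → P.p • Q = 0 →
        E0 A.valuation Q → Q = 0) : ContractB2 P := by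
  intro x hx
  obtain ⟨A, hA⟩ := b2_exists_place 2 Nat.prime_two
  obtain ⟨s0, hN⟩ := RatNode.rnode_exists_node P hA
  have hxt := x.2
  rw [Submodule.mem_torsionBy_iff] at hxt
  have hpT : P.p • x.1 = 0 := by rw [← natCast_zsmul]; exact hxt
  have hfix : ∀ σ : GalQ, σ • x.1 = x.1 := fun σ => congrArg Subtype.val (hx σ)
  apply Subtype.ext
  show x.1 = 0
  obtain ⟨k, hk⟩ := P.hp_odd
  -- `2 • T = 0` and `p • T = 0` give `T = 0`
  have hodd : ∀ T : (P.freyCurve⁄Qbar).Point, P.p • T = 0 → 2 • T = 0 → T = 0 := by
    intro T h1 h2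
    have e : P.p • T = k • (2 • T) + T := by
      rw [hk, smul_smul, add_smul, one_smul, mul_comm]
    rw [h1, h2, nsmul_zero, zero_add] at e
    exact e.symm
  generalize x.1 = T at hpT hfix
  rcases T with _ | ⟨X, Y, h⟩
  · rfl
  · exfalso
    have hne : (Point.some X Y h : (P.freyCurve⁄Qbar).Point) ≠ 0 := Point.some_ne_zero h
    have hfX : ∀ σ : GalQ, σ X = X := by
      intro σ
      have := hfix σ
      rw [smul_point_some] at this
      injection this
    by_cases hX0 : X = 0
    · -- `T = (0, 0)` has order `2`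
      subst hX0
      have hY0 : Y = 0 := by
        have := TwoAdd.eqn hN.h1 hN.h3 hN.h6 h.1
        have : Y ^ 2 = 0 := by linear_combination this
        exact pow_eq_zero_iff (two_ne_zero) |>.mp this
      subst hY0
      apply hne
      apply hodd _ hpT
      rw [two_nsmul]
      exact T0_add_T0 hN.h1 hN.h3 h
    · have hP := isXM_some h hX0
      rcases le_or_gt 1 (A.valuation X) with h1 | h1
      · exact hne (hE0 A hA _ hfix hpT (Or.inr ⟨X, Y / X, hP, h1⟩))
      · rcases le_or_gt (A.valuation X) (A.valuation (P.freyCurve⁄Qbar).a₄) with hl | hl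
        · -- translate by `(0, 0)`
          have hP' := hP.add_T0 hN.h1 hN.h3 hN.h6 (nonsingular_T0 hN) hN.env.b_ne
          have hXpos : 0 < A.valuation X :=
            lt_of_le_of_ne zero_le (Ne.symm ((A.valuation.ne_zero_iff).mpr hX0))
          have hX' : 1 ≤ A.valuation ((P.freyCurve⁄Qbar).a₄ / X) := by
            rw [map_div₀, one_le_div₀ hXpos]; exact hl
          have hE : E0 A.valuation
              (Point.some X Y h + Point.some 0 0 (nonsingular_T0 hN)) :=
            Or.inr ⟨_, _, hP', hX'⟩
          have h2E := E0_add hN hE hE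
          have e : Point.some X Y h + Point.some 0 0 (nonsingular_T0 hN) +
              (Point.some X Y h + Point.some 0 0 (nonsingular_T0 hN)) =
              2 • Point.some X Y h := by
            rw [add_add_add_comm, T0_add_T0 hN.h1 hN.h3 (nonsingular_T0 hN), add_zero, two_nsmul]
          rw [e] at h2E
          have h2fix : ∀ σ : GalQ, σ • (2 • Point.some X Y h : (P.freyCurve⁄Qbar).Point) =
              2 • Point.some X Y h := by
            intro σ
            rw [smul_point_nsmul, hfix σ]
          have h2p : P.p • (2 • Point.some X Y h : (P.freyCurve⁄Qbar).Point) = 0 := by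
            rw [smul_comm, hpT, nsmul_zero]
          exact hne (hodd _ hpT (hE0 A hA _ h2fix h2p h2E))
        · exact RatNode.rnode_not_near_of_fixed P hA h hpT hfX hl h1

end Fermat.Agent.S13.TwoRat
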