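/-
S13 package (B2), the E0 / good-reduction case (helper8) = helper28's (B2-unit) chunk.

ABSTRACT (no Galois group, no Frey curve): `K` a field, `A` a valuation subring with `v 2 < 1`,
`W` a curve `y² + xy = x³ + a₂x² + a₄x` with a node modulo `m_A` (`TwoLabel.Node`), `H` a subgroup
of `W(K)` whose integral points have residues in `𝔽₂` (think: the rational points).  Then `H` has
no nonzero `n`-torsion point in `E0` when `n` is a unit of `A` prime to `3`.

Proof: `T ∈ E0`, `T ≠ 0`.  If `v x > 1` then `T ∈ E1`, so `T = 0` (`ftwo_`).  If `v x = 1`: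
`2T` is an integral point of `H ∩ E0` (`two_nsmul_integral`, `E0_add`), so `x(2T) ≡ 1 ≡ x(T)` and
`y(2T) ≡ y(T)` or `≡ y(T) + 1 ≡ y(-T)`; the reduction is nonsingular (`W_y = 2y + x` is a unit),
so `T = 2T - T ∈ E1` or `3T = 2T - (-T) ∈ E1` (`S05.sub_mem_E1_of_congr`); hence `T = 0`.
-/
import Fermat.Agent.S13.Two.FormalTwo
import Fermat.Agent.S13.Two.TwoLabel
import Fermat.Agent.S05.SameRed

set_option autoImplicit false
set_option linter.unusedSectionVars false
set_option linter.style.longLine false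

namespace Fermat.Agent.S13

open WeierstrassCurve WeierstrassCurve.Affine Fermat.Agent.S05
open Fermat.Agent.S13.TwoLabel Fermat.Agent.S13.TwoAdd

variable {K : Type*} [Field K] [DecidableEq K] (A : ValuationSubring K)
  {W : WeierstrassCurve.Affine K} {s : K}

/-- The residue hypothesis: integral points of `H` have both coordinates `≡ 0` or `1` modulo the
maximal ideal of `A`. -/
def b2g_Res (H : AddSubgroup W.Point) : Prop :=
  ∀ (x y : K) (h : W.Nonsingular x y), Point.some x y h ∈ H → x ∈ A → y ∈ A →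
    (x ∈ A.nonunits ∨ x - 1 ∈ A.nonunits) ∧ (y ∈ A.nonunits ∨ y - 1 ∈ A.nonunits)

/-- **Unit case.** A point `T = (x, y)` of `H` with `v x = 1` is not `n`-torsion. -/
theorem b2g_unit_case (hN : Node A.valuation W s) (h2 : A.valuation (2 : K) < 1)
    (H : AddSubgroup W.Point) (hres : b2g_Res A H) (n : ℕ) (hn : A.valuation (n : K) = 1)
    (hn3 : ¬ 3 ∣ n) {x y : K} (h : W.Nonsingular x y) (hTH : Point.some x y h ∈ H)
    (hx : A.valuation x = 1) (hnT : n • Point.some x y h = 0) : False := by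
  have ha1 : W.a₁ ∈ A := by rw [hN.h1]; exact A.one_mem
  have ha2 : W.a₂ ∈ A := (A.valuation_le_one_iff _).mp hN.env.va
  have ha3 : W.a₃ ∈ A := by rw [hN.h3]; exact A.zero_mem
  have ha4 : W.a₄ ∈ A := (A.valuation_le_one_iff _).mp hN.env.vb.le
  have ha6 : W.a₆ ∈ A := by rw [hN.h6]; exact A.zero_mem
  have hW : SameRed.IntegralCoeffs A W := ⟨ha1, ha2, ha3, ha4, ha6⟩
  have h2m : (2 : K) ∈ A.nonunits := A.mem_nonunits_iff.mpr h2
  have hxA : x ∈ A := (A.valuation_le_one_iff _).mp hx.le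
  have hyA : y ∈ A := y_mem_of_x_mem A ha1 ha2 ha3 ha4 ha6 h.1 hxA
  have hx0 : x ≠ 0 := by
    intro h0; rw [h0, map_zero] at hx; exact zero_ne_one hx
  -- `W_y` is a unit
  have hWyval : A.valuation (2 * y + W.a₁ * x + W.a₃) = 1 := by
    rw [hN.h1, hN.h3, one_mul, add_zero, add_comm]
    exact SameRed.val_add_eq_one A hx (SameRed.nonunits_mul_right A h2m hyA)
  have hWy : SameRed.Wy W x y ∉ A.nonunits := by
    rw [A.mem_nonunits_iff, not_lt]; exact hWyval.ge
  -- the double
  obtain ⟨_, h3', h2T, hx3A, hy3A⟩ := SameRed.two_nsmul_integral A hW h hxA hyA hWy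
  set x3 := W.addX x x (SameRed.Wx W x y / SameRed.Wy W x y) with hx3def
  set y3 := W.addY x x y (SameRed.Wx W x y / SameRed.Wy W x y) with hy3def
  have h2TH : Point.some x3 y3 h3' ∈ H := by
    rw [← h2T]; exact H.nsmul_mem hTH 2
  -- `2T ∈ E0`, hence `x3` is a unit
  have hTE0 : E0 A.valuation (Point.some x y h) :=
    Or.inr ⟨x, y / x, isXM_some h hx0, hx.ge⟩
  have h2TE0 : E0 A.valuation (Point.some x3 y3 h3') := by
    have := E0_add hN hTE0 hTE0
    rwa [← two_nsmul, h2T] at this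
  have hx3 : A.valuation x3 = 1 := by
    rcases h2TE0 with h0 | ⟨X, m, ⟨_, hh, hXM⟩, hv⟩
    · exact absurd h0 (Point.some_ne_zero h3')
    · have hX : x3 = X := by
        have := hXM
        rw [Point.some.injEq] at this
        exact this.1
      rw [hX]
      refine le_antisymm ?_ hv
      rw [← hX]; exact (A.valuation_le_one_iff _).mpr hx3A
  -- residues
  obtain ⟨hxres, hyres⟩ := hres x y h hTH hxA hyA
  obtain ⟨hx3res, hy3res⟩ := hres x3 y3 h3' h2TH hx3A hy3A
  have hx1 : x - 1 ∈ A.nonunits := by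
    rcases hxres with hx' | hx'
    · rw [A.mem_nonunits_iff, hx] at hx'; exact absurd hx' (lt_irrefl _)
    · exact hx'
  have hx31 : x3 - 1 ∈ A.nonunits := by
    rcases hx3res with hx' | hx'
    · rw [A.mem_nonunits_iff, hx3] at hx'; exact absurd hx' (lt_irrefl _)
    · exact hx'
  have hadd : ∀ {a b : K}, a ∈ A.nonunits → b ∈ A.nonunits → a + b ∈ A.nonunits := by
    intro a b ha hb
    rw [A.mem_nonunits_iff] at ha hb ⊢
    exact lt_of_le_of_lt (Valuation.map_add _ _ _) (max_lt ha hb)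
  have hneg : ∀ {a : K}, a ∈ A.nonunits → -a ∈ A.nonunits := by
    intro a ha
    rw [A.mem_nonunits_iff] at ha ⊢
    rwa [Valuation.map_neg]
  have hxx : x3 - x ∈ A.nonunits := by
    have : x3 - x = (x3 - 1) + -(x - 1) := by ring
    rw [this]; exact hadd hx31 (hneg hx1)
  have hns : ¬ (W.a₁ * y - (3 * x ^ 2 + 2 * W.a₂ * x + W.a₄) ∈ A.nonunits ∧
      2 * y + W.a₁ * x + W.a₃ ∈ A.nonunits) := by
    rintro ⟨_, hc⟩
    rw [A.mem_nonunits_iff, hWyval] at hc
    exact lt_irrefl _ hc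
  -- the two cases: same residue of `y`, or opposite
  have hsame : y3 - y ∈ A.nonunits → False := by
    intro hyy
    have hE1 := sub_mem_E1_of_congr A ha1 ha2 ha3 ha4 h h3' hxA hyA hxx hyy hns
    rw [← h2T, two_nsmul, add_sub_cancel_right] at hE1
    exact hE1 hxA
  have hopp : y3 - W.negY x y ∈ A.nonunits → False := by
    intro hyy
    have hnegns : W.Nonsingular x (W.negY x y) := (nonsingular_neg ..).mpr h
    have hnegA : W.negY x y ∈ A := by
      rw [negY, hN.h1, hN.h3, one_mul, sub_zero]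
      exact sub_mem (neg_mem hyA) hxA
    have hns' : ¬ (W.a₁ * W.negY x y - (3 * x ^ 2 + 2 * W.a₂ * x + W.a₄) ∈ A.nonunits ∧
        2 * W.negY x y + W.a₁ * x + W.a₃ ∈ A.nonunits) := by
      rintro ⟨_, hc⟩
      have : 2 * W.negY x y + W.a₁ * x + W.a₃ = -(2 * y + W.a₁ * x + W.a₃) := by
        rw [negY]; ring
      rw [this, A.mem_nonunits_iff, Valuation.map_neg, hWyval] at hc
      exact lt_irrefl _ hc
    have hE1 := sub_mem_E1_of_congr A ha1 ha2 ha3 ha4 hnegns h3' hxA hnegA hxx hyy hns'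
    have hnegeq : Point.some x (W.negY x y) hnegns = -Point.some x y h := (Point.neg_some h).symm
    rw [hnegeq, ← h2T, sub_neg_eq_add, two_nsmul] at hE1
    have h3T : (3 : ℕ) • Point.some x y h = Point.some x y h + Point.some x y h +
        Point.some x y h := by
      rw [show (3 : ℕ) = 2 + 1 from rfl, add_nsmul, two_nsmul, one_nsmul]
    rw [← h3T] at hE1
    have hn3T : n • ((3 : ℕ) • Point.some x y h) = 0 := by
      rw [smul_comm, hnT, smul_zero]
    have h3T0 : (3 : ℕ) • Point.some x y h = 0 :=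
      ftwo_eq_zero_of_inE1_of_nsmul A ha1 ha2 ha3 ha4 ha6 h2 n hn hE1 hn3T
    -- `gcd (3, n) = 1`
    have hcop : Nat.Coprime 3 n := (Nat.Prime.coprime_iff_not_dvd Nat.prime_three).mpr hn3
    have hord := addOrderOf_dvd_of_nsmul_eq_zero h3T0
    have hord' := addOrderOf_dvd_of_nsmul_eq_zero hnT
    have h1 : addOrderOf (Point.some x y h) ∣ 1 := by
      have := Nat.dvd_gcd hord hord'
      rwa [hcop.gcd_eq_one] at this
    have : Point.some x y h = 0 := by
      exact AddMonoid.addOrderOf_eq_one_iff.mp (Nat.dvd_one.mp h1)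
    exact Point.some_ne_zero h this
  rcases hyres with hy' | hy' <;> rcases hy3res with hy3' | hy3'
  · -- both `≡ 0`
    apply hsame
    have : y3 - y = y3 + -y := by ring
    rw [this]; exact hadd hy3' (hneg hy')
  · -- `y ≡ 0`, `y3 ≡ 1`
    apply hopp
    have : y3 - W.negY x y = (y3 - 1) + y + (x - 1) + 2 := by
      rw [negY, hN.h1, hN.h3]; ring
    rw [this]; exact hadd (hadd (hadd hy3' hy') hx1) h2m
  · -- `y ≡ 1`, `y3 ≡ 0`
    apply hopp
    have : y3 - W.negY x y = y3 + (y - 1) + (x - 1) + 2 := by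
      rw [negY, hN.h1, hN.h3]; ring
    rw [this]; exact hadd (hadd (hadd hy3' hy') hx1) h2m
  · -- both `≡ 1`
    apply hsame
    have : y3 - y = (y3 - 1) + -(y - 1) := by ring
    rw [this]; exact hadd hy3' (hneg hy')

/-- **(B2-unit).** `H ∩ E0` has no nonzero `n`-torsion (`n` a unit of `A`, prime to `3`). -/
theorem b2g_eq_zero_of_E0 (hN : Node A.valuation W s) (h2 : A.valuation (2 : K) < 1)
    (H : AddSubgroup W.Point) (hres : b2g_Res A H) (n : ℕ) (hn : A.valuation (n : K) = 1)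
    (hn3 : ¬ 3 ∣ n) {T : W.Point} (hTH : T ∈ H) (hnT : n • T = 0)
    (hE0 : E0 A.valuation T) : T = 0 := by
  have ha1 : W.a₁ ∈ A := by rw [hN.h1]; exact A.one_mem
  have ha2 : W.a₂ ∈ A := (A.valuation_le_one_iff _).mp hN.env.va
  have ha3 : W.a₃ ∈ A := by rw [hN.h3]; exact A.zero_mem
  have ha4 : W.a₄ ∈ A := (A.valuation_le_one_iff _).mp hN.env.vb.le
  have ha6 : W.a₆ ∈ A := by rw [hN.h6]; exact A.zero_mem
  rcases hE0 with h0 | ⟨X, m, ⟨hX0, hh, hXM⟩, hv⟩
  · exact h0
  · subst hXM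
    rcases hv.lt_or_eq with hlt | heq
    · -- `T ∈ E1`
      have hE1 : InE1 A (Point.some X (m * X) hh) := by
        show X ∉ A
        rw [← A.valuation_le_one_iff, not_le]; exact hlt
      exact ftwo_eq_zero_of_inE1_of_nsmul A ha1 ha2 ha3 ha4 ha6 h2 n hn hE1 hnT
    · exact (b2g_unit_case A hN h2 H hres n hn hn3 hh hTH heq.symm hnT).elim

end Fermat.Agent.S13
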