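import Fermat.Agent.S13.Two.FormalTwo
import Fermat.Agent.S13.Two.Add
import Fermat.Agent.S13.Contracts
import Fermat.Agent.S05.Interface
import Fermat.Agent.S05.MultEndgame
import Fermat.Agent.S05.FreyNT
import Fermat.Agent.S54.Frobenius

/-!
# S13, package (B2): no nonzero `G_ℚ`-fixed `p`-torsion point on the Frey curve (2-adic proof)

Everything except the label calculus, which enters through the two abstract hypotheses
`b2r_TLHyp` (torsion label theorem near the node, residue characteristic `2`) and `b2r_E0Hyp`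
(`E₀` is closed under addition).

* valuations of rational numbers at a place `A` of `Qbar` over `2`;
* the integer-label contradiction `b2r_label_absurd`;
* `G_ℚ`-fixed points have rational coordinates;
* numerics of the Frey curve at `2`: `a₂ ∈ ℤ`, `v(a₄) = v(2)^(p·v₂(b) - 4)`;
* `b2r_fixed_torsion_eq_zero`: the core statement for a model `y² + xy = x³ + a₂x² + a₄x`;
* `b2r_contractB2 : b2r_TLHyp → b2r_E0Hyp → ContractB2 P`.
-/

set_option autoImplicit false

namespace Fermat.Agent.S13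

open WeierstrassCurve WeierstrassCurve.Affine
open Fermat.Agent.S05
open Fermat.Agent.S05.MultEndgame (InE0)
open Fermat.Agent.S05.LegAdd (IsXM isXM_some)
open Fermat.Agent.S13.Two

local instance b2r_isAlgebraicQbar : Algebra.IsAlgebraic ℚ Qbar := AlgebraicClosure.isAlgebraic ℚ
local instance b2r_isAlgClosureQbar : IsAlgClosure ℚ Qbar := ⟨inferInstance, inferInstance⟩
local instance b2r_normalQbar : Normal ℚ Qbar := IsAlgClosure.normal ℚ Qbar
local instance b2r_isGaloisQbar : IsGalois ℚ Qbar := ⟨⟩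

/-! ### Valuations of rational numbers at a place over `2` -/

section arith

variable {A : ValuationSubring Qbar}

theorem b2r_val_two_lt (hA : A.LiesOverPrime 2) : A.valuation (2 : Qbar) < 1 := by
  have : ((2 : ℕ) : Qbar) ∈ A.nonunits := hA
  rw [A.mem_nonunits_iff] at this
  simpa using this

theorem b2r_val_two_pos : 0 < A.valuation (2 : Qbar) := by
  rw [Valuation.pos_iff]; exact two_ne_zero

theorem b2r_val_odd (hA : A.LiesOverPrime 2) {m : ℕ} (hm : Odd m) :
    A.valuation (m : Qbar) = 1 :=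
  (valuation_natCast_eq_one_iff Nat.prime_two hA m).mpr (fun h => by
    rw [← even_iff_two_dvd] at h
    exact (Nat.not_even_iff_odd.mpr hm) h)

theorem b2r_val_nat (hA : A.LiesOverPrime 2) {n : ℕ} (hn : n ≠ 0) :
    ∃ j : ℕ, A.valuation (n : Qbar) = A.valuation (2 : Qbar) ^ j := by
  obtain ⟨k, m, hm, rfl⟩ := Nat.exists_eq_two_pow_mul_odd hn
  refine ⟨k, ?_⟩
  push_cast
  rw [map_mul, map_pow, b2r_val_odd hA hm, mul_one]

theorem b2r_val_int (hA : A.LiesOverPrime 2) {n : ℤ} (hn : n ≠ 0) :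
    ∃ j : ℕ, A.valuation (n : Qbar) = A.valuation (2 : Qbar) ^ j := by
  obtain ⟨j, hj⟩ := b2r_val_nat hA (Int.natAbs_ne_zero.mpr hn)
  refine ⟨j, ?_⟩
  rw [← hj]
  rcases Int.natAbs_eq n with h | h
  · conv_lhs => rw [h]
    simp
  · conv_lhs => rw [h]
    simp

theorem b2r_val_rat (hA : A.LiesOverPrime 2) {r : ℚ} (hr : r ≠ 0) :
    ∃ j : ℤ, A.valuation (r : Qbar) = A.valuation (2 : Qbar) ^ j := by
  obtain ⟨i, hi⟩ := b2r_val_int hA (Rat.num_ne_zero.mpr hr)
  obtain ⟨k, hk⟩ := b2r_val_nat hA r.den_ne_zero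
  refine ⟨(i : ℤ) - k, ?_⟩
  have h0 := b2r_val_two_pos (A := A)
  rw [Rat.cast_def, map_div₀, hi, hk, zpow_sub₀ h0.ne', zpow_natCast, zpow_natCast]

/-- A rational number in `A` is congruent to `0` or `1` modulo the maximal ideal. -/
theorem b2r_rat_mem (hA : A.LiesOverPrime 2) {r : ℚ} (hr : (r : Qbar) ∈ A) :
    (r : Qbar) ∈ A.nonunits ∨ (r : Qbar) - 1 ∈ A.nonunits := by
  -- the denominator is odd
  have hden : Odd r.den := by
    by_contra hcon
    rw [Nat.not_odd_iff_even] at hcon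
    have hnum : Odd r.num.natAbs := by
      by_contra hc
      rw [Nat.not_odd_iff_even] at hc
      have h2 : 2 ∣ Nat.gcd r.num.natAbs r.den :=
        Nat.dvd_gcd (even_iff_two_dvd.mp hc) (even_iff_two_dvd.mp hcon)
      rw [r.reduced] at h2
      omega
    have hvnum : A.valuation ((r.num : ℤ) : Qbar) = 1 := by
      have := b2r_val_odd hA hnum
      rcases Int.natAbs_eq r.num with h | h
      · conv_lhs => rw [h]
        simpa using this
      · conv_lhs => rw [h]
        simpa using this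
    have hvden : A.valuation ((r.den : ℕ) : Qbar) < 1 := by
      obtain ⟨c, hc⟩ := even_iff_two_dvd.mp hcon
      rw [hc]
      push_cast
      rw [map_mul]
      exact mul_lt_one_of_nonneg_of_lt_one_left zero_le (b2r_val_two_lt hA)
        ((A.valuation_le_one_iff _).mpr (natCast_mem A c))
    have hpos : 0 < A.valuation ((r.den : ℕ) : Qbar) := by
      rw [Valuation.pos_iff]; exact_mod_cast r.den_ne_zero
    have : 1 < A.valuation (r : Qbar) := by
      rw [Rat.cast_def, map_div₀, hvnum, one_div]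
      exact (one_lt_inv₀ hpos).mpr hvden
    exact absurd ((A.valuation_le_one_iff _).mpr hr) (not_le.mpr this)
  have hvden : A.valuation ((r.den : ℕ) : Qbar) = 1 := b2r_val_odd hA hden
  have key : ∀ z : ℤ, Even z → A.valuation ((z : Qbar) / (r.den : Qbar)) < 1 := by
    intro z hz
    rw [map_div₀, hvden, div_one]
    obtain ⟨c, hc⟩ := even_iff_two_dvd.mp hz
    rw [hc]
    push_cast
    rw [map_mul]
    exact mul_lt_one_of_nonneg_of_lt_one_left zero_le (b2r_val_two_lt hA)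
      ((A.valuation_le_one_iff _).mpr (intCast_mem A c))
  rcases Int.even_or_odd r.num with he | ho
  · left
    rw [A.mem_nonunits_iff, Rat.cast_def]
    exact key _ he
  · right
    rw [A.mem_nonunits_iff]
    have hd0 : ((r.den : ℕ) : Qbar) ≠ 0 := by exact_mod_cast r.den_ne_zero
    have e : (r : Qbar) - 1 = ((r.num - (r.den : ℤ) : ℤ) : Qbar) / (r.den : Qbar) := by
      rw [Rat.cast_def]
      push_cast
      field_simp
    rw [e]
    apply key
    have : Odd (r.den : ℤ) := by exact_mod_cast hden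
    exact Odd.sub_odd ho this

end arith

/-! ### The integer-label contradiction -/

theorem b2r_label_absurd {Γ : Type*} [LinearOrderedCommGroupWithZero Γ] {t vx va : Γ}
    (ht0 : 0 < t) (ht1 : t < 1) {p N : ℕ} (hp : p.Prime) (hN : ¬ p ∣ N) (j k : ℤ)
    (hx : vx = t ^ j) (ha : va = t ^ N) (hlab : vx ^ p = va ^ k) (h1 : va < vx) (h2 : vx < 1) :
    False := by
  have hinj : Function.Injective (fun n : ℤ => t ^ n) :=
    zpow_right_injective₀ ht0 ht1.ne
  have hanti : ∀ m n : ℤ, t ^ m < t ^ n ↔ n < m := fun m n =>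
    zpow_lt_zpow_iff_right_of_lt_one₀ ht0 ht1
  have e1 : t ^ (j * p) = t ^ ((N : ℤ) * k) := by
    rw [zpow_mul, zpow_natCast, ← hx, hlab, ha, zpow_mul, zpow_natCast]
  have e2 : j * p = (N : ℤ) * k := hinj e1
  have hpk : (p : ℤ) ∣ k := by
    have hd : (p : ℤ) ∣ (N : ℤ) * k := ⟨j, by rw [← e2]; ring⟩
    rcases (Nat.prime_iff_prime_int.mp hp).dvd_or_dvd hd with h | h
    · exact absurd (Int.natCast_dvd_natCast.mp h) hN
    · exact h
  obtain ⟨k', rfl⟩ := hpk
  have e3 : j = (N : ℤ) * k' := by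
    have hp0 : (p : ℤ) ≠ 0 := by exact_mod_cast hp.ne_zero
    apply mul_right_cancel₀ hp0
    rw [e2]; ring
  rw [hx, ha, e3] at h1
  rw [hx, e3] at h2
  rw [← zpow_natCast, hanti] at h1
  have h2' : t ^ ((N : ℤ) * k') < t ^ (0 : ℤ) := by simpa using h2
  rw [hanti] at h2'
  have hNpos : (0 : ℤ) ≤ N := Int.natCast_nonneg N
  have hN0 : (0 : ℤ) < N := by
    rcases hNpos.lt_or_eq with h | h
    · exact h
    · rw [← h, zero_mul] at h2'; exact absurd h2' (lt_irrefl _)
  have hk0 : 0 < k' := by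
    by_contra hc
    have hc : k' ≤ 0 := not_lt.mp hc
    have : (N : ℤ) * k' ≤ 0 := mul_nonpos_of_nonneg_of_nonpos hNpos hc
    omega
  have : (N : ℤ) * 1 ≤ (N : ℤ) * k' := mul_le_mul_of_nonneg_left hk0 hNpos
  omega

/-! ### Rationality of fixed points -/

/-- A `G_ℚ`-fixed element of `Qbar` is rational. -/
theorem b2r_rat_of_fixed {x : Qbar} (h : ∀ σ : GalQ, σ x = x) : ∃ r : ℚ, x = (r : Qbar) := by
  obtain ⟨r, hr⟩ := (InfiniteGalois.mem_range_algebraMap_iff_fixed (k := ℚ) (K := Qbar) x).mpr h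
  exact ⟨r, by rw [← hr, eq_ratCast]⟩

/-- A `G_ℚ`-fixed affine point has rational coordinates. -/
theorem b2r_rat_of_fixed_point (E : WeierstrassCurve ℚ) {x y : Qbar} (h : (E⁄Qbar).Nonsingular x y)
    (hfix : ∀ σ : GalQ, σ • (Point.some x y h : (E⁄Qbar).Point) = Point.some x y h) :
    (∃ r : ℚ, x = (r : Qbar)) ∧ ∃ r : ℚ, y = (r : Qbar) := by
  have key : ∀ σ : GalQ, σ x = x ∧ σ y = y := by
    intro σ
    have := hfix σ
    rw [smul_point_some] at this
    injection this with h1 h2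
    exact ⟨h1, h2⟩
  exact ⟨b2r_rat_of_fixed fun σ => (key σ).1, b2r_rat_of_fixed fun σ => (key σ).2⟩


/-! ### Numerics of the Frey curve at `2` -/

section frey

variable {A : ValuationSubring Qbar}

variable (P : FreyPackage)

theorem b2r_two_dvd_b : (2 : ℤ) ∣ P.b := (ZMod.intCast_zmod_eq_zero_iff_dvd P.b 2).1 P.hb2

theorem b2r_not_two_dvd_a : ¬ (2 : ℤ) ∣ P.a := by
  intro h
  obtain ⟨c, hc⟩ := h
  have h4 := P.ha4
  rw [hc] at h4
  push_cast at h4
  -- `2 * c` is `0` or `2` mod `4`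
  have : ∀ z : ZMod 4, (2 : ZMod 4) * z ≠ 3 := by decide
  exact this _ h4

theorem b2r_four_dvd : (4 : ℤ) ∣ P.b ^ P.p - 1 - P.a ^ P.p := by
  have h4 : ((4 : ℕ) : ℤ) = 4 := by norm_num
  rw [← h4, ← ZMod.intCast_zmod_eq_zero_iff_dvd]
  push_cast
  rw [P.ha4]
  obtain ⟨c, hc⟩ := b2r_two_dvd_b P
  have hb : ((P.b : ℤ) : ZMod 4) ^ P.p = 0 := by
    rw [hc]
    push_cast
    rw [mul_pow]
    have h2 : (2 : ZMod 4) ^ P.p = 0 := by
      have : P.p = 2 + (P.p - 2) := by have := P.hp5; omega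
      rw [this, pow_add]
      have : (2 : ZMod 4) ^ 2 = 0 := by decide
      rw [this, zero_mul]
    rw [h2, zero_mul]
  have h3 : (3 : ZMod 4) ^ P.p = 3 := by
    have : (3 : ZMod 4) = -1 := by decide
    rw [this, P.hp_odd.neg_one_pow]
  rw [hb, h3]
  decide

/-- `a₂` of the Frey curve is an integer. -/
theorem b2r_a₂_int : ∃ z : ℤ, (P.freyCurve⁄Qbar).a₂ = (z : Qbar) := by
  obtain ⟨z, hz⟩ := b2r_four_dvd P
  refine ⟨z, ?_⟩
  rw [FreyNT.bc_a₂]
  have : ((P.b : Qbar) ^ P.p - 1 - (P.a : Qbar) ^ P.p) = ((P.b ^ P.p - 1 - P.a ^ P.p : ℤ) : Qbar) := by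
    push_cast; ring
  rw [this, hz]
  push_cast
  field_simp

theorem b2r_a₂_mem : (P.freyCurve⁄Qbar).a₂ ∈ A := by
  obtain ⟨z, hz⟩ := b2r_a₂_int P
  rw [hz]; exact intCast_mem A z

theorem b2r_a₄_ne_zero : (P.freyCurve⁄Qbar).a₄ ≠ 0 := by
  rw [FreyNT.bc_a₄]
  have ha : (P.a : Qbar) ≠ 0 := by exact_mod_cast P.ha0
  have hb : (P.b : Qbar) ≠ 0 := by exact_mod_cast P.hb0
  have : (-((P.a : Qbar) ^ P.p) * (P.b : Qbar) ^ P.p) ≠ 0 :=
    mul_ne_zero (neg_ne_zero.mpr (pow_ne_zero _ ha)) (pow_ne_zero _ hb)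
  exact div_ne_zero this (by norm_num)

/-- The valuation of `a₄` of the Frey curve at a place over `2`: `v(2)^N` with `p ∤ N`, `0 < N`. -/
theorem b2r_val_a₄ (hA : A.LiesOverPrime 2) :
    ∃ N : ℕ, 0 < N ∧ ¬ P.p ∣ N ∧
      A.valuation (P.freyCurve⁄Qbar).a₄ = A.valuation (2 : Qbar) ^ N := by
  have h2pos : 0 < A.valuation (2 : Qbar) := by
    rw [Valuation.pos_iff]; exact two_ne_zero
  have h2lt := b2r_val_two_lt hA
  -- `v a = 1`
  have hva : A.valuation ((P.a : ℤ) : Qbar) = 1 :=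
    (valuation_intCast_eq_one_iff Nat.prime_two hA P.a).mpr (by
      simpa using b2r_not_two_dvd_a P)
  -- `v b = v 2 ^ e`, `e ≥ 1`
  obtain ⟨e, m, hm, hbe⟩ := Nat.exists_eq_two_pow_mul_odd (Int.natAbs_ne_zero.mpr P.hb0)
  have hvm : A.valuation ((m : ℕ) : Qbar) = 1 :=
    (valuation_natCast_eq_one_iff Nat.prime_two hA m).mpr (fun h => by
      rw [← even_iff_two_dvd] at h
      exact (Nat.not_even_iff_odd.mpr hm) h)
  have hvb : A.valuation ((P.b : ℤ) : Qbar) = A.valuation (2 : Qbar) ^ e := by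
    have h1 : A.valuation ((P.b.natAbs : ℕ) : Qbar) = A.valuation (2 : Qbar) ^ e := by
      rw [hbe]; push_cast
      rw [map_mul, map_pow, hvm, mul_one]
    rw [← h1]
    rcases Int.natAbs_eq P.b with h | h
    · conv_lhs => rw [h]
      simp
    · conv_lhs => rw [h]
      simp
  have he : 1 ≤ e := by
    by_contra hc
    have he0 : e = 0 := by omega
    rw [he0, pow_zero, one_mul] at hbe
    have h2 : (2 : ℤ) ∣ P.b := b2r_two_dvd_b P
    have : 2 ∣ P.b.natAbs := by
      have := Int.natAbs_dvd_natAbs.mpr h2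
      simpa using this
    rw [hbe] at this
    rw [← even_iff_two_dvd] at this
    exact (Nat.not_even_iff_odd.mpr hm) this
  have hp5 := P.hp5
  have hpe : 5 ≤ P.p * e := by nlinarith
  refine ⟨P.p * e - 4, by omega, ?_, ?_⟩
  · intro hd
    have h1 : P.p ∣ P.p * e := dvd_mul_right _ _
    have h4 : P.p ∣ 4 := by
      have := (Nat.dvd_sub h1 hd)
      have e4 : P.p * e - (P.p * e - 4) = 4 := by omega
      rwa [e4] at this
    have := Nat.le_of_dvd (by norm_num) h4
    omega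
  · rw [FreyNT.bc_a₄, map_div₀, map_mul, Valuation.map_neg, map_pow, map_pow, hva, one_pow, one_mul,
      hvb, ← pow_mul]
    have h16 : A.valuation (16 : Qbar) = A.valuation (2 : Qbar) ^ 4 := by
      rw [← map_pow]; norm_num
    rw [h16, div_eq_iff (pow_ne_zero _ h2pos.ne'), ← pow_add]
    congr 1
    have : e * P.p = P.p * e := mul_comm _ _
    omega

end frey

/-! ### The local model and the two label-calculus hypotheses -/

/-- The model `y² + xy = x³ + a₂x² + a₄x` with multiplicative reduction at a place of residue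
characteristic `2`. -/
structure b2r_Model (A : ValuationSubring Qbar) (W : Affine Qbar) : Prop where
  a₁ : W.a₁ = 1
  a₃ : W.a₃ = 0
  a₆ : W.a₆ = 0
  a₂ : W.a₂ ∈ A
  a₄_lt : A.valuation W.a₄ < 1
  a₄_ne : W.a₄ ≠ 0
  two : A.valuation (2 : Qbar) < 1

/-- The torsion-label statement in residue characteristic `2` (to be supplied by the label
calculus). -/
def b2r_TLHyp : Prop :=
  ∀ (A : ValuationSubring Qbar) (W : Affine Qbar), b2r_Model A W →
    ∀ (n : ℕ) (x y : Qbar) (h : W.Nonsingular x y), n • Point.some x y h = 0 →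
      A.valuation W.a₄ < A.valuation x → A.valuation x < 1 →
      ∃ k : ℤ, A.valuation x ^ n = A.valuation W.a₄ ^ k

/-- `E₀` (points not reducing to the node) is closed under addition (to be supplied by the label
calculus, Core 1). -/
def b2r_E0Hyp : Prop :=
  ∀ (A : ValuationSubring Qbar) (W : Affine Qbar), b2r_Model A W →
    ∀ P Q : W.Point, InE0 A P → InE0 A Q → InE0 A (P + Q)

section model

variable {A : ValuationSubring Qbar} {W : Affine Qbar} (hM : b2r_Model A W)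
include hM

theorem b2r_Model.mem_a₁ : W.a₁ ∈ A := by rw [hM.a₁]; exact A.one_mem
theorem b2r_Model.mem_a₃ : W.a₃ ∈ A := by rw [hM.a₃]; exact A.zero_mem
theorem b2r_Model.mem_a₆ : W.a₆ ∈ A := by rw [hM.a₆]; exact A.zero_mem
theorem b2r_Model.mem_a₄ : W.a₄ ∈ A := (A.valuation_le_one_iff _).mp hM.a₄_lt.le

theorem b2r_Model.two_mem : (2 : Qbar) ∈ A.nonunits := A.mem_nonunits_iff.mpr hM.two

theorem b2r_inE0_nsmul (hE0 : b2r_E0Hyp) {P : W.Point} (hP : InE0 A P) (n : ℕ) :
    InE0 A (n • P) := by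
  induction n with
  | zero => rw [zero_nsmul]; exact trivial
  | succ n ih => rw [succ_nsmul]; exact hE0 A W hM _ _ ih hP

/-- The derivative `W_y = 2y + a₁x + a₃` is a unit at an integral point with unit abscissa. -/
theorem b2r_Wy_not_mem {x y : Qbar} (hxu : x ∉ A.nonunits) (hy : y ∈ A) :
    2 * y + W.a₁ * x + W.a₃ ∉ A.nonunits := by
  intro hc
  apply hxu
  rw [hM.a₁, hM.a₃] at hc
  have h2y : 2 * y ∈ A.nonunits := by
    rw [mul_comm]; exact mul_mem_nonunits_of_mem A hy hM.two_mem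
  have : x = (2 * y + 1 * x + 0) - 2 * y := by ring
  rw [this]
  rw [A.mem_nonunits_iff] at hc h2y ⊢
  exact Valuation.map_sub_lt _ hc h2y

end model

theorem b2r_eq_zero_of_two_nsmul {G : Type*} [AddCommGroup G] {T : G} {p : ℕ} (hodd : Odd p)
    (h2 : 2 • T = 0) (hT : p • T = 0) : T = 0 := by
  obtain ⟨k, rfl⟩ := hodd
  rw [add_nsmul, mul_nsmul, h2, nsmul_zero, zero_add, one_nsmul] at hT
  exact hT

theorem b2r_eq_zero_of_three_nsmul {G : Type*} [AddCommGroup G] {T : G} {p : ℕ} (hp : p.Prime)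
    (hp5 : 5 ≤ p) (h3 : 3 • T = 0) (hT : p • T = 0) : T = 0 := by
  have h1 : addOrderOf T ∣ 3 := addOrderOf_dvd_of_nsmul_eq_zero h3
  have h2 : addOrderOf T ∣ p := addOrderOf_dvd_of_nsmul_eq_zero hT
  have hcop : Nat.Coprime 3 p := by
    rw [Nat.coprime_comm, Nat.Prime.coprime_iff_not_dvd hp]
    intro h
    have := Nat.le_of_dvd (by norm_num) h
    omega
  have := Nat.dvd_gcd h1 h2
  rw [hcop.gcd_eq_one, Nat.dvd_one] at this
  exact AddMonoid.addOrderOf_eq_one_iff.mp this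



/-! ### The core statement -/

section core

variable {A : ValuationSubring Qbar} (E : WeierstrassCurve ℚ)

/-- Step A: a rational `p`-torsion point does not reduce to the node. -/
theorem b2r_inE0_of_fixed (hTL : b2r_TLHyp) (hE0 : b2r_E0Hyp) (hA : A.LiesOverPrime 2)
    (hM : b2r_Model A (E⁄Qbar)) {p : ℕ} (hp : p.Prime) (hp5 : 5 ≤ p) {N : ℕ} (hN : ¬ p ∣ N)
    (ha4 : A.valuation (E⁄Qbar).a₄ = A.valuation (2 : Qbar) ^ N)
    (T : (E⁄Qbar).Point) (hT : p • T = 0) (hfix : ∀ σ : GalQ, σ • T = T) : InE0 A T := by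
  have hodd : Odd p := hp.odd_of_ne_two (by omega)
  rcases T with _ | ⟨x, y, h⟩
  · exact trivial
  · show x ∉ A.nonunits
    intro hxm
    have hxlt : A.valuation x < 1 := A.mem_nonunits_iff.mp hxm
    have h0 : (E⁄Qbar).Nonsingular 0 0 := two_nonsingular_T0 hM.a₃ hM.a₆ hM.a₄_ne
    have hT0T0 := two_T0_add_T0 (W := (E⁄Qbar)) hM.a₃ h0
    by_cases hx0 : x = 0
    · -- `T = (0, 0)` is `2`-torsion
      subst hx0
      have hy : y = 0 := by
        have he := h.1
        rw [Affine.equation_iff, hM.a₃, hM.a₆] at he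
        have : y ^ 2 = 0 := by linear_combination he
        exact pow_eq_zero_iff (by norm_num) |>.mp this
      subst hy
      have h2 : 2 • (Point.some 0 0 h : (E⁄Qbar).Point) = 0 := by
        rw [two_nsmul]; exact two_T0_add_T0 hM.a₃ h
      exact Point.some_ne_zero h (b2r_eq_zero_of_two_nsmul hodd h2 hT)
    · have hvx0 : A.valuation x ≠ 0 := (Valuation.ne_zero_iff _).mpr hx0
      have hvxpos : 0 < A.valuation x := zero_lt_iff.mpr hvx0
      by_cases hlow : A.valuation x ≤ A.valuation (E⁄Qbar).a₄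
      · -- translate by `T0`
        have hXM : IsXM (Point.some x y h : (E⁄Qbar).Point) x (y / x) := isXM_some h hx0
        obtain ⟨hX', h', e'⟩ := two_isXM_add_T0 hM.a₃ hM.a₆ h0 hXM hM.a₄_ne
        have hin : InE0 A (Point.some x y h + Point.some 0 0 h0 : (E⁄Qbar).Point) := by
          rw [e']
          show (E⁄Qbar).a₄ / x ∉ A.nonunits
          rw [A.mem_nonunits_iff, not_lt, map_div₀]
          exact (one_le_div₀ hvxpos).mpr hlow
        have hp' := b2r_inE0_nsmul hM hE0 hin p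
        have hpT0 : p • (Point.some 0 0 h0 : (E⁄Qbar).Point) = Point.some 0 0 h0 := by
          obtain ⟨k, rfl⟩ := hodd
          rw [add_nsmul, mul_nsmul, two_nsmul, hT0T0, nsmul_zero, zero_add, one_nsmul]
        rw [nsmul_add, hT, zero_add, hpT0] at hp'
        apply hp'
        show (0 : Qbar) ∈ A.nonunits
        rw [A.mem_nonunits_iff, map_zero]; exact zero_lt_one
      · -- the label argument
        have hlow' : A.valuation (E⁄Qbar).a₄ < A.valuation x := not_le.mp hlow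
        obtain ⟨k, hk⟩ := hTL A _ hM p x y h hT hlow' hxlt
        obtain ⟨⟨rx, hrx⟩, -⟩ := b2r_rat_of_fixed_point E h hfix
        have hrx0 : rx ≠ 0 := by
          rintro rfl
          apply hx0
          rw [hrx]; simp
        obtain ⟨j, hj⟩ := b2r_val_rat hA hrx0
        rw [← hrx] at hj
        exact b2r_label_absurd b2r_val_two_pos (b2r_val_two_lt hA) hp hN j k hj ha4 hk hlow' hxlt

/-- **Core of (B2).** A `G_ℚ`-fixed `p`-torsion point on a curve with model `b2r_Model` at a place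
over `2`, with `v(a₄) = v(2)^N`, `p ∤ N`, is zero. -/
theorem b2r_fixed_torsion_eq_zero (hTL : b2r_TLHyp) (hE0 : b2r_E0Hyp) (hA : A.LiesOverPrime 2)
    (hM : b2r_Model A (E⁄Qbar)) {p : ℕ} (hp : p.Prime) (hp5 : 5 ≤ p) {N : ℕ} (hN : ¬ p ∣ N)
    (ha4 : A.valuation (E⁄Qbar).a₄ = A.valuation (2 : Qbar) ^ N)
    (T : (E⁄Qbar).Point) (hT : p • T = 0) (hfix : ∀ σ : GalQ, σ • T = T) : T = 0 := by
  have hodd : Odd p := hp.odd_of_ne_two (by omega)
  have hvp : A.valuation (p : Qbar) = 1 :=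
    valuation_prime_eq_one Nat.prime_two hA hp (by omega)
  have m1 := hM.mem_a₁
  have m2 := hM.a₂
  have m3 := hM.mem_a₃
  have m4 := hM.mem_a₄
  have m6 := hM.mem_a₆
  -- `E₁` has no `p`-torsion
  have hL1 : ∀ R : (E⁄Qbar).Point, InE1 A R → p • R = 0 → R = 0 := fun R hR h =>
    ftwo_eq_zero_of_inE1_of_nsmul A m1 m2 m3 m4 m6 hM.two p hvp hR h
  -- integral coordinates of points of `E₀` of order `p`
  have hint : ∀ (x y : Qbar) (h : (E⁄Qbar).Nonsingular x y), p • Point.some x y h = 0 →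
      x ∈ A ∧ y ∈ A := by
    intro x y h hp0
    have hx : x ∈ A := by
      by_contra hx
      exact Point.some_ne_zero h (hL1 _ (show x ∉ A from hx) hp0)
    exact ⟨hx, y_mem_of_x_mem A m1 m2 m3 m4 m6 h.1 hx⟩
  by_contra hT0
  have hTE0 := b2r_inE0_of_fixed E hTL hE0 hA hM hp hp5 hN ha4 T hT hfix
  -- the double of `T`
  have hT2 : p • (2 • T) = 0 := by rw [smul_comm, hT, nsmul_zero]
  have hfix2 : ∀ σ : GalQ, σ • (2 • T) = 2 • T := fun σ => by
    rw [smul_point_nsmul, hfix σ]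
  have hT20 : 2 • T ≠ 0 := fun h2 => hT0 (b2r_eq_zero_of_two_nsmul hodd h2 hT)
  have hT2E0 : InE0 A (2 • T) := by rw [two_nsmul]; exact hE0 A _ hM T T hTE0 hTE0
  rcases T with _ | ⟨x, y, h⟩
  · exact hT0 rfl
  rcases hT2eq : 2 • (Point.some x y h : (E⁄Qbar).Point) with _ | ⟨x₂, y₂, h₂⟩
  · exact hT20 hT2eq
  rw [hT2eq] at hT2 hfix2 hT2E0
  obtain ⟨hx, hy⟩ := hint x y h hT
  obtain ⟨hx₂, hy₂⟩ := hint x₂ y₂ h₂ hT2
  have hxu : x ∉ A.nonunits := hTE0
  have hx₂u : x₂ ∉ A.nonunits := hT2E0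
  obtain ⟨⟨rx, hrx⟩, ⟨ry, hry⟩⟩ := b2r_rat_of_fixed_point E h hfix
  obtain ⟨⟨rx₂, hrx₂⟩, ⟨ry₂, hry₂⟩⟩ := b2r_rat_of_fixed_point E h₂ hfix2
  have hx1 : x - 1 ∈ A.nonunits := by
    have := b2r_rat_mem hA (r := rx) (by rw [← hrx]; exact hx)
    rw [← hrx] at this
    exact this.resolve_left hxu
  have hx₂1 : x₂ - 1 ∈ A.nonunits := by
    have := b2r_rat_mem hA (r := rx₂) (by rw [← hrx₂]; exact hx₂)
    rw [← hrx₂] at this
    exact this.resolve_left hx₂u
  have hy01 : y ∈ A.nonunits ∨ y - 1 ∈ A.nonunits := by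
    have := b2r_rat_mem hA (r := ry) (by rw [← hry]; exact hy)
    rwa [← hry] at this
  have hy₂01 : y₂ ∈ A.nonunits ∨ y₂ - 1 ∈ A.nonunits := by
    have := b2r_rat_mem hA (r := ry₂) (by rw [← hry₂]; exact hy₂)
    rwa [← hry₂] at this
  have hxx : x₂ - x ∈ A.nonunits := by
    have : x₂ - x = (x₂ - 1) - (x - 1) := by ring
    rw [this, A.mem_nonunits_iff]
    exact Valuation.map_sub_lt _ (A.mem_nonunits_iff.mp hx₂1) (A.mem_nonunits_iff.mp hx1)
  have h2m := hM.two_mem
  -- same reduction: `2T - T ∈ E₁`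
  have same : y₂ - y ∈ A.nonunits → False := by
    intro hyy
    have hns : ¬ ((E⁄Qbar).a₁ * y - (3 * x ^ 2 + 2 * (E⁄Qbar).a₂ * x + (E⁄Qbar).a₄) ∈ A.nonunits ∧
        2 * y + (E⁄Qbar).a₁ * x + (E⁄Qbar).a₃ ∈ A.nonunits) :=
      fun hc => b2r_Wy_not_mem hM hxu hy hc.2
    have key := sub_mem_E1_of_congr A m1 m2 m3 m4 h h₂ hx hy hxx hyy hns
    rw [← hT2eq, two_nsmul, add_sub_cancel_right] at key
    exact key hx
  -- opposite reduction: `2T + T ∈ E₁`
  have opp : y₂ - (E⁄Qbar).negY x y ∈ A.nonunits → False := by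
    intro hyy
    have h' : (E⁄Qbar).Nonsingular x ((E⁄Qbar).negY x y) := (Affine.nonsingular_neg ..).mpr h
    have hy' : (E⁄Qbar).negY x y ∈ A := by
      rw [Affine.negY]
      exact sub_mem (sub_mem (neg_mem hy) (mul_mem m1 hx)) m3
    have hns : ¬ ((E⁄Qbar).a₁ * (E⁄Qbar).negY x y
          - (3 * x ^ 2 + 2 * (E⁄Qbar).a₂ * x + (E⁄Qbar).a₄) ∈ A.nonunits ∧
        2 * (E⁄Qbar).negY x y + (E⁄Qbar).a₁ * x + (E⁄Qbar).a₃ ∈ A.nonunits) :=
      fun hc => b2r_Wy_not_mem hM hxu hy' hc.2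
    have key := sub_mem_E1_of_congr A m1 m2 m3 m4 h' h₂ hx hy' hxx hyy hns
    have e3 : (Point.some x₂ y₂ h₂ - Point.some x ((E⁄Qbar).negY x y) h' : (E⁄Qbar).Point)
        = 3 • Point.some x y h := by
      have hn : (Point.some x ((E⁄Qbar).negY x y) h' : (E⁄Qbar).Point) = -Point.some x y h :=
        (Point.neg_some h).symm
      rw [hn, ← hT2eq, sub_neg_eq_add, ← succ_nsmul]
    rw [e3] at key
    have h3 : 3 • (Point.some x y h : (E⁄Qbar).Point) = 0 :=
      hL1 _ key (by rw [smul_comm, hT, nsmul_zero])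
    exact hT0 (b2r_eq_zero_of_three_nsmul hp hp5 h3 hT)
  -- `negY x y = -y - x`
  have hneg : (E⁄Qbar).negY x y = -y - x := by
    rw [Affine.negY, hM.a₁, hM.a₃]; ring
  have lt_of := fun {z : Qbar} (hz : z ∈ A.nonunits) => A.mem_nonunits_iff.mp hz
  rcases hy01 with hy0 | hy1 <;> rcases hy₂01 with hy₂0 | hy₂1
  · apply same
    rw [A.mem_nonunits_iff]
    exact Valuation.map_sub_lt _ (lt_of hy₂0) (lt_of hy0)
  · apply opp
    rw [hneg, A.mem_nonunits_iff]
    have : y₂ - (-y - x) = (y₂ - 1) + y + (x - 1) + 2 := by ring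
    rw [this]
    exact Valuation.map_add_lt _ (Valuation.map_add_lt _ (Valuation.map_add_lt _ (lt_of hy₂1)
      (lt_of hy0)) (lt_of hx1)) (lt_of h2m)
  · apply opp
    rw [hneg, A.mem_nonunits_iff]
    have : y₂ - (-y - x) = y₂ + (y - 1) + (x - 1) + 2 := by ring
    rw [this]
    exact Valuation.map_add_lt _ (Valuation.map_add_lt _ (Valuation.map_add_lt _ (lt_of hy₂0)
      (lt_of hy1)) (lt_of hx1)) (lt_of h2m)
  · apply same
    rw [A.mem_nonunits_iff]
    have : y₂ - y = (y₂ - 1) - (y - 1) := by ring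
    rw [this]
    exact Valuation.map_sub_lt _ (lt_of hy₂1) (lt_of hy1)

end core

/-! ### The Frey curve -/

section final

variable {A : ValuationSubring Qbar}

theorem b2r_frey_model (P : FreyPackage) (hA : A.LiesOverPrime 2) :
    b2r_Model A (P.freyCurve⁄Qbar) := by
  obtain ⟨N, hN0, -, hN⟩ := b2r_val_a₄ (A := A) P hA
  refine ⟨FreyNT.bc_a₁ P Qbar, FreyNT.bc_a₃ P Qbar, FreyNT.bc_a₆ P Qbar, b2r_a₂_mem P, ?_,
    b2r_a₄_ne_zero P, b2r_val_two_lt hA⟩
  rw [hN]
  exact pow_lt_one₀ zero_le (b2r_val_two_lt hA) hN0.ne'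

/-- **(B2)** for the Frey curve, modulo the label calculus. -/
theorem b2r_contractB2 (hTL : b2r_TLHyp) (hE0 : b2r_E0Hyp) (P : FreyPackage) :
    Fermat.Agent.S13x.ContractB2 P := by
  intro x hx
  obtain ⟨A, -, hA2⟩ := Fermat.Agent.S54.exists_valuationSubring_over 2 Nat.prime_two
  have hA : A.LiesOverPrime 2 := hA2
  obtain ⟨N, -, hpN, hN⟩ := b2r_val_a₄ (A := A) P hA
  have hT : P.p • (x : (P.freyCurve⁄Qbar).Point) = 0 := by
    have := x.2
    rw [Submodule.mem_torsionBy_iff] at this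
    rw [← natCast_zsmul]
    exact this
  have hfix : ∀ σ : GalQ, σ • (x : (P.freyCurve⁄Qbar).Point) = x := fun σ =>
    congrArg Subtype.val (hx σ)
  apply Subtype.ext
  exact b2r_fixed_torsion_eq_zero P.freyCurve hTL hE0 hA (b2r_frey_model P hA) P.pp P.hp5 hpN hN
    _ hT hfix

end final

end Fermat.Agent.S13
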