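import Fermat.Agent.S13.Two.B2Final
import Fermat.Agent.S13.Two.RatGood
import Fermat.Agent.S13.Two.Rational

/-!
# S13 (B2) holds: the Frey curve has no nonzero Galois-fixed `p`-torsion point
-/

set_option autoImplicit false

namespace Fermat.Agent.S13.TwoRat

open WeierstrassCurve WeierstrassCurve.Affine
open Fermat.Agent.S05 Fermat.Agent.S13.TwoLabel

/-- The subgroup of Galois-fixed points. -/
noncomputable def b2_fixedPts (E : WeierstrassCurve ℚ) : AddSubgroup (E⁄Qbar).Point where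
  carrier := {Q | ∀ σ : GalQ, σ • Q = Q}
  zero_mem' := fun σ => smul_point_zero E σ
  add_mem' := fun {a b} ha hb σ => by
    rw [smul_point_add, ha σ, hb σ]
  neg_mem' := fun {a} ha σ => by
    rw [smul_point_neg, ha σ]

theorem b2_mem_fixedPts {E : WeierstrassCurve ℚ} {Q : (E⁄Qbar).Point} :
    Q ∈ b2_fixedPts E ↔ ∀ σ : GalQ, σ • Q = Q := Iff.rfl

/-- **Contract (B2)**, unconditionally. -/
theorem b2_contractB2_holds (P : FreyPackage) : Fermat.Agent.S13x.ContractB2 P := by
  refine b2_of_E0case P ?_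
  intro A hA Q hfix hpQ hE0
  obtain ⟨s0, hN⟩ := RatNode.rnode_exists_node P hA
  have hres : b2g_Res A (b2_fixedPts P.freyCurve) := by
    intro x y h hH hx hy
    obtain ⟨⟨r, rfl⟩, ⟨r', rfl⟩⟩ := b2r_rat_of_fixed_point P.freyCurve h hH
    exact ⟨b2r_rat_mem hA hx, b2r_rat_mem hA hy⟩
  have h3 : ¬ 3 ∣ P.p := by
    intro h
    have := (Nat.prime_dvd_prime_iff_eq Nat.prime_three P.pp).mp h
    have := P.hp5
    omega
  exact b2g_eq_zero_of_E0 A hN (RatNode.rnode_val_two_lt hA) (b2_fixedPts P.freyCurve) hres P.p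
    (RatNode.rnode_val_p P hA) h3 hfix hpQ hE0

end Fermat.Agent.S13.TwoRat
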