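import Fermat.Agent.S13.Two.Add

/-!
# S13, package (B): the valuation environment of a node at `(0,0)` (any residue characteristic)

Curve `y² + a₁ x y = x³ + a₂ x² + a₄ x` over a valued field `(K, v)` (multiplicative notation),
`v a₄ < 1`, `a₄ ≠ 0`, and the two tangent directions `s`, `-s - a₁` at the node (roots of
`T² + a₁ T - a₂`) are integral and DISTINCT in the residue field: `v (2 s + a₁) = 1`.
For the Frey curve at a place over `2`: `a₁ = 1`, `v 2 < 1`, so `v (2 s + 1) = 1` is automatic.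
(`Fermat.Agent.S05.LegLabel.VEnv` is the case `a₁ = 0`, `v 2 = 1`.)
-/

set_option autoImplicit false
set_option linter.unusedSectionVars false

namespace Fermat.Agent.S13.Two

open WeierstrassCurve WeierstrassCurve.Affine
open Fermat.Agent.S05.LegAdd (IsXM isXM_some some_congr)

variable {K : Type*} [Field K] [DecidableEq K] {Γ₀ : Type*} [LinearOrderedCommGroupWithZero Γ₀]
  {v : Valuation K Γ₀} {W : Affine K} {s : K}

/-- The hypotheses on the curve and the valuation. -/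
structure TwoEnv (v : Valuation K Γ₀) (W : Affine K) (s : K) : Prop where
  h3 : W.a₃ = 0
  h6 : W.a₆ = 0
  va1 : v W.a₁ ≤ 1
  hs : s ^ 2 + W.a₁ * s = W.a₂
  vs : v s ≤ 1
  vd : v (2 * s + W.a₁) = 1
  vb : v W.a₄ < 1
  b_ne : W.a₄ ≠ 0

theorem TwoEnv.va2 (hE : TwoEnv v W s) : v W.a₂ ≤ 1 := by
  rw [← hE.hs]
  refine v.map_add_le ?_ ?_
  · rw [map_pow]; exact pow_le_one₀ zero_le hE.vs
  · rw [map_mul]; exact mul_le_one₀ hE.va1 zero_le hE.vs

theorem TwoEnv.vb_pos (hE : TwoEnv v W s) : 0 < v W.a₄ :=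
  lt_of_le_of_ne zero_le (Ne.symm (v.ne_zero_iff.mpr hE.b_ne))

/-- the other tangent direction -/
theorem TwoEnv.hs' (hE : TwoEnv v W s) : (-s - W.a₁) ^ 2 + W.a₁ * (-s - W.a₁) = W.a₂ := by
  linear_combination hE.hs

theorem TwoEnv.nonsingular_T0 (hE : TwoEnv v W s) : W.Nonsingular 0 0 :=
  two_nonsingular_T0 hE.h3 hE.h6 hE.b_ne

/-- The `2`-torsion point `(0,0)`. -/
noncomputable def T0 (hE : TwoEnv v W s) : W.Point := Point.some 0 0 hE.nonsingular_T0

theorem T0_add_T0 (hE : TwoEnv v W s) : T0 hE + T0 hE = 0 :=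
  two_T0_add_T0 hE.h3 hE.nonsingular_T0

theorem neg_T0 (hE : TwoEnv v W s) : -T0 hE = T0 hE :=
  neg_eq_of_add_eq_zero_left (T0_add_T0 hE)

/-- Points not reducing to the node. -/
def E0 (v : Valuation K Γ₀) (P : W.Point) : Prop :=
  P = 0 ∨ ∃ X m, IsXM P X m ∧ 1 ≤ v X

/-- The kernel of reduction. -/
def E1 (v : Valuation K Γ₀) (P : W.Point) : Prop :=
  P = 0 ∨ ∃ X m, IsXM P X m ∧ 1 < v X

/-- Points near the node on the branch `m ≡ s`, with `v X = v c`. -/
def Cp (v : Valuation K Γ₀) (s c : K) (P : W.Point) : Prop :=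
  ∃ X m, IsXM P X m ∧ v X = v c ∧ v (m - s) < 1

theorem E0_zero : E0 v (0 : W.Point) := Or.inl rfl

theorem E1_zero : E1 v (0 : W.Point) := Or.inl rfl

theorem E1.E0 {P : W.Point} (h : E1 v P) : E0 v P := by
  rcases h with h | ⟨X, m, hP, hX⟩
  · exact Or.inl h
  · exact Or.inr ⟨X, m, hP, hX.le⟩

theorem E0_neg (hE : TwoEnv v W s) {P : W.Point} (h : E0 v P) : E0 v (-P) := by
  rcases h with rfl | ⟨X, m, hP, hX⟩
  · rw [neg_zero]; exact Or.inl rfl
  · exact Or.inr ⟨X, _, two_isXM_neg hE.h3 hP, hX⟩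

theorem E1_neg (hE : TwoEnv v W s) {P : W.Point} (h : E1 v P) : E1 v (-P) := by
  rcases h with rfl | ⟨X, m, hP, hX⟩
  · rw [neg_zero]; exact Or.inl rfl
  · exact Or.inr ⟨X, _, two_isXM_neg hE.h3 hP, hX⟩

theorem Cp_congr {c c' : K} (h : v c = v c') {P : W.Point} (hP : Cp v s c P) : Cp v s c' P := by
  obtain ⟨X, m, hXM, hX, hm⟩ := hP
  exact ⟨X, m, hXM, hX.trans h, hm⟩

theorem not_isXM_zero {X m : K} : ¬ IsXM (0 : W.Point) X m := by
  rintro ⟨_, _, h⟩
  exact Point.some_ne_zero _ h.symm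

theorem not_isXM_T0 (hE : TwoEnv v W s) {X m : K} : ¬ IsXM (T0 hE) X m := by
  rintro ⟨hX, _, h⟩
  unfold T0 at h
  injection h with h1 h2
  exact hX h1.symm

/-- Every point is `0`, `(0,0)`, or has `(X, m)`-coordinates. -/
theorem exists_isXM_of_ne (hE : TwoEnv v W s) (P : W.Point) (h0 : P ≠ 0) (hT : P ≠ T0 hE) :
    ∃ X m, IsXM P X m := by
  rcases P with _ | ⟨x, y, h⟩
  · exact absurd rfl h0
  · by_cases hx : x = 0
    · exfalso
      subst hx
      have e := two_eqn hE.h3 hE.h6 h.1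
      have hy : y = 0 := by
        have : y ^ 2 = 0 := by linear_combination e
        exact pow_eq_zero_iff two_ne_zero |>.mp this
      subst hy
      exact hT rfl
    · exact ⟨x, y / x, isXM_some h hx⟩

end Fermat.Agent.S13.Two
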