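/-
S13 (B2), generic part: on the model `y² + xy = x³ + a₂x² + a₄x` over a valued field of residue
characteristic `2` (`Node` of `TwoLabel`), a subgroup `H` of points whose integral coordinates
reduce into `𝔽₂` ("rational points"), which contains `(0,0)` and has no `n`-torsion in the open
annulus `v a₄ < v x < 1`, has no `n`-torsion at all (`v n = 1`, `3 ∤ n`).

Ingredients: `TwoLabel.E0_add` (label calculus), `FormalTwo` (`E₁` is a torsion-free subgroup),
`S05.sub_mem_E1_of_congr` (same nonsingular reduction ⇒ difference in `E₁`).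
-/
import Fermat.Agent.S13.Two.UnipotentGen

set_option autoImplicit false
set_option linter.unusedSectionVars false
set_option linter.unusedVariables false

namespace Fermat.Agent.S13B

open WeierstrassCurve WeierstrassCurve.Affine
open Fermat.Agent.S05 (InE1 sub_mem_E1_of_congr y_mem_of_x_mem)
open Fermat.Agent.S13
open Fermat.Agent.S13.TwoAdd Fermat.Agent.S13.TwoLabel

variable {K : Type*} [Field K] [DecidableEq K] (A : ValuationSubring K)
  {W : WeierstrassCurve.Affine K} {s : K}

/-- `v n = 1` and `v 2 < 1` force `n` odd. -/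
lemma b2g_odd (h2 : A.valuation (2 : K) < 1) (n : ℕ) (hn : A.valuation (n : K) = 1) :
    ∃ k, n = 2 * k + 1 := by
  rcases Nat.even_or_odd' n with ⟨k, hk | hk⟩
  · exfalso
    have : A.valuation (n : K) < 1 := by
      rw [hk]; push_cast
      rw [map_mul]
      exact mul_lt_one_of_nonneg_of_lt_one_left zero_le h2
        ((A.valuation_le_one_iff _).mpr (natCast_mem A k))
    rw [hn] at this
    exact lt_irrefl _ this
  · exact ⟨k, hk⟩

/-- A point killed by `2` and by an odd `n` is zero. -/
lemma b2g_zero_of_two {G : Type*} [AddCommGroup G] {T : G} {n k : ℕ} (hk : n = 2 * k + 1)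
    (h2T : T + T = 0) (hT : n • T = 0) : T = 0 := by
  have e : n • T = k • (T + T) + T := by
    rw [hk, add_nsmul, one_nsmul, mul_nsmul', two_nsmul, nsmul_add]
  rw [e, h2T, nsmul_zero, zero_add] at hT
  exact hT

/-- A point killed by `3` and by `n` prime to `3` is zero. -/
lemma b2g_zero_of_three {G : Type*} [AddGroup G] {T : G} {n : ℕ} (h3 : Nat.Coprime 3 n)
    (h3T : T + T + T = 0) (hT : n • T = 0) : T = 0 := by
  have h3T' : 3 • T = 0 := by
    rw [show (3 : ℕ) = 1 + 1 + 1 from rfl, add_nsmul, add_nsmul, one_nsmul]; exact h3T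
  have d1 : addOrderOf T ∣ 3 := addOrderOf_dvd_of_nsmul_eq_zero h3T'
  have d2 : addOrderOf T ∣ n := addOrderOf_dvd_of_nsmul_eq_zero hT
  have d3 : addOrderOf T ∣ Nat.gcd 3 n := Nat.dvd_gcd d1 d2
  rw [h3.gcd_eq_one] at d3
  exact AddMonoid.addOrderOf_eq_one_iff.mp (Nat.dvd_one.mp d3)

section main

variable (hN : Node A.valuation W s) (h2 : A.valuation (2 : K) < 1)
  (H : AddSubgroup W.Point)
  (hresx : ∀ (x y : K) (h : W.Nonsingular x y), Point.some x y h ∈ H → x ∈ A →
    x ∈ A.nonunits ∨ x - 1 ∈ A.nonunits)
  (hresy : ∀ (x y : K) (h : W.Nonsingular x y), Point.some x y h ∈ H → y ∈ A →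
    y ∈ A.nonunits ∨ y - 1 ∈ A.nonunits)
  (n : ℕ) (hn : A.valuation (n : K) = 1) (h3 : Nat.Coprime 3 n)

include hN h2 hresx hresy hn h3

/-- The unit case: an `n`-torsion point of `H` with unit abscissa is zero. -/
theorem b2g_unit {x y : K} (h : W.Nonsingular x y) (hH : Point.some x y h ∈ H)
    (hx1 : A.valuation x = 1) (hT : n • Point.some x y h = 0) : Point.some x y h = 0 := by
  have hE := hN.env
  have m1 := b1u_a₁_mem A hN
  have m2 := b1u_a₂_mem A hN
  have m3 := b1u_a₃_mem A hN
  have m4 := b1u_a₄_mem A hN
  have m6 := b1u_a₆_mem A hN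
  obtain ⟨k, hk⟩ := b2g_odd A h2 n hn
  have tf : ∀ Q : W.Point, InE1 A Q → n • Q = 0 → Q = 0 := fun Q hQ hnQ =>
    ftwo_eq_zero_of_inE1_of_nsmul A m1 m2 m3 m4 m6 h2 n hn hQ hnQ
  have two_mem : (2 : K) ∈ A.nonunits := A.mem_nonunits_iff.mpr h2
  have hx0 : x ≠ 0 := by
    rintro rfl
    rw [map_zero] at hx1
    exact zero_ne_one hx1
  have hxA : x ∈ A := (A.valuation_le_one_iff _).mp hx1.le
  have hyA : y ∈ A := y_mem_of_x_mem A m1 m2 m3 m4 m6 h.1 hxA
  -- `x ≡ 1`
  have hx1' : A.valuation (x - 1) < 1 := by
    rcases hresx x y h hH hxA with hx | hx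
    · rw [A.mem_nonunits_iff, hx1] at hx; exact absurd hx (lt_irrefl _)
    · exact A.mem_nonunits_iff.mp hx
  -- `W_y` is a unit at points with unit abscissa
  have hWy : ∀ y0 : K, y0 ∈ A → ¬ (2 * y0 + W.a₁ * x + W.a₃ ∈ A.nonunits) := by
    intro y0 hy0 hcon
    rw [hN.h1, hN.h3, A.mem_nonunits_iff] at hcon
    have h2Y : A.valuation (2 * y0) < 1 := by
      rw [map_mul]
      exact mul_lt_one_of_nonneg_of_lt_one_left zero_le h2 ((A.valuation_le_one_iff _).mpr hy0)
    have : A.valuation (2 * y0 + 1 * x + 0) = 1 := by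
      rw [add_zero, one_mul, add_comm,
        Valuation.map_add_eq_of_lt_left _ (by rw [hx1]; exact h2Y), hx1]
    rw [this] at hcon
    exact lt_irrefl _ hcon
  -- the double
  set T : W.Point := Point.some x y h with hTdef
  have hE0T : E0 A.valuation T := Or.inr ⟨_, _, isXM_some h hx0, hx1.ge⟩
  have hD0 : E0 A.valuation (T + T) := E0_add hN hE0T hE0T
  have hDH : T + T ∈ H := H.add_mem hH hH
  have hDn : n • (T + T) = 0 := by rw [nsmul_add, hT, add_zero]
  rcases hD0 with hD | ⟨X, m, hXM, hv⟩
  · exact b2g_zero_of_two hk hD hT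
  · obtain ⟨hX0, h', eD⟩ := hXM
    rcases eq_or_lt_of_le hv with hX1 | hX1
    · -- `2T` has unit abscissa as well
      have hXA : X ∈ A := (A.valuation_le_one_iff _).mp hX1.symm.le
      have hYA : m * X ∈ A := y_mem_of_x_mem A m1 m2 m3 m4 m6 h'.1 hXA
      have hDH' : Point.some X (m * X) h' ∈ H := eD ▸ hDH
      have hX1' : A.valuation (X - 1) < 1 := by
        rcases hresx X (m * X) h' hDH' hXA with hx | hx
        · rw [A.mem_nonunits_iff, ← hX1] at hx; exact absurd hx (lt_irrefl _)
        · exact A.mem_nonunits_iff.mp hx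
      have hxx : X - x ∈ A.nonunits := by
        rw [A.mem_nonunits_iff]
        have e : X - x = (X - 1) - (x - 1) := by ring
        rw [e]
        exact Valuation.map_sub_lt _ hX1' hx1'
      have hy' := hresy x y h hH hyA
      have hY' := hresy X (m * X) h' hDH' hYA
      -- same reduction as `T` or as `-T`
      have hsame : A.valuation (m * X - y) < 1 → T = 0 := by
        intro hyy
        have key := sub_mem_E1_of_congr A m1 m2 m3 m4 h h' hxA hyA hxx
          (A.mem_nonunits_iff.mpr hyy) (fun hc => hWy y hyA hc.2)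
        rw [← eD, ← hTdef, add_sub_cancel_right] at key
        exact tf T key hT
      have hopp : A.valuation (m * X + y + x) < 1 → T = 0 := by
        intro hyy
        have hneg : W.negY x y = -y - x := by
          rw [negY, hN.h1, hN.h3]; ring
        have hnegA : W.negY x y ∈ A := by
          rw [hneg]; exact sub_mem (neg_mem hyA) hxA
        have hyy' : m * X - W.negY x y ∈ A.nonunits := by
          rw [A.mem_nonunits_iff, hneg]
          have e : m * X - (-y - x) = m * X + y + x := by ring
          rw [e]; exact hyy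
        have key := sub_mem_E1_of_congr A m1 m2 m3 m4 ((nonsingular_neg _ _).mpr h) h' hxA hnegA hxx
          hyy' (fun hc => hWy _ hnegA hc.2)
        have eneg : Point.some x (W.negY x y) ((nonsingular_neg _ _).mpr h) = -T := by
          rw [hTdef, Point.neg_some]
        rw [eneg, ← eD, sub_neg_eq_add] at key
        have h3n : n • (T + T + T) = 0 := by rw [nsmul_add, hDn, hT, add_zero]
        exact b2g_zero_of_three h3 (tf _ key h3n) hT
      have v2 : A.valuation (2 : K) < 1 := h2
      rcases hy' with hy0 | hy1 <;> rcases hY' with hY0 | hY1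
      · apply hsame
        exact Valuation.map_sub_lt _ (A.mem_nonunits_iff.mp hY0) (A.mem_nonunits_iff.mp hy0)
      · apply hopp
        have e : m * X + y + x = (m * X - 1) + y + (x - 1) + 2 := by ring
        rw [e]
        exact Valuation.map_add_lt _ (Valuation.map_add_lt _ (Valuation.map_add_lt _
          (A.mem_nonunits_iff.mp hY1) (A.mem_nonunits_iff.mp hy0)) hx1') v2
      · apply hopp
        have e : m * X + y + x = m * X + (y - 1) + (x - 1) + 2 := by ring
        rw [e]
        exact Valuation.map_add_lt _ (Valuation.map_add_lt _ (Valuation.map_add_lt _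
          (A.mem_nonunits_iff.mp hY0) (A.mem_nonunits_iff.mp hy1)) hx1') v2
      · apply hsame
        have e : m * X - y = (m * X - 1) - (y - 1) := by ring
        rw [e]
        exact Valuation.map_sub_lt _ (A.mem_nonunits_iff.mp hY1) (A.mem_nonunits_iff.mp hy1)
    · -- `2T ∈ E₁`
      have hD1 : InE1 A (T + T) := by
        rw [eD]
        show X ∉ A
        rw [← A.valuation_le_one_iff, not_le]; exact hX1
      exact b2g_zero_of_two hk (tf _ hD1 hDn) hT

/-- An `n`-torsion point of `H` which does not reduce to the node is zero. -/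
theorem b2g_E0 {T : W.Point} (hH : T ∈ H) (hE0 : E0 A.valuation T) (hT : n • T = 0) : T = 0 := by
  rcases hE0 with rfl | ⟨X, m, ⟨hX0, h', rfl⟩, hv⟩
  · rfl
  · rcases eq_or_lt_of_le hv with hX1 | hX1
    · exact b2g_unit A hN h2 H hresx hresy n hn h3 h' hH hX1.symm hT
    · have hD1 : InE1 A (Point.some X (m * X) h') := by
        show X ∉ A
        rw [← A.valuation_le_one_iff, not_le]; exact hX1
      exact ftwo_eq_zero_of_inE1_of_nsmul A (b1u_a₁_mem A hN) (b1u_a₂_mem A hN) (b1u_a₃_mem A hN)
        (b1u_a₄_mem A hN) (b1u_a₆_mem A hN) h2 n hn hD1 hT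

/-- **No rational `n`-torsion.**  If moreover `(0,0) ∈ H` and `H` has no `n`-torsion in the open
annulus `v a₄ < v x < 1`, then `H` has no `n`-torsion. -/
theorem b2g_no_torsion (hT0 : T0 hN ∈ H)
    (hnear : ∀ (x y : K) (h : W.Nonsingular x y), Point.some x y h ∈ H →
      n • Point.some x y h = 0 → A.valuation W.a₄ < A.valuation x → A.valuation x < 1 → False)
    {T : W.Point} (hH : T ∈ H) (hT : n • T = 0) : T = 0 := by
  have hE := hN.env
  obtain ⟨k, hk⟩ := b2g_odd A h2 n hn
  rcases T with _ | ⟨x, y, h⟩
  · rfl
  · by_cases hx : x = 0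
    · -- `T = (0, 0)`
      subst hx
      have hy : y = 0 := by
        have := h.1
        rw [equation_iff, hN.h1, hN.h3, hN.h6] at this
        have : y ^ 2 = 0 := by linear_combination this
        exact pow_eq_zero_iff (by norm_num) |>.mp this
      subst hy
      exact b2g_zero_of_two hk (T0_add_T0 hN.h1 hN.h3 h) hT
    · have hXM := isXM_some h hx
      rcases le_or_gt 1 (A.valuation x) with h1 | h1
      · exact b2g_E0 A hN h2 H hresx hresy n hn h3 hH (Or.inr ⟨_, _, hXM, h1⟩) hT
      · rcases lt_or_ge (A.valuation W.a₄) (A.valuation x) with h4 | h4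
        · exact (hnear x y h hH hT h4 h1).elim
        · -- deep in the node region: translate by `(0,0)`
          have hXpos : 0 < A.valuation x := by
            rw [Valuation.pos_iff]; exact hx
          have hQ := hXM.add_T0 hN.h1 hN.h3 hN.h6 (nonsingular_T0 hN) hE.b_ne
          have hv : 1 ≤ A.valuation (W.a₄ / x) := by
            rw [map_div₀, one_le_div₀ hXpos]; exact h4
          have hE0 : E0 A.valuation (Point.some x y h + Point.some 0 0 (nonsingular_T0 hN)) :=
            Or.inr ⟨_, _, hQ, hv⟩
          have hH' : Point.some x y h + Point.some 0 0 (nonsingular_T0 hN) ∈ H :=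
            H.add_mem hH hT0
          have h00 := T0_add_T0 hN.h1 hN.h3 (nonsingular_T0 hN)
          have e : (Point.some x y h + Point.some 0 0 (nonsingular_T0 hN)) +
              (Point.some x y h + Point.some 0 0 (nonsingular_T0 hN))
              = Point.some x y h + Point.some x y h := by
            calc (Point.some x y h + Point.some 0 0 (nonsingular_T0 hN)) +
              (Point.some x y h + Point.some 0 0 (nonsingular_T0 hN))
                = Point.some x y h + Point.some x y h + (Point.some 0 0 (nonsingular_T0 hN) +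
                    Point.some 0 0 (nonsingular_T0 hN)) := by abel
              _ = _ := by rw [h00, add_zero]
          have hD0 : E0 A.valuation (Point.some x y h + Point.some x y h) := by
            rw [← e]; exact E0_add hN hE0 hE0
          have hDH : Point.some x y h + Point.some x y h ∈ H := H.add_mem hH hH
          have hDn : n • (Point.some x y h + Point.some x y h) = 0 := by
            rw [nsmul_add, hT, add_zero]
          have hD := b2g_E0 A hN h2 H hresx hresy n hn h3 hDH hD0 hDn
          exact b2g_zero_of_two hk hD hT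

end main

end Fermat.Agent.S13B
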